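import Fermat.Agent.FLAT.Geo.FixedBasis
import Fermat.Agent.GAL.RED.Lift

/-!
# S36, route R, block AA2 (abstract part): lifting reductions over a smaller constant field

* `RedHom R0 R` : a morphism of reduction data (base change of the constants `K0 → K`, residue fields `k0 ≅ k`);
* `exists_lift_of_redHom` (LA1): if `R0` is cartesian and the finite dimensional `K`-subspace `V` of `F` has a basis coming from
  `F0`, then every element of `R.redSub V` is the reduction of an element of `F0`;
* `exists_dual_basis` (LA2): a finite dimensional space of "series" has a basis dual to finitely many coefficient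
  functionals; `fixed_of_dual_basis`: such a basis is fixed by all coefficientwise semilinear maps preserving the space.
-/

set_option autoImplicit false

namespace Fermat.Agent.S36R.AA

open Fermat.Agent.GAL.RED Module

section RedHom

variable {K0 F0 k0 Fb0 K F k Fb : Type*} [Field K0] [Field F0] [Algebra K0 F0] [Field k0] [Field Fb0]
  [Algebra k0 Fb0] [Field K] [Field F] [Algebra K F] [Field k] [Field Fb] [Algebra k Fb]

/-- A morphism of reduction data. -/
structure RedHom (R0 : RedData K0 F0 k0 Fb0) (R : RedData K F k Fb) where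
  i : K0 →+* K
  φ : F0 →+* F
  ib : k0 →+* k
  φb : Fb0 →+* Fb
  ib_surj : Function.Surjective ib
  φ_algebraMap : ∀ a, φ (algebraMap K0 F0 a) = algebraMap K F (i a)
  φb_algebraMap : ∀ a, φb (algebraMap k0 Fb0 a) = algebraMap k Fb (ib a)
  map_mem : ∀ x ∈ R0.O, φ x ∈ R.O
  red_map : ∀ x ∈ R0.O, R.red (φ x) = φb (R0.red x)

/-- **Leaf LA1.**
PROOF. `d := finrank K V`, `V0 := span K0 (range b)`, `finrank K0 V0 = d` (`finrank_span_eq_card hli`).
`finrank k0 (R0.redSub V0) = d` (`hC0 V0 inferInstance`); take a basis `y_1 … y_d` of it (`Module.finBasis`, `R0.finite_redSub`).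
The `h.φb (y_l)` are `k`-linearly independent: if `∑ c_l • φb y_l = 0`, write `c_l = ib c'_l` (`ib_surj`), then
`φb (∑ c'_l • y_l) = 0` (`Algebra.smul_def`, `φb_algebraMap`, `map_sum`, `map_mul`), `φb` is injective (`RingHom.injective`).
They lie in `R.redSub V`: `y_l = R0.red x_l`, `x_l ∈ V0 ∩ R0.O`, `φ x_l ∈ V` (`Submodule.span_induction`: `φ (a • b j) = i a • φ (b j)`), `red_map`.
`finrank k (R.redSub V) ≤ d` (`R.finrank_redSub_le V`), so they span `R.redSub V`
(`LinearIndependent.span_eq_top_of_card_eq_finrank'` inside `↥(R.redSub V)`, or `Submodule.eq_of_le_of_finrank_le`).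
So `v = ∑ c_l • φb y_l = φb (∑ c'_l • y_l)` and `∑ c'_l • y_l ∈ R0.redSub V0` is `R0.red x`, `x ∈ V0 ∩ R0.O`. -/
theorem exists_lift_of_redHom {R0 : RedData K0 F0 k0 Fb0} {R : RedData K F k Fb} (h : RedHom R0 R)
    (hC0 : R0.IsCartesian) (V : Submodule K F) [Module.Finite K V] (b : Fin (finrank K V) → F0)
    (hb : ∀ j, h.φ (b j) ∈ V) (hli : LinearIndependent K0 b) {v : Fb} (hv : v ∈ R.redSub V) :
    ∃ x : F0, x ∈ R0.O ∧ h.φ x ∈ V ∧ R.red (h.φ x) = v := by
  classical
  set V0 : Submodule K0 F0 := Submodule.span K0 (Set.range b) with hV0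
  have hV0fin : Module.Finite K0 V0 := Module.Finite.span_of_finite K0 (Set.finite_range b)
  have hV0d : finrank K0 V0 = finrank K V := by
    rw [hV0, finrank_span_eq_card hli, Fintype.card_fin]
  set W0 := R0.redSub V0 with hW0
  have hW0fin : Module.Finite k0 W0 := R0.finite_redSub V0
  have hW0d : finrank k0 W0 = finrank K V := by rw [hW0, hC0 V0 hV0fin, hV0d]
  have hsemi : ∀ (c : k0) (u : Fb0), h.φb (c • u) = h.ib c • h.φb u := by
    intro c u
    rw [Algebra.smul_def, map_mul, h.φb_algebraMap, ← Algebra.smul_def]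
  have hφV : ∀ x ∈ V0, h.φ x ∈ V := by
    intro x hx
    induction hx using Submodule.span_induction with
    | mem y hy =>
      obtain ⟨j, rfl⟩ := hy
      exact hb j
    | zero => rw [map_zero]; exact V.zero_mem
    | add x y _ _ hx hy => rw [map_add]; exact V.add_mem hx hy
    | smul a x _ hx =>
      rw [Algebra.smul_def, map_mul, h.φ_algebraMap, ← Algebra.smul_def]
      exact V.smul_mem _ hx
  have hA : ∀ w ∈ W0, ∃ x : F0, x ∈ R0.O ∧ h.φ x ∈ V ∧ R.red (h.φ x) = h.φb w := by
    rintro w ⟨x, hxV, hxO, rfl⟩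
    exact ⟨x, hxO, hφV x hxV, h.red_map x hxO⟩
  let y : Basis (Fin (finrank K V)) k0 W0 := Module.finBasisOfFinrankEq k0 W0 hW0d
  set z : Fin (finrank K V) → Fb := fun l => h.φb (y l : Fb0) with hz
  have hsum : ∀ g' : Fin (finrank K V) → k0, h.φb ((∑ l, g' l • y l : W0) : Fb0) = ∑ l, h.ib (g' l) • z l := by
    intro g'
    rw [Submodule.coe_sum, map_sum]
    apply Finset.sum_congr rfl
    intro l _
    rw [Submodule.coe_smul, hsemi]
  have hzli : LinearIndependent k z := by
    rw [Fintype.linearIndependent_iff]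
    intro g hg
    choose g' hg' using fun l => h.ib_surj (g l)
    have h1 : h.φb ((∑ l, g' l • y l : W0) : Fb0) = 0 := by
      rw [hsum, ← hg]
      apply Finset.sum_congr rfl
      intro l _
      rw [hg']
    have h2 : (∑ l, g' l • y l : W0) = 0 := by
      apply Subtype.ext
      exact (map_eq_zero h.φb).1 h1
    have h3 := Fintype.linearIndependent_iff.1 y.linearIndependent g' h2
    intro l
    rw [← hg', h3 l, map_zero]
  have hzmem : ∀ l, z l ∈ R.redSub V := by
    intro l
    obtain ⟨x, hxO, hxV, hx⟩ := hA (y l) (y l).2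
    exact ⟨h.φ x, hxV, h.map_mem x hxO, hx⟩
  have hfinV : Module.Finite k (R.redSub V) := R.finite_redSub V
  have hspan : Submodule.span k (Set.range z) = R.redSub V := by
    apply Submodule.eq_of_le_of_finrank_le
    · rw [Submodule.span_le]
      rintro _ ⟨l, rfl⟩
      exact hzmem l
    · rw [finrank_span_eq_card hzli, Fintype.card_fin]
      exact R.finrank_redSub_le V
  rw [← hspan, Submodule.mem_span_range_iff_exists_fun] at hv
  obtain ⟨c, hc⟩ := hv
  choose c' hc' using fun l => h.ib_surj (c l)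
  obtain ⟨x, hxO, hxV, hx⟩ := hA ((∑ l, c' l • y l : W0) : Fb0) (∑ l, c' l • y l : W0).2
  refine ⟨x, hxO, hxV, ?_⟩
  rw [hx, hsum, ← hc]
  apply Finset.sum_congr rfl
  intro l _
  rw [hc']

end RedHom

section Dual

variable {K F : Type*} [Field K] [AddCommGroup F] [Module K F]

/-- **Leaf LA2a.**  (no valuation here.)
PROOF. `FLAT.Geo.exists_separating_subfamily'` for the restrictions `(lam e).comp V.subtype`: exponents `e_1 … e_d`
(`d = finrank K V`) such that `Φ : V → (Fin d → K)`, `f ↦ (lam (e i) f)_i` is injective, hence bijective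
(`LinearMap.injective_iff_surjective_of_finrank_eq_finrank`, `Module.finrank_fin_fun`); `b j := Φ⁻¹ (Pi.single j 1)`.
Linear independence: apply `lam (e i)` to a relation. -/
theorem exists_dual_basis (lam : ℤ → F →ₗ[K] K) (hsep : ∀ f : F, (∀ e, lam e f = 0) → f = 0)
    (V : Submodule K F) [Module.Finite K V] :
    ∃ (e : Fin (finrank K V) → ℤ) (b : Fin (finrank K V) → F), (∀ j, b j ∈ V) ∧
      LinearIndependent K b ∧ (∀ i j, lam (e i) (b j) = if i = j then 1 else 0) ∧
      ∀ f ∈ V, (∀ i, lam (e i) f = 0) → f = 0 := by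
  classical
  obtain ⟨e, he⟩ := FLAT.Geo.exists_separating_subfamily' (k := K) (E := V)
    (fun n : ℤ => (lam n).comp V.subtype) (fun x hx => Subtype.ext (hsep x hx))
  let Φ : V →ₗ[K] (Fin (finrank K V) → K) := LinearMap.pi fun i => (lam (e i)).comp V.subtype
  have hΦ : ∀ (x : V) i, Φ x i = lam (e i) x := fun _ _ => rfl
  have hinj : Function.Injective Φ := by
    rw [injective_iff_map_eq_zero]
    intro x hx
    exact he x fun a => by
      have := congrFun hx a
      exact this
  have hsurj : Function.Surjective Φ :=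
    (LinearMap.injective_iff_surjective_of_finrank_eq_finrank (by rw [Module.finrank_fin_fun])).1
      hinj
  choose b hb using fun j : Fin (finrank K V) => hsurj (Pi.single j 1)
  have hδ : ∀ i j, lam (e i) (b j : F) = if i = j then 1 else 0 := by
    intro i j
    rw [← hΦ, hb, Pi.single_apply]
  refine ⟨e, fun j => b j, fun j => (b j).2, ?_, hδ, fun f hf h => ?_⟩
  · rw [Fintype.linearIndependent_iff]
    intro g hg i
    have h1 := congrArg (lam (e i)) hg
    simp only [map_sum, map_smul, hδ, smul_eq_mul, mul_ite, mul_one, mul_zero, map_zero,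
      Finset.sum_ite_eq, Finset.mem_univ, if_true] at h1
    exact h1
  · exact congrArg Subtype.val (he ⟨f, hf⟩ h)

/-- **Leaf LA2b.**  `g b_j - b_j ∈ V` is killed by all `lam (e i)`. -/
theorem fixed_of_dual_basis (lam : ℤ → F →ₗ[K] K) (V : Submodule K F) {d : ℕ} (e : Fin d → ℤ)
    (b : Fin d → F) (hb : ∀ j, b j ∈ V) (hδ : ∀ i j, lam (e i) (b j) = if i = j then 1 else 0)
    (hinj : ∀ f ∈ V, (∀ i, lam (e i) f = 0) → f = 0)
    (g : F → F) (σ : K →+* K) (hgV : ∀ f ∈ V, g f ∈ V) (hg : ∀ e f, lam e (g f) = σ (lam e f))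
    (j : Fin d) : g (b j) = b j := by
  have h1 : g (b j) - b j ∈ V := V.sub_mem (hgV _ (hb j)) (hb j)
  have h2 := hinj _ h1 (fun i => by
    rw [map_sub, hg, hδ]
    split_ifs <;> simp)
  exact sub_eq_zero.mp h2

end Dual

end Fermat.Agent.S36R.AA
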