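import Mathlib

/-!
# S36, route R, block AA1: the chart rings `integralClosure O[c] F0` (abstract, Mathlib only)

`O` a noetherian integrally closed domain (in the application the DVR `O0 = A ∩ Kbar^I`),
`K0 = Frac O`, `F0 / K0` a field, `c : F0` transcendental over `K0`, `F0` finite separable over
`K0(c)`.  The chart ring is `Rc O c := integralClosure (Algebra.adjoin O {c}) F0`.

Main results: `Rc O c` is noetherian, integrally closed, finite over `O[c]`, with fraction field `F0`.
-/

set_option autoImplicit false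

namespace Fermat.Agent.S36R.AA

open Polynomial IntermediateField

variable (O K0 : Type*) {F0 : Type*} [CommRing O] [Field K0] [Field F0]
  [Algebra O K0] [Algebra K0 F0] [Algebra O F0] [IsScalarTower O K0 F0]

/-- The polynomial chart `O[c] ⊆ F0`. -/
abbrev Oc (c : F0) : Subalgebra O F0 := Algebra.adjoin O {c}

/-- The chart ring: the integral closure of `O[c]` in `F0`. -/
abbrev Rc (c : F0) : Subalgebra (Oc O c) F0 := integralClosure (Oc O c) F0

theorem Oc_le_adjoin (c : F0) : Oc O c ≤ (K0⟮c⟯.toSubalgebra).restrictScalars O := by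
  refine Algebra.adjoin_le ?_
  intro x hx
  rw [Set.mem_singleton_iff] at hx
  rw [hx]
  exact mem_adjoin_simple_self K0 c

/-- `O[c] → K0(c)`. -/
noncomputable def OcToAdjoin (c : F0) : Oc O c →+* K0⟮c⟯ :=
  (Subalgebra.inclusion (Oc_le_adjoin O K0 c)).toRingHom

/-- The algebra structure of `K0(c)` over `O[c]` (a local instance in this file; a `def` for users). -/
@[instance_reducible]
noncomputable def algebraOcAdjoin (c : F0) : Algebra (Oc O c) K0⟮c⟯ :=
  (OcToAdjoin O K0 c).toAlgebra

attribute [local instance] algebraOcAdjoin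

theorem algebraMap_Oc_adjoin_coe (c : F0) (x : Oc O c) :
    ((algebraMap (Oc O c) K0⟮c⟯ x : K0⟮c⟯) : F0) = (x : F0) := rfl

theorem isScalarTower_Oc_adjoin (c : F0) : IsScalarTower (Oc O c) K0⟮c⟯ F0 :=
  IsScalarTower.of_algebraMap_eq fun _ => rfl

theorem isNoetherianRing_Oc [IsNoetherianRing O] (c : F0) : IsNoetherianRing (Oc O c) :=
  isNoetherianRing_of_fg (Subalgebra.fg_def.2 ⟨{c}, Set.finite_singleton c, rfl⟩)

theorem transcendental_O [FaithfulSMul O K0] {c : F0} (hc : Transcendental K0 c) :
    Transcendental O c := by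
  intro h
  exact hc (h.extendScalars (FaithfulSMul.algebraMap_injective O K0))

theorem isIntegrallyClosed_Oc [IsDomain O] [IsIntegrallyClosed O] {c : F0}
    (hc : Transcendental O c) : IsIntegrallyClosed (Oc O c) :=
  IsIntegrallyClosed.of_equiv (Polynomial.algEquivOfTranscendental O c hc).toRingEquiv

theorem faithfulSMul_Oc_adjoin (c : F0) : FaithfulSMul (Oc O c) K0⟮c⟯ := by
  rw [faithfulSMul_iff_algebraMap_injective]
  intro x y h
  apply Subtype.ext
  have := congrArg (fun z : K0⟮c⟯ => (z : F0)) h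
  simpa [algebraMap_Oc_adjoin_coe] using this

/-- Clearing denominators: `aeval c r`, `r ∈ K0[X]`, is `x / b` with `x ∈ O[c]`, `0 ≠ b ∈ O`. -/
theorem exists_aeval_eq_div [IsDomain O] [IsFractionRing O K0] (c : F0) (r : K0[X]) :
    ∃ (x : Oc O c) (b : O), b ≠ 0 ∧ algebraMap O F0 b * aeval c r = (x : F0) := by
  obtain ⟨b, hb, hb2⟩ := IsLocalization.integerNormalization_spec (nonZeroDivisors O) r
  refine ⟨⟨aeval c (IsLocalization.integerNormalization (nonZeroDivisors O) r), ?_⟩, b,
    nonZeroDivisors.ne_zero hb, ?_⟩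
  · rw [Oc, Algebra.adjoin_singleton_eq_range_aeval O c]; exact ⟨_, rfl⟩
  · have h1 : aeval c ((IsLocalization.integerNormalization (nonZeroDivisors O) r).map
        (algebraMap O K0)) = aeval c (b • r) := by rw [hb2]
    rw [aeval_map_algebraMap] at h1
    have h2 : aeval c (b • r) = b • aeval c r := by
      rw [← IsScalarTower.algebraMap_smul K0 b r, map_smul, IsScalarTower.algebraMap_smul]
    show _ = aeval c (IsLocalization.integerNormalization (nonZeroDivisors O) r)
    rw [h1, h2, Algebra.smul_def]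

theorem isFractionRing_Oc_adjoin [IsDomain O] [IsFractionRing O K0] (c : F0) :
    IsFractionRing (Oc O c) K0⟮c⟯ := by
  have := faithfulSMul_Oc_adjoin O K0 c
  refine IsFractionRing.of_field _ _ fun z => ?_
  obtain ⟨r, s, hz⟩ := (mem_adjoin_simple_iff K0 (z : F0)).1 z.2
  obtain ⟨x, b, hb, hx⟩ := exists_aeval_eq_div O K0 c r
  obtain ⟨y, d, hd, hy⟩ := exists_aeval_eq_div O K0 c s
  have hinj : Function.Injective (algebraMap O F0) := by
    rw [IsScalarTower.algebraMap_eq O K0 F0]
    exact (algebraMap K0 F0).injective.comp (IsFractionRing.injective O K0)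
  have hb' : algebraMap O F0 b ≠ 0 := (map_ne_zero_iff _ hinj).2 hb
  have hd' : algebraMap O F0 d ≠ 0 := (map_ne_zero_iff _ hinj).2 hd
  refine ⟨x * algebraMap O (Oc O c) d, y * algebraMap O (Oc O c) b, ?_⟩
  apply Subtype.ext
  have e1 : ((algebraMap (Oc O c) K0⟮c⟯ (x * algebraMap O (Oc O c) d) /
      algebraMap (Oc O c) K0⟮c⟯ (y * algebraMap O (Oc O c) b) : K0⟮c⟯) : F0) =
      ((x : F0) * algebraMap O F0 d) / ((y : F0) * algebraMap O F0 b) := rfl
  rw [e1, hz, ← hx, ← hy]
  by_cases hs : aeval c s = 0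
  · simp [hs]
  · field_simp

/-- **AA1 (a)**: the chart ring is noetherian. -/
theorem isNoetherianRing_Rc [IsDomain O] [IsFractionRing O K0] [IsNoetherianRing O]
    [IsIntegrallyClosed O] {c : F0} (hc : Transcendental K0 c) [FiniteDimensional K0⟮c⟯ F0]
    [Algebra.IsSeparable K0⟮c⟯ F0] : IsNoetherianRing (Rc O c) := by
  have := isFractionRing_Oc_adjoin O K0 c
  have := isScalarTower_Oc_adjoin O K0 c
  have := isNoetherianRing_Oc O c
  have := isIntegrallyClosed_Oc O (transcendental_O O K0 hc)
  exact IsIntegralClosure.isNoetherianRing (Oc O c) K0⟮c⟯ F0 (Rc O c)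

/-- **AA1 (b)**: the chart ring is a finite `O[c]`-module. -/
theorem finite_Rc [IsDomain O] [IsFractionRing O K0] [IsNoetherianRing O]
    [IsIntegrallyClosed O] {c : F0} (hc : Transcendental K0 c) [FiniteDimensional K0⟮c⟯ F0]
    [Algebra.IsSeparable K0⟮c⟯ F0] : Module.Finite (Oc O c) (Rc O c) := by
  have := isFractionRing_Oc_adjoin O K0 c
  have := isScalarTower_Oc_adjoin O K0 c
  have := isNoetherianRing_Oc O c
  have := isIntegrallyClosed_Oc O (transcendental_O O K0 hc)
  exact IsIntegralClosure.finite (Oc O c) K0⟮c⟯ F0 (Rc O c)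

/-- **AA1 (c)**: the chart ring has fraction field `F0`. -/
theorem isFractionRing_Rc [IsDomain O] [IsFractionRing O K0] (c : F0)
    [FiniteDimensional K0⟮c⟯ F0] : IsFractionRing (Rc O c) F0 := by
  have := isFractionRing_Oc_adjoin O K0 c
  have := isScalarTower_Oc_adjoin O K0 c
  exact integralClosure.isFractionRing_of_finite_extension K0⟮c⟯ F0

/-- **AA1 (d)**: the chart ring is integrally closed. -/
theorem isIntegrallyClosed_Rc [IsDomain O] [IsFractionRing O K0] (c : F0)
    [FiniteDimensional K0⟮c⟯ F0] : IsIntegrallyClosed (Rc O c) := by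
  have := isFractionRing_Oc_adjoin O K0 c
  have := isScalarTower_Oc_adjoin O K0 c
  exact integralClosure.isIntegrallyClosedOfFiniteExtension K0⟮c⟯

end Fermat.Agent.S36R.AA
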