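import Fermat.Agent.S36R.AA.Inst
import Fermat.Agent.S36R.AA.Abs
import Fermat.Agent.GAL.Tors.Dict.Degree

/-!
# S36, route R, block AA: the concrete chart rings `R0 = integralClosure O0[j]`, `R1 = integralClosure O0[1/j]`
in `F0 = FF (K0 A) N`
-/

set_option autoImplicit false
set_option linter.unusedSectionVars false

namespace Fermat.Agent.S36R

open AlgebraicCurve ModularCurve Fermat.Agent.GAL Fermat.Agent.S24 IntermediateField
open Fermat.Agent.GAL.Tors.Dict Polynomial Fermat.Agent.S24.Degree

noncomputable section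

section generic

variable (K : Type) [Field K] [Algebra ℚ K] [CharZero K] (ι : K →+* ℂ)

theorem Conc_transcendental_jF (N : ℕ) : Transcendental K (Tors.Dict.jF K N) := by
  intro h
  exact degree_transcendental_jK K (h.algebraMap (A := LaurentSeries K))

theorem Conc_AL_le_goodSub (N : ℕ) [NeZero N] : AL K N ≤ goodSub K ι N := by
  rw [AL, Algebra.adjoin_le_iff]
  rintro _ ⟨d, hd, hdN, rfl⟩
  exact degree_jdS_mem_goodSub K ι hdN

include ι in
/-- `Dict.finiteDimensional_jF` without the (unused) hypothesis that `K` is algebraically closed. -/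
theorem Conc_finiteDimensional_jF (N : ℕ) [NeZero N] :
    FiniteDimensional K⟮Tors.Dict.jF K N⟯ (FF K N) := by
  have := degree_finite_gensF K N
  refine (finrank_le_of_relations (Tors.Dict.jF K N)
    (Nat.card (Matrix.SpecialLinearGroup (Fin 2) ℤ ⧸ CongruenceSubgroup.Gamma0 N)) (gensF K N)
    (jF_mem_A K N) (exists_div K N) fun a ha => ?_).1
  have ha' : (a : LaurentSeries K) ∈ goodSub K ι N :=
    Conc_AL_le_goodSub K ι N ((mem_A_iff K).mp ha)
  obtain ⟨p', hp'⟩ := degree_exists_relation K ι N (coeffEmb K jq) (degree_isConv_jK K ι)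
    (degree_PsiFun_jK K ι) _ ha'
  refine ⟨fun i => ⟨aeval (Tors.Dict.jF K N) (p' i), aeval_mem_adjoin_singleton _ _⟩, ?_⟩
  exact relation_lift (FF K N) (Tors.Dict.jF K N) a p' hp'

theorem Conc_isSeparable {K F : Type*} [Field K] [Field F] [Algebra K F] [CharZero K] (x : F)
    [FiniteDimensional K⟮x⟯ F] : Algebra.IsSeparable K⟮x⟯ F := by
  have : CharZero K⟮x⟯ := charZero_of_injective_algebraMap (algebraMap K K⟮x⟯).injective
  exact Algebra.IsAlgebraic.isSeparable_of_perfectField

end generic

variable (A : ValuationSubring Kbar) (N : ℕ) [NeZero N]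

/-- an embedding `K0 A → ℂ`. -/
def iotaK0 : K0 A →+* ℂ := iota.comp (algebraMap (K0 A) Kbar)

omit [NeZero N] in
theorem transcendental_j0 : Transcendental (K0 A) (j0 A N) := Conc_transcendental_jF (K0 A) N

theorem finiteDimensional_j0 : FiniteDimensional (K0 A)⟮j0 A N⟯ (FF (K0 A) N) :=
  Conc_finiteDimensional_jF (K0 A) (iotaK0 A) N

theorem isSeparable_j0 : Algebra.IsSeparable (K0 A)⟮j0 A N⟯ (FF (K0 A) N) := by
  have := finiteDimensional_j0 A N
  exact Conc_isSeparable (j0 A N)

end

end Fermat.Agent.S36R
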