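import Fermat.Agent.S36R.AA.LiftAbs
import Fermat.Agent.S36R.AA.Conc
import Fermat.Agent.S36R.K0.Fixed
import Fermat.Agent.DR.Conc.Level

/-!
# S36, route R, block AA2: lifting functions on the reduction of level `M` (prime to `q`) to `FF (K0 A) M`

MAIN RESULTS (`k = ResidueField A`, `M` of good reduction):
* `exists_lift_K0`     : every `v ∈ E k M` regular off the poles of `j̄` is `red (bc0 u)`, `u : FF (K0 A) M` INTEGRAL over `O0[j]`;
* `exists_lift_K0_inv` : the same for the chart at infinity (`1 / j`);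
* `exists_basis_bc0`, `exists_lift_mem` : an inertia stable finite dimensional subspace `V` of `FN M` has a basis in `FF (K0 A) M`, and
  every element of `redSub V` has a lift in `V ∩ O ∩ FF (K0 A) M`.

WARNING.  The `t`-expansion coefficients of an element of the Gauss ring `(RM A M hM).O` are NOT integral in general
(`1 / (π j + 1)`), so `FLAT.Geo.exists_echelon_basis` cannot be applied to the coefficient functionals.  Instead: the dual basis over
the FIELD `Kbar` descends `V` to `K0`, and the Gauss datum over the DVR `O0 A` is cartesian (`RED.gaussRedData_isCartesian` holds for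
every valued field), so the reductions have the same dimension.
-/

set_option autoImplicit false
set_option linter.unusedSectionVars false

noncomputable section

namespace Fermat.Agent.S36R.AA

open ModularCurve AlgebraicCurve Fermat.Agent.S24 Fermat.Agent.GAL Fermat.Agent.GAL.Gauss
  Fermat.Agent.GAL.RED Fermat.Agent.DR.Gal Fermat.Agent.DR.Conc Fermat.Agent.Lib.RR Module

/-! ### generic lemmas on coefficientwise base change -/

section Generic

/-- **Leaf LC1.**  `FF K M = K(j(q^d) : d ∣ M)` in the notation of `GAL/Gauss` and `GAL/Igusa`.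
PROOF. as `Igusa.modularFunctionFieldBar_eq` (`GAL/Igusa/LevelDeg.lean`): `Tors.Dict.FF_eq_adjoin`, `Tors.Dict.gens`,
`Tors.Dict.coeffEmb_qExpand` and `coeffEmb K jq = jqModC K` (proof of `Igusa.LevelDeg_coeffEmb_jq`, valid for every `K`). -/
theorem FF_eq_fullC (K : Type) [Field K] [Algebra ℚ K] (M : ℕ) :
    FF K M = modularFunctionFieldFullC K M := by
  have hj : coeffEmb K jq = jqModC K := by
    rw [← jqModC_rat, coeffEmb, coeffMap_jqModC]
  have hg : Tors.Dict.gens K M = divisorExpansionsC K M := by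
    ext s
    constructor
    · rintro ⟨d, hd, hdM, rfl⟩
      exact ⟨d, hd, hdM, by rw [Tors.Dict.coeffEmb_qExpand, hj]⟩
    · rintro ⟨d, hd, hdM, rfl⟩
      exact ⟨d, hd, hdM, by rw [Tors.Dict.coeffEmb_qExpand, hj]⟩
  rw [Tors.Dict.FF_eq_adjoin, hg, modularFunctionFieldFullC]

/-- **Leaf LC2.**  PROOF. copy `DR.Conc.coeffMap_mem_fullC` (`DR/Conc/Frob.lean`), which is the case `k₁ = k₂`. -/
theorem coeffMap_mem_fullC' {k₁ k₂ : Type} [Field k₁] [Field k₂] (σ : k₁ →+* k₂) (M : ℕ)
    {x : LaurentSeries k₁} (hx : x ∈ modularFunctionFieldFullC k₁ M) :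
    coeffMap σ x ∈ modularFunctionFieldFullC k₂ M := by
  unfold modularFunctionFieldFullC at hx
  induction hx using IntermediateField.adjoin_induction with
  | mem y hy =>
    obtain ⟨d, hd0, hd, rfl⟩ := hy
    rw [coeffMap_qExpand, coeffMap_jqModC]
    exact jqModCd_mem_full k₂ M hd
  | algebraMap a =>
    rw [algebraMap_laurentSeries_eq_single, coeffMap_single, ← algebraMap_laurentSeries_eq_single]
    exact (modularFunctionFieldFullC k₂ M).algebraMap_mem _
  | add x y _ _ hx hy => rw [map_add]; exact add_mem hx hy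
  | inv x _ hx => rw [map_inv₀]; exact inv_mem hx
  | mul x y _ _ hx hy => rw [map_mul]; exact mul_mem hx hy

variable {K₁ K₂ : Type} [Field K₁] [Field K₂] (i : K₁ →+* K₂) (A₂ : ValuationSubring K₂)

/-- the map of valuation rings `A₂ ∩ K₁ → A₂`. -/
def comapIncl : A₂.comap i →+* A₂ :=
  (i.comp (A₂.comap i).subtype).codRestrict A₂.toSubring fun x => x.2

/-- **Leaf LC3a.** -/
instance isLocalHom_comapIncl : IsLocalHom (comapIncl i A₂) := by
  constructor
  intro a ha
  obtain ⟨u, hu⟩ := isUnit_iff_exists_inv.1 ha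
  have h1 : i (a : K₁) * (u : K₂) = 1 := congrArg Subtype.val hu
  have ha0 : (a : K₁) ≠ 0 := by
    intro h
    rw [h, map_zero, zero_mul] at h1
    exact zero_ne_one h1
  have h2 : i ((a : K₁)⁻¹) = u := by
    rw [map_inv₀]
    exact inv_eq_of_mul_eq_one_right h1
  have h3 : (a : K₁)⁻¹ ∈ A₂.comap i := by
    rw [ValuationSubring.mem_comap, h2]
    exact u.2
  exact isUnit_iff_exists_inv.2 ⟨⟨_, h3⟩, Subtype.ext (mul_inv_cancel₀ ha0)⟩

/-- **Leaf LC3.**  The Gauss rings are compatible with coefficientwise base change.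
PROOF. `x ∈ gRing A₁`: `iA g * x = iA z`, `pA g ≠ 0` (`mem_gRing_iff`).  Put `g' = coeffMap (comapIncl i A₂) g`, `z'` similarly.
`iA A₂ g' = coeffMap i (iA A₁ g)` and `pA A₂ g' = coeffMap (ResidueField.map _) (pA A₁ g)` (coefficientwise: `coeffMap_coeffMap`,
`IsLocalRing.ResidueField.map_residue`), the latter `≠ 0` because `coeffMap` of an injective map is injective.  `gRes_eq`, `map_div₀`. -/
theorem coeffMap_mem_gRing {x : LaurentSeries K₁} (hx : x ∈ gRing (A₂.comap i)) :
    ∃ h : coeffMap i x ∈ gRing A₂, gRes A₂ ⟨_, h⟩ =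
      coeffMap (IsLocalRing.ResidueField.map (comapIncl i A₂)) (gRes (A₂.comap i) ⟨x, hx⟩) := by
  obtain ⟨z, g, hg, h⟩ := (mem_gRing_iff _).1 hx
  have hi : ∀ y : LaurentSeries ↥(A₂.comap i),
      iA A₂ (coeffMap (comapIncl i A₂) y) = coeffMap i (iA (A₂.comap i) y) := by
    intro y
    ext n
    rfl
  have hp : ∀ y : LaurentSeries ↥(A₂.comap i), pA A₂ (coeffMap (comapIncl i A₂) y) =
      coeffMap (IsLocalRing.ResidueField.map (comapIncl i A₂)) (pA (A₂.comap i) y) := by
    intro y
    ext n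
    rw [pA_coeff, coeffMap_coeff, coeffMap_coeff, pA_coeff, IsLocalRing.ResidueField.map_residue]
  have hg' : pA A₂ (coeffMap (comapIncl i A₂) g) ≠ 0 := by
    rw [hp]
    exact (map_ne_zero _).2 hg
  have h' : iA A₂ (coeffMap (comapIncl i A₂) g) * coeffMap i x =
      iA A₂ (coeffMap (comapIncl i A₂) z) := by
    rw [hi, hi, ← map_mul, h]
  have hmem : coeffMap i x ∈ gRing A₂ := (mem_gRing_iff _).2 ⟨_, _, hg', h'⟩
  refine ⟨hmem, ?_⟩
  have e1 := gRes_eq A₂ ⟨_, hmem⟩ hg' h'
  have e2 := gRes_eq (A₂.comap i) ⟨x, hx⟩ hg h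
  rw [e1, e2, map_div₀, hp, hp]

end Generic

variable (A : ValuationSubring Kbar) {q : ℕ} (hq : q.Prime) (hA : A.LiesOverPrime q)
  (M : ℕ) [NeZero M] (hM : ((M : ℕ) : IsLocalRing.ResidueField ↥A) ≠ 0)

/-- `k0 → k`, bijective by `K0L.bijective_residueField_map`. -/
def resMap : IsLocalRing.ResidueField ↥(O0 A) →+* IsLocalRing.ResidueField ↥A :=
  IsLocalRing.ResidueField.map (K0L.incl A)

include hM in
theorem natCast_ne_zero_k0 : ((M : ℕ) : IsLocalRing.ResidueField ↥(O0 A)) ≠ 0 := by
  intro h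
  apply hM
  have := congrArg (resMap A) h
  simpa using this

/-- The Gauss reduction datum on an intermediate field equal to `modularFunctionFieldFullC K M`. -/
def gaussRedDataK {K : Type} [Field K] (B : ValuationSubring K)
    (hB : ((M : ℕ) : IsLocalRing.ResidueField ↥B) ≠ 0)
    (E' : IntermediateField K (LaurentSeries K)) (hE : E' = modularFunctionFieldFullC K M) :
    RedData K ↥E' (IsLocalRing.ResidueField ↥B) (Igusa.E (IsLocalRing.ResidueField ↥B) M) := by
  subst hE
  exact gaussRedData B M hB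

/-- **The Gauss reduction datum of level `M` over the DVR `O0 A`.** -/
def RM0 : RedData (K0 A) (FF (K0 A) M) (IsLocalRing.ResidueField ↥(O0 A))
    (Igusa.E (IsLocalRing.ResidueField ↥(O0 A)) M) :=
  gaussRedDataK M (O0 A) (natCast_ne_zero_k0 A M hM) (FF (K0 A) M) (FF_eq_fullC (K0 A) M)

theorem Lift_mem_gaussRedDataK_O_iff {K : Type} [Field K] (B : ValuationSubring K)
    (hB : ((M : ℕ) : IsLocalRing.ResidueField ↥B) ≠ 0)
    (E' : IntermediateField K (LaurentSeries K)) (hE : E' = modularFunctionFieldFullC K M) (x : ↥E') :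
    x ∈ (gaussRedDataK M B hB E' hE).O ↔ (x : LaurentSeries K) ∈ gRing B := by
  subst hE
  rfl

theorem Lift_coe_gaussRedDataK_red {K : Type} [Field K] (B : ValuationSubring K)
    (hB : ((M : ℕ) : IsLocalRing.ResidueField ↥B) ≠ 0)
    (E' : IntermediateField K (LaurentSeries K)) (hE : E' = modularFunctionFieldFullC K M) (x : ↥E')
    (hx : (x : LaurentSeries K) ∈ gRing B) :
    (((gaussRedDataK M B hB E' hE).red x : Igusa.E (IsLocalRing.ResidueField ↥B) M) :
      LaurentSeries (IsLocalRing.ResidueField ↥B)) = gRes B ⟨_, hx⟩ := by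
  subst hE
  have hx' : x ∈ (gaussRedData B M hB).O := hx
  show (((gaussRedData B M hB).red x : Igusa.E (IsLocalRing.ResidueField ↥B) M) :
      LaurentSeries (IsLocalRing.ResidueField ↥B)) = _
  rw [(gaussRedData B M hB).red_of_mem hx']
  rfl

theorem Lift_gaussRedDataK_isCartesian {K : Type} [Field K] (B : ValuationSubring K)
    (hB : ((M : ℕ) : IsLocalRing.ResidueField ↥B) ≠ 0)
    (E' : IntermediateField K (LaurentSeries K)) (hE : E' = modularFunctionFieldFullC K M) :
    (gaussRedDataK M B hB E' hE).IsCartesian := by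
  subst hE
  exact gaussRedData_isCartesian hB

theorem Lift_gaussRedDataK_A {K : Type} [Field K] (B : ValuationSubring K)
    (hB : ((M : ℕ) : IsLocalRing.ResidueField ↥B) ≠ 0)
    (E' : IntermediateField K (LaurentSeries K)) (hE : E' = modularFunctionFieldFullC K M) :
    (gaussRedDataK M B hB E' hE).A = B := by
  subst hE
  rfl

/-- (copy the proofs of `DR.Conc.mem_gaussRedData'_O_iff`, `coe_gaussRedData'_red`, `gaussRedData'_isCartesian`.) -/
theorem mem_RM0_O_iff (x : FF (K0 A) M) :
    x ∈ (RM0 A M hM).O ↔ (x : LaurentSeries (K0 A)) ∈ gRing (O0 A) :=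
  Lift_mem_gaussRedDataK_O_iff M (O0 A) _ _ _ x

theorem coe_RM0_red (x : FF (K0 A) M) (hx : (x : LaurentSeries (K0 A)) ∈ gRing (O0 A)) :
    (((RM0 A M hM).red x : Igusa.E (IsLocalRing.ResidueField ↥(O0 A)) M) :
      LaurentSeries (IsLocalRing.ResidueField ↥(O0 A))) = gRes (O0 A) ⟨_, hx⟩ :=
  Lift_coe_gaussRedDataK_red M (O0 A) _ _ _ x hx

theorem RM0_isCartesian : (RM0 A M hM).IsCartesian :=
  Lift_gaussRedDataK_isCartesian M (O0 A) _ _ _

theorem RM0_A : (RM0 A M hM).A = O0 A :=
  Lift_gaussRedDataK_A M (O0 A) _ _ _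

/-- coefficientwise base change of the residue function fields. -/
def Lift_phib : Igusa.E (IsLocalRing.ResidueField ↥(O0 A)) M →+*
    Igusa.E (IsLocalRing.ResidueField ↥A) M where
  toFun x := ⟨coeffMap (resMap A) (x : LaurentSeries (IsLocalRing.ResidueField ↥(O0 A))),
    coeffMap_mem_fullC' (resMap A) M x.2⟩
  map_one' := Subtype.ext (map_one (coeffMap (resMap A)))
  map_mul' _ _ := Subtype.ext (map_mul (coeffMap (resMap A)) _ _)
  map_zero' := Subtype.ext (map_zero (coeffMap (resMap A)))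
  map_add' _ _ := Subtype.ext (map_add (coeffMap (resMap A)) _ _)

include hq hA in
/-- **Leaf LC4.**  The base change morphism `RM0 → RM`.
`i = algebraMap (K0 A) Kbar`, `φ = bc0 A M`, `ib = resMap A` (onto: `K0L.bijective_residueField_map A hq hA`),
`φb = ` coefficientwise `resMap A` (`coeffMap_mem_fullC'`), `map_mem`, `red_map`: `coeffMap_mem_gRing` with `A₂ = A`
(`O0 A = A.comap (algebraMap (K0 A) Kbar)` by definition, `comapIncl _ A = K0L.incl A` by `rfl`/`RingHom.ext`), `mem_RM0_O_iff`,
`coe_RM0_red`, `DR.Conc.mem_RM_O_iff`, `DR.Conc.coe_RM_red`, `coe_bc0`. -/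
theorem exists_redHom0 : ∃ h : RedHom (RM0 A M hM) (RM A M hM), h.φ = bc0 A M := by
  have key : ∀ x : FF (K0 A) M, x ∈ (RM0 A M hM).O →
      ∃ h : (bc0 A M x : FN M) ∈ (RM A M hM).O,
        (RM A M hM).red (bc0 A M x) = Lift_phib A M ((RM0 A M hM).red x) := by
    intro x hx
    have hx' : (x : LaurentSeries (K0 A)) ∈ gRing (O0 A) := (mem_RM0_O_iff A M hM x).mp hx
    obtain ⟨h1, h2⟩ := coeffMap_mem_gRing (algebraMap (K0 A) Kbar) A hx'
    have h1' : ((bc0 A M x : FN M) : LaurentSeries Kbar) ∈ gRing A := h1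
    refine ⟨(mem_RM_O_iff A M hM _).mpr h1', Subtype.ext ?_⟩
    rw [coe_RM_red A M hM _ h1']
    show gRes A ⟨_, h1⟩ = coeffMap (resMap A) _
    rw [h2, coe_RM0_red A M hM x hx']
    rfl
  exact ⟨{ i := algebraMap (K0 A) Kbar
           φ := bc0 A M
           ib := resMap A
           φb := Lift_phib A M
           ib_surj := (K0L.bijective_residueField_map A hq hA).2
           φ_algebraMap := fun a => bc0_algebraMap A M a
           φb_algebraMap := fun a => Subtype.ext (by
             show coeffMap (resMap A) (algebraMap _ (LaurentSeries _) a) =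
               algebraMap _ (LaurentSeries _) (resMap A a)
             rw [algebraMap_laurentSeries_eq_single, algebraMap_laurentSeries_eq_single,
               coeffMap_single])
           map_mem := fun x hx => (key x hx).1
           red_map := fun x hx => (key x hx).2 }, rfl⟩

/-- The coefficient functionals on `FN M`. -/
def lamK (e : ℤ) : FN M →ₗ[Kbar] Kbar where
  toFun f := (f : LaurentSeries Kbar).coeff e
  map_add' _ _ := rfl
  map_smul' c f := by
    show ((c • f : FN M) : LaurentSeries Kbar).coeff e = c • (f : LaurentSeries Kbar).coeff e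
    rw [Algebra.smul_def, MulMemClass.coe_mul, IntermediateField.coe_algebraMap_apply,
      Gauss.algebraMap_eq_C, HahnSeries.C_mul_eq_smul]
    simp

/-- **Leaf LC6.**  An inertia stable finite dimensional subspace of `FN M` is defined over `K0 A`.
PROOF. `exists_dual_basis (lamK M)` (separating: a series with all coefficients `0` is `0`), `fixed_of_dual_basis` with
`g = (arithmeticGalois _ τ • ·)`, `σ = τ` (`coe_arithmeticGalois_smul`, `coeffMap_coeff`): `b' j` is fixed by all `τ ∈ I_A`, so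
`b' j = bc0 A M (b j)` (`mem_range_bc0_iff`).  `b` is `K0`-independent: a relation `∑ c_j • b_j = 0` maps under `bc0` to
`∑ (c_j : Kbar) • b'_j = 0` (`bc0_algebraMap`, `Algebra.smul_def`). -/
theorem exists_basis_bc0 (V : Submodule Kbar (FN M)) [Module.Finite Kbar V]
    (hV : ∀ τ ∈ A.inertiaSubgroupIn ℚ, ∀ f ∈ V,
      arithmeticGalois (modularFunctionFieldFull M) τ • f ∈ V) :
    ∃ b : Fin (finrank Kbar V) → FF (K0 A) M, (∀ j, (bc0 A M (b j) : FN M) ∈ V) ∧
      LinearIndependent (K0 A) b := by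
  obtain ⟨e, b', hb'V, hli, hδ, hinj⟩ := exists_dual_basis (lamK M) (fun f hf => by
    apply Subtype.ext
    ext n
    exact hf n) V
  have hfix : ∀ j, ∀ τ ∈ A.inertiaSubgroupIn ℚ,
      arithmeticGalois (modularFunctionFieldFull M) τ • b' j = b' j := by
    intro j τ hτ
    exact fixed_of_dual_basis (lamK M) V e b' hb'V hδ hinj
      (fun f => arithmeticGalois (modularFunctionFieldFull M) τ • f) (τ : Kbar →+* Kbar) (hV τ hτ)
      (fun e f => rfl) j
  have hex : ∀ j, ∃ x : FF (K0 A) M, bc0 A M x = b' j :=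
    fun j => (mem_range_bc0_iff A M (b' j)).2 (hfix j)
  choose b hb using hex
  refine ⟨b, fun j => by rw [hb]; exact hb'V j, ?_⟩
  rw [Fintype.linearIndependent_iff]
  intro g hg i
  have h1 := congrArg (bc0 A M) hg
  rw [map_sum, map_zero] at h1
  have h2 : ∑ j, ((g j : K0 A) : Kbar) • b' j = 0 := by
    rw [← h1]
    refine Finset.sum_congr rfl fun j _ => ?_
    rw [Algebra.smul_def, Algebra.smul_def, map_mul, bc0_algebraMap, hb]
  have h3 := Fintype.linearIndependent_iff.1 hli _ h2 i
  exact Subtype.ext h3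

include hq hA in
/-- **LC7** (assembly of LA1, LC4, LC6). -/
theorem exists_lift_mem (V : Submodule Kbar (FN M)) [Module.Finite Kbar V]
    (hV : ∀ τ ∈ A.inertiaSubgroupIn ℚ, ∀ f ∈ V,
      arithmeticGalois (modularFunctionFieldFull M) τ • f ∈ V)
    {v : Igusa.E (IsLocalRing.ResidueField ↥A) M} (hv : v ∈ (RM A M hM).redSub V) :
    ∃ u : FF (K0 A) M, u ∈ (RM0 A M hM).O ∧ (bc0 A M u : FN M) ∈ V ∧
      (bc0 A M u : FN M) ∈ (RM A M hM).O ∧ (RM A M hM).red (bc0 A M u) = v := by
  obtain ⟨h, hφ⟩ := exists_redHom0 A hq hA M hM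
  obtain ⟨b, hb, hli⟩ := exists_basis_bc0 A M V hV
  obtain ⟨x, hx, hxV, hxv⟩ := exists_lift_of_redHom h (RM0_isCartesian A M hM) V b
    (fun j => by rw [hφ]; exact hb j) hli hv
  have hxO := h.map_mem x hx
  rw [hφ] at hxV hxv hxO
  exact ⟨x, hx, hxV, hxO, hxv⟩

end Fermat.Agent.S36R.AA
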