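import Fermat.Agent.S36R.AA.Surj
import Fermat.Agent.S36R.Inj.InvIntegral

/-!
# S36, route R, block AA (cusps): `PointOK.vr` at the cuspidal points of the chart at infinity

In the framework of `AA/Surj.lean` (`IsGaussOf A M φ W`, `rho h`, `OldData hM h π`):  let `c : F0` (`= j`), `R₁ = RS (O0 A) c⁻¹`,
`𝔫` a prime of `R₁` containing `c⁻¹`, through which `W` passes.  If `c` is integral over `O0[π j_M]` then the whole integral closure of
`O0[(π j_M)⁻¹]` lies in `locAt 𝔫` (helper51's `Inj.isIntegral_inv_mem_locAt`), in particular all `π u`, `u` integral over `O0[1/j_M]`.  These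
lift the integral closure of `k[1/j̄]`, so that `vr_of_integral_le` applies.
-/

set_option autoImplicit false
set_option linter.unusedSectionVars false

noncomputable section

namespace Fermat.Agent.S36R.AA

open ModularCurve AlgebraicCurve Fermat.Agent.S24 Fermat.Agent.GAL Fermat.Agent.GAL.Gauss
  Fermat.Agent.GAL.RED Fermat.Agent.DR.Gal Fermat.Agent.DR.Conc Fermat.Agent.Lib.RR Module
  IntermediateField Fermat.Agent.S36R.Inj

variable {A : ValuationSubring Kbar} {M : ℕ} [NeZero M]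
  {F0 : Type*} [Field F0] {φ : F0 →+* LaurentSeries Kbar} {W : ValuationSubring F0}
  (hM : ((M : ℕ) : IsLocalRing.ResidueField ↥A) ≠ 0)
  [Algebra (O0 A) F0] {h : IsGaussOf A M φ W} {π : FF (K0 A) M →+* F0}

/-- an old function `π u`, `u` integral over `O0[y]`, is integral over `O0[π y]`. -/
theorem Cusp_isIntegral_old (hO : OldData hM h π) {y u : FF (K0 A) M}
    (hu : IsIntegral (Oc (O0 A) y) u) : IsIntegral (Algebra.adjoin (O0 A) {π y}) (π u) := by
  have h1 : u ∈ Bridge.RR (O0 A) y := hu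
  have h2 : π u ∈ Bridge.RR (O0 A) (π y) :=
    Bridge.map_mem_RR π (fun a => by rw [hO.const]; exact Subalgebra.algebraMap_mem _ a)
      (Algebra.subset_adjoin (Set.mem_singleton _)) h1
  exact h2

/-- `RS O c` is integrally closed in `F0`. -/
theorem Cusp_isIntegral_mem_RS {O : Type*} [CommRing O] [Algebra O F0] (c z : F0)
    (hz : IsIntegral (RS O c) z) : z ∈ RS O c := by
  have h1 : IsIntegral (Rc O c) z := hz
  exact isIntegral_trans (R := Oc O c) (A := Rc O c) z h1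

variable {q : ℕ} (hq : q.Prime) (hA : A.LiesOverPrime q)

include hq hA in
/-- **`PointOK.vr` at a cusp of the chart at infinity.** -/
theorem vr_cusp (hg : GoodRed A M) (hO : OldData hM h π) {c : F0} (hc0 : c ≠ 0)
    (hπj : IsIntegral (Algebra.adjoin (O0 A) {π (j0 A M)}) c)
    (hle : ∀ x ∈ RS (O0 A) c⁻¹, x ∈ W)
    (𝔫 : Ideal (RS (O0 A) c⁻¹)) [𝔫.IsPrime]
    (hthru : ∀ x : RS (O0 A) c⁻¹, W.valuation (x : F0) < 1 → x ∈ 𝔫)
    (hc𝔫 : ∀ x : RS (O0 A) c⁻¹, (x : F0) = c⁻¹ → x ∈ 𝔫) (z : F0) (hz : z ∈ W) :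
    (∃ a ∈ locAt 𝔫, Cg W z a) ∨ (∃ a ∈ locAt 𝔫, Cg W z⁻¹ a) := by
  have := Igusa.isAlgClosed_residueField A
  have hfd : FiniteDimensional
      (IsLocalRing.ResidueField ↥A)⟮(Igusa.jb (IsLocalRing.ResidueField ↥A) M)⁻¹⟯
      (Igusa.E (IsLocalRing.ResidueField ↥A) M) := by
    rw [S24.adjoin_inv_eq]
    exact Igusa.finiteDimensional_jb _ M hM
  have hsep : Algebra.IsSeparable
      (IsLocalRing.ResidueField ↥A)⟮(Igusa.jb (IsLocalRing.ResidueField ↥A) M)⁻¹⟯
      (Igusa.E (IsLocalRing.ResidueField ↥A) M) := by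
    rw [S24.adjoin_inv_eq]
    exact Igusa.isSeparable_jb _ M hM
  have hj0 : j0 A M ≠ 0 := by
    intro h0
    exact transcendental_j0 A M (h0 ▸ isAlgebraic_zero)
  refine vr_of_integral_le (k := IsLocalRing.ResidueField ↥A) (ρ := rho h)
    (cb := (Igusa.jb (IsLocalRing.ResidueField ↥A) M)⁻¹)
    (S24.transcendental_inv (Igusa.transcendental_jb _ M)) (rho_eq_zero_iff h) hle 𝔫 hthru
    (fun v hv => ?_) z hz
  obtain ⟨u, hu, huO, huv⟩ := exists_lift_K0_inv A hq hA M hM hg v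
    (fun P hP => Igusa.mem_place_of_isIntegral P hP hv)
  obtain ⟨hu', hρ⟩ := hO.red u huO
  refine ⟨π u, ?_, hu', by rw [hρ, huv]⟩
  have h1 := Cusp_isIntegral_old hM hO hu
  rw [map_inv₀] at h1
  exact isIntegral_inv_mem_locAt (O := O0 A) (a := c) (b := π (j0 A M)) hc0
    ((_root_.map_ne_zero π).2 hj0) hπj (fun z hz => hz) (Cusp_isIntegral_mem_RS c⁻¹) 𝔫 hc𝔫 (π u) h1

end Fermat.Agent.S36R.AA
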