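import Fermat.Agent.S28.CInt
import Fermat.Agent.GAL.Igusa.CuspEmb
import Fermat.Agent.GAL.Tors.Dict.Gen

/-!
# S36, route R, block AA (cusps): integrality relations between `j(t)`, `j(t^q)`, `j(t^{q²})`

`Φ = Φ_q ∈ ℤ[Y][X]` the modular polynomial of S28 (block B).  Over any field `K` with `q ≠ 0`:
`Φ(Y = j(t), X = j(t^q)) = 0` and `Φ(Y = j(t^q), X = j(t)) = 0`.  Hence, in `FF K (M q q)` and for ANY base ring `O`:
`j(t^{q²})` is integral over `O[j(t)]` and `j(t)` is integral over `O[j(t^{q²})]`.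
-/

set_option autoImplicit false
set_option linter.unusedSectionVars false

noncomputable section

namespace Fermat.Agent.S36R.AA

open ModularCurve Polynomial Fermat.Agent.S28 Fermat.Agent.GAL

section Series

variable {q : ℕ} [NeZero q] {Φ U G : ℤ[X][X]} {m : ℕ} {c : ℤ} (K : Type) [Field K]

theorem JInt_natCast_ne_zero (hqK : (q : K) ≠ 0) : (q : AlgebraicClosure K) ≠ 0 := by
  rw [← map_natCast (algebraMap K (AlgebraicClosure K))]
  exact (_root_.map_ne_zero _).mpr hqK

/-- `Φ(Y = j(t), X = j(t^q)) = 0`. -/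
theorem JInt_up (hB : BData q Φ U G m c) (hqK : (q : K) ≠ 0) :
    (Φ.map (evY (jqModC K))).eval (qExpand K q (jqModC K)) = 0 := by
  have h := Phi_jd K hB (JInt_natCast_ne_zero K hqK) 1 one_ne_zero
  rwa [S28.jd_one, mul_one, S28.jd_eq] at h

/-- `Φ(Y = j(t^q), X = j(t)) = 0`. -/
theorem JInt_down (hB : BData q Φ U G m c) (hqK : (q : K) ≠ 0) :
    (Φ.map (evY (qExpand K q (jqModC K)))).eval (jqModC K) = 0 := by
  have hqL := JInt_natCast_ne_zero K hqK
  obtain ⟨ζ, hζ⟩ := exists_prim (p := q) (K := AlgebraicClosure K) hqL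
  obtain ⟨hfac, -, -⟩ := hB.2.2.2.2.2.2 (AlgebraicClosure K) ζ hζ
  have h1 : rootFin ζ 0 = jqModC (AlgebraicClosure K) := by
    rw [rootFin]
    ext n
    simp
  have h0 : (Φ.map (evY (qExpand (AlgebraicClosure K) q (jqModC (AlgebraicClosure K))))).eval
      (jqModC (AlgebraicClosure K)) = 0 := by
    have e : evBase q (AlgebraicClosure K)
        = evY (qExpand (AlgebraicClosure K) q (jqModC (AlgebraicClosure K))) := rfl
    rw [← e, hfac, eval_mul, eval_prod,
      Finset.prod_eq_zero (Finset.mem_range.mpr (Nat.pos_of_ne_zero (NeZero.ne q)))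
        (by rw [h1]; simp), mul_zero]
  apply (coeffMap (algebraMap K (AlgebraicClosure K))).injective
  rw [map_eval_evY, coeffMap_qExpand, coeffMap_jqModC, h0, map_zero]

end Series

section Field

variable {q : ℕ} [NeZero q] (K : Type) [Field K] {F : Type*} [Field F]
  (e : F →+* LaurentSeries K) (ψ : LaurentSeries K →+* LaurentSeries K)
  {R : Type*} [CommRing R] [Algebra R F]

/-- one step up. -/
theorem JInt_isIntegral_up (hq : q.Prime) (hqK : (q : K) ≠ 0) {y x : F} (hy : e y = ψ (jqModC K))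
    (hx : e x = ψ (qExpand K q (jqModC K))) (h : IsIntegral R y) : IsIntegral R x := by
  obtain ⟨Φ, U, G, m, c, hB⟩ := Igusa.hB q hq
  refine isIntegral_of_evY Φ hB.2.1 y x h ?_
  apply e.injective
  rw [map_eval_evY, hy, hx, ← map_eval_evY, JInt_up K hB hqK, map_zero, map_zero]

/-- one step down. -/
theorem JInt_isIntegral_down (hq : q.Prime) (hqK : (q : K) ≠ 0) {y x : F}
    (hy : e y = ψ (jqModC K)) (hx : e x = ψ (qExpand K q (jqModC K))) (h : IsIntegral R x) :
    IsIntegral R y := by
  obtain ⟨Φ, U, G, m, c, hB⟩ := Igusa.hB q hq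
  refine isIntegral_of_evY Φ hB.2.1 x y h ?_
  apply e.injective
  rw [map_eval_evY, hy, hx, ← map_eval_evY, JInt_down K hB hqK, map_zero, map_zero]

end Field

section Level

variable (K : Type) [Field K] [Algebra ℚ K] (M q : ℕ) [NeZero M] [NeZero q]

theorem JInt_coe_jF (N : ℕ) :
    ((Tors.Dict.jF K N : GAL.FF K N) : LaurentSeries K) = jqModC K := by
  show coeffEmb K jq = jqModC K
  rw [← jqModC_rat, coeffEmb, coeffMap_jqModC]

theorem JInt_natCast_ne_zero' : (q : K) ≠ 0 := by
  have : CharZero K := algebraRat.charZero K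
  exact Nat.cast_ne_zero.mpr (NeZero.ne q)

variable {O : Type*} [CommRing O] [Algebra O (GAL.FF K (M * q * q))]

/-- `j(t^{q²})` is integral over `O[j(t)]`. -/
theorem isIntegral_pi2_jF (hq : q.Prime) :
    IsIntegral (Algebra.adjoin O {Tors.Dict.jF K (M * q * q)})
      (heckeBetaBar K (M * q) q (heckeBetaBar K M q (Tors.Dict.jF K M))) := by
  have h0 : IsIntegral (Algebra.adjoin O {Tors.Dict.jF K (M * q * q)})
      (Tors.Dict.jF K (M * q * q)) :=
    isIntegral_algebraMap (R := Algebra.adjoin O {Tors.Dict.jF K (M * q * q)})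
      (x := ⟨_, Algebra.subset_adjoin (Set.mem_singleton _)⟩)
  have h1 : IsIntegral (Algebra.adjoin O {Tors.Dict.jF K (M * q * q)})
      (heckeAlphaBar K (M * q) q (heckeBetaBar K M q (Tors.Dict.jF K M))) :=
    JInt_isIntegral_up K (algebraMap (GAL.FF K (M * q * q)) (LaurentSeries K)) (RingHom.id _) hq
      (JInt_natCast_ne_zero' K q) (y := Tors.Dict.jF K (M * q * q)) (JInt_coe_jF K (M * q * q))
      (by
        show ((heckeAlphaBar K (M * q) q (heckeBetaBar K M q (Tors.Dict.jF K M)) :
          GAL.FF K (M * q * q)) : LaurentSeries K) = _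
        rw [coe_heckeAlphaBar, coe_heckeBetaBar, JInt_coe_jF]; rfl) h0
  exact JInt_isIntegral_up K (algebraMap (GAL.FF K (M * q * q)) (LaurentSeries K)) (qExpand K q) hq
      (JInt_natCast_ne_zero' K q)
      (by
        show ((heckeAlphaBar K (M * q) q (heckeBetaBar K M q (Tors.Dict.jF K M)) :
          GAL.FF K (M * q * q)) : LaurentSeries K) = _
        rw [coe_heckeAlphaBar, coe_heckeBetaBar, JInt_coe_jF])
      (by
        show ((heckeBetaBar K (M * q) q (heckeBetaBar K M q (Tors.Dict.jF K M)) :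
          GAL.FF K (M * q * q)) : LaurentSeries K) = _
        rw [coe_heckeBetaBar, coe_heckeBetaBar, JInt_coe_jF]) h1

/-- `j(t)` is integral over `O[j(t^{q²})]`. -/
theorem isIntegral_jF_pi2 (hq : q.Prime) :
    IsIntegral (Algebra.adjoin O {heckeBetaBar K (M * q) q (heckeBetaBar K M q (Tors.Dict.jF K M))})
      (Tors.Dict.jF K (M * q * q)) := by
  have h0 : IsIntegral
      (Algebra.adjoin O {heckeBetaBar K (M * q) q (heckeBetaBar K M q (Tors.Dict.jF K M))})
      (heckeBetaBar K (M * q) q (heckeBetaBar K M q (Tors.Dict.jF K M))) :=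
    isIntegral_algebraMap
      (R := Algebra.adjoin O {heckeBetaBar K (M * q) q (heckeBetaBar K M q (Tors.Dict.jF K M))})
      (x := ⟨_, Algebra.subset_adjoin (Set.mem_singleton _)⟩)
  have h1 : IsIntegral
      (Algebra.adjoin O {heckeBetaBar K (M * q) q (heckeBetaBar K M q (Tors.Dict.jF K M))})
      (heckeAlphaBar K (M * q) q (heckeBetaBar K M q (Tors.Dict.jF K M))) :=
    JInt_isIntegral_down K (algebraMap (GAL.FF K (M * q * q)) (LaurentSeries K)) (qExpand K q) hq
      (JInt_natCast_ne_zero' K q)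
      (by
        show ((heckeAlphaBar K (M * q) q (heckeBetaBar K M q (Tors.Dict.jF K M)) :
          GAL.FF K (M * q * q)) : LaurentSeries K) = _
        rw [coe_heckeAlphaBar, coe_heckeBetaBar, JInt_coe_jF])
      (by
        show ((heckeBetaBar K (M * q) q (heckeBetaBar K M q (Tors.Dict.jF K M)) :
          GAL.FF K (M * q * q)) : LaurentSeries K) = _
        rw [coe_heckeBetaBar, coe_heckeBetaBar, JInt_coe_jF]) h0
  exact JInt_isIntegral_down K (algebraMap (GAL.FF K (M * q * q)) (LaurentSeries K)) (RingHom.id _) hq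
      (JInt_natCast_ne_zero' K q) (y := Tors.Dict.jF K (M * q * q)) (JInt_coe_jF K (M * q * q))
      (by
        show ((heckeAlphaBar K (M * q) q (heckeBetaBar K M q (Tors.Dict.jF K M)) :
          GAL.FF K (M * q * q)) : LaurentSeries K) = _
        rw [coe_heckeAlphaBar, coe_heckeBetaBar, JInt_coe_jF]; rfl) h1

end Level

end Fermat.Agent.S36R.AA
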