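import Fermat.Agent.S36R.AA.Final
import Fermat.Agent.S36R.AA.JInt
import Fermat.Agent.S36R.AA.Cusp

/-!
# S36, route R, block AA: the final deliverables (no hypothesis on `j(t^{q²})` any more)

For `S : NormC.Setup A M q`, `c = AA.cc S = j`, `R₀ = Bridge.RR (O0 A) c`, `R₁ = Bridge.RR (O0 A) c⁻¹`;
hypotheses `hM : (M : k) ≠ 0`, `hg : GoodRed A M`, `h3 : ResOK S`.

* `noeth_R0 S`, `noeth_R1 S` (in `Final.lean`);
* `pointOK_vr_R0`   : `PointOK.vr` at every prime of `R₀`;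
* `pointOK_vr_R1`   : `PointOK.vr` at every prime of `R₁` containing `c⁻¹`;
* `tripleOK_resA`, `tripleOK_resB`.
-/

set_option autoImplicit false
set_option linter.unusedSectionVars false

noncomputable section

namespace Fermat.Agent.S36R.AA

open ModularCurve AlgebraicCurve Fermat.Agent.S24 Fermat.Agent.GAL Fermat.Agent.GAL.Gauss
  Fermat.Agent.DR.Conc Fermat.Agent.S36.StepA

variable {A : ValuationSubring Kbar} {M q : ℕ} [NeZero M] [NeZero q] {S : NormC.Setup A M q}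

/-- `j(t^{q²}) ∈ R₀`. -/
theorem p2_j0_mem : S.p2 (j0 A M) ∈ Bridge.RR (O0 A) (cc S) :=
  isIntegral_pi2_jF (K0 A) M q (O := O0 A) S.hq

/-- `j` is integral over `O0[j(t^{q²})]`. -/
theorem isIntegral_cc_p2 : IsIntegral (Algebra.adjoin (O0 A) {S.p2 (j0 A M)}) (cc S) :=
  isIntegral_jF_pi2 (K0 A) M q (O := O0 A) S.hq

theorem cc_ne_zero : cc S ≠ 0 := fun (h0 : j0 A (M * q * q) = 0) =>
  transcendental_j0 A (M * q * q) (h0 ▸ isAlgebraic_zero)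

variable (hM : ((M : ℕ) : IsLocalRing.ResidueField ↥A) ≠ 0) (hg : GoodRed A M) (h3 : ResOK S)

include hM hg h3

/-- **`PointOK.vr` at every prime of `R₀`.** -/
theorem pointOK_vr_R0 (𝔫 : Ideal (Bridge.RR (O0 A) (cc S))) [𝔫.IsPrime] (i : Fin 3)
    (ht : Inj.Thru S.lvl.W 𝔫 i) (z : S.F) (hz : z ∈ S.lvl.W i) :
    (∃ a ∈ Inj.locAt 𝔫, Cg (S.lvl.W i) z a) ∨ (∃ a ∈ Inj.locAt 𝔫, Cg (S.lvl.W i) z⁻¹ a) :=
  vr_R0 hM hg h3 p2_j0_mem 𝔫 i ht z hz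

/-- the old functions `p2 u`, `u` integral over `O0[1/j]`, are regular at the cusps of `R₁`. -/
theorem p2_mem_locAt (𝔫 : Ideal (Bridge.RR (O0 A) (cc S)⁻¹)) [h𝔫 : 𝔫.IsPrime]
    (hc𝔫 : ∀ x : Bridge.RR (O0 A) (cc S)⁻¹, (x : S.F) = (cc S)⁻¹ → x ∈ 𝔫) (u : FF (K0 A) M)
    (hu : IsIntegral (Algebra.adjoin (O0 A) {(j0 A M)⁻¹}) u) : S.p2 u ∈ Inj.locAt 𝔫 := by
  have hj0 : j0 A M ≠ 0 := fun h0 => transcendental_j0 A M (h0 ▸ isAlgebraic_zero)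
  have h1 := Cusp_isIntegral_old hM (old22 hM h3) hu
  rw [map_inv₀] at h1
  exact @Inj.isIntegral_inv_mem_locAt _ _ _ _ _ (cc S) (S.p2 (j0 A M)) cc_ne_zero
    ((_root_.map_ne_zero S.p2).2 hj0) isIntegral_cc_p2 (RS (O0 A) (cc S)⁻¹) (fun z hz => hz)
    (Cusp_isIntegral_mem_RS (cc S)⁻¹) 𝔫 h𝔫 hc𝔫 (S.p2 u) h1

/-- **`PointOK.vr` at every prime of `R₁` containing `c⁻¹`.** -/
theorem pointOK_vr_R1 (𝔫 : Ideal (Bridge.RR (O0 A) (cc S)⁻¹)) [𝔫.IsPrime]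
    (hc𝔫 : ∀ x : Bridge.RR (O0 A) (cc S)⁻¹, (x : S.F) = (cc S)⁻¹ → x ∈ 𝔫) (i : Fin 3)
    (ht : Inj.Thru S.lvl.W 𝔫 i) (z : S.F) (hz : z ∈ S.lvl.W i) :
    (∃ a ∈ Inj.locAt 𝔫, Cg (S.lvl.W i) z a) ∨ (∃ a ∈ Inj.locAt 𝔫, Cg (S.lvl.W i) z⁻¹ a) :=
  vr_R1 hM hg h3 𝔫 (p2_mem_locAt hM hg h3 𝔫 hc𝔫) i ht z hz

/-- **`TripleOK.resA`.** -/
theorem tripleOK_resA (i : Fin 3) (hi : i ≠ 2) (x : Bridge.RR (O0 A) (cc S)) :
    ∃ w : S.FA, S.lvl.al w ∈ Bridge.RR (O0 A) (cc S) ∧ Cg (S.lvl.W i) x (S.lvl.al w) :=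
  resA hM hg h3 i hi x

/-- **`TripleOK.resB`.** -/
theorem tripleOK_resB (i : Fin 3) (hi : i ≠ 0) (x : Bridge.RR (O0 A) (cc S)) :
    ∃ w : S.FA, S.lvl.be w ∈ Bridge.RR (O0 A) (cc S) ∧ Cg (S.lvl.W i) x (S.lvl.be w) :=
  resB hM hg h3 p2_j0_mem i hi x

end Fermat.Agent.S36R.AA
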