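import Fermat.Agent.S36R.AA.Deliver

/-!
# S36, route R, block AA: the inputs `hρ`, `hfull`, `hlift` of `KS.prin_mid`, for `S : NormC.Setup A M q`

`i = 1`, `φ = S.e1`, `ρ = rho (g1 h3)`, `R = Bridge.RR (O0 A) (cc S)`:
* `KS_hrho`  : `∀ y : S.lvl.W 1, GR A (S.e1 y) (ρ y)`  (also `KS_hrho0`, `KS_hrho2` for the other two components);
* `KS_hfull` : `IsFullImage k R (S.lvl.W 1) ρ j̄`;
* `KS_hlift` : every `v ∈ regOff k j̄` is the residue of `S.e1 a`, `a = p0 u ∈ R`, and `a' = p2 u ∈ R` has the expansion `(S.e1 a)(ζ t)`.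
-/

set_option autoImplicit false
set_option linter.unusedSectionVars false

noncomputable section

namespace Fermat.Agent.S36R.AA

open ModularCurve AlgebraicCurve Fermat.Agent.S24 Fermat.Agent.GAL Fermat.Agent.GAL.Gauss
  Fermat.Agent.DR.Gal Fermat.Agent.DR.Conc Fermat.Agent.S36.StepA

variable {A : ValuationSubring Kbar} {M q : ℕ} [NeZero M] [NeZero q] {S : NormC.Setup A M q}

theorem KS_hrho0 (h3 : ResOK S) (y : S.lvl.W 0) :
    Unit.GR A (S.e0 (y : S.F)) (rho (g0 h3) y : LaurentSeries (IsLocalRing.ResidueField ↥A)) :=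
  ⟨((g0 h3).mem_iff y).1 y.2, rfl⟩

theorem KS_hrho (h3 : ResOK S) (y : S.lvl.W 1) :
    Unit.GR A (S.e1 (y : S.F)) (rho (g1 h3) y : LaurentSeries (IsLocalRing.ResidueField ↥A)) :=
  ⟨((g1 h3).mem_iff y).1 y.2, rfl⟩

theorem KS_hrho2 (h3 : ResOK S) (y : S.lvl.W 2) :
    Unit.GR A (S.e2 (y : S.F)) (rho (g2 h3) y : LaurentSeries (IsLocalRing.ResidueField ↥A)) :=
  ⟨((g2 h3).mem_iff y).1 y.2, rfl⟩

variable (hM : ((M : ℕ) : IsLocalRing.ResidueField ↥A) ≠ 0) (hg : GoodRed A M) (h3 : ResOK S)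

include hM hg

theorem KS_hfull : IsFullImage (IsLocalRing.ResidueField ↥A) (Bridge.RR (O0 A) (cc S)) (S.lvl.W 1)
    (rho (g1 h3)) (Igusa.jb (IsLocalRing.ResidueField ↥A) M) := full10 hM hg h3

include h3

theorem KS_hlift (v : Igusa.E (IsLocalRing.ResidueField ↥A) M)
    (hv : v ∈ regOff (IsLocalRing.ResidueField ↥A) (Igusa.jb (IsLocalRing.ResidueField ↥A) M)) :
    ∃ a a' : Bridge.RR (O0 A) (cc S),
      Unit.GR A (S.e1 (a : S.F)) (v : LaurentSeries (IsLocalRing.ResidueField ↥A)) ∧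
      S.e1 (a' : S.F) = S24.twist S.ζ (S.hζ.ne_zero S.hq.ne_zero) (S.e1 (a : S.F)) := by
  obtain ⟨u, hu, huO, huv⟩ := exists_lift_K0 A S.hq S.hA M hM hg v hv
  have h0 : S.p0 u ∈ RS (O0 A) (cc S) :=
    old_mem_RS hM (old10 hM h3) (c := cc S) (y := j0 A M)
      (by rw [RingHom.coe_coe, S.p0_j0]; exact self_mem_RS _ _) hu
  have h2 : S.p2 u ∈ RS (O0 A) (cc S) :=
    old_mem_RS hM (old12 hM h3) (c := cc S) (y := j0 A M) p2_j0_mem hu
  refine ⟨⟨S.p0 u, h0⟩, ⟨S.p2 u, h2⟩, ?_, ?_⟩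
  · show Red A (S.e1 (S.p0 u)) _
    rw [S.e1_p0, ← huv]
    exact red_of_mem_RM hM huO
  · show S.e1 (S.p2 u) = S24.twist S.ζ _ (S.e1 (S.p0 u))
    rw [S.e1_p2, S.e1_p0]

end Fermat.Agent.S36R.AA
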