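import Mathlib
import Fermat.Agent.S36R.K0.Defs
import Fermat.Agent.GAL.Tors.Dict.Gen
import Fermat.Agent.S36R.Bridge.Main

/-!
# S36, route R: shortcut instances for `F0 = FF (K0 A) N` over `K0 A` and over `O0 A`

Typeclass search is very slow (time out) for `↥(FF ↥(K0 A) N)`; these shortcuts make it instantaneous.
The `O0 A`-algebra structure of `FF (K0 A) N` is `Bridge.instAlgebraO0FF` (what instance search finds for an abstract field `K` and
`O : ValuationSubring K`), so that everything here is compatible with `Bridge.RR (O0 A) c`.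
-/

set_option autoImplicit false

namespace Fermat.Agent.S36R

open AlgebraicCurve ModularCurve Fermat.Agent.GAL Fermat.Agent.S24

noncomputable section

variable (A : ValuationSubring Kbar) (N : ℕ)

set_option synthInstance.maxHeartbeats 400000 in
instance instFieldFF0 : Field (FF (K0 A) N) := inferInstance

set_option synthInstance.maxHeartbeats 400000 in
instance instAlgebraK0FF0 : Algebra (K0 A) (FF (K0 A) N) := inferInstance

instance instSMulK0FF0 : SMul (K0 A) (FF (K0 A) N) := Algebra.toSMul

instance instModuleK0FF0 : Module (K0 A) (FF (K0 A) N) := Algebra.toModule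

instance instSMulO0FF0 : SMul (O0 A) (FF (K0 A) N) := Algebra.toSMul

instance instModuleO0FF0 : Module (O0 A) (FF (K0 A) N) := Algebra.toModule

instance instIsScalarTowerO0K0FF0 : IsScalarTower (O0 A) (K0 A) (FF (K0 A) N) :=
  IsScalarTower.of_algebraMap_eq fun _ => rfl

theorem algebraMap_O0_FF0 (a : O0 A) :
    algebraMap (O0 A) (FF (K0 A) N) a = algebraMap (K0 A) (FF (K0 A) N) (a : K0 A) := rfl

/-- The function `j` of `FF (K0 A) N`. -/
abbrev j0 : FF (K0 A) N := Tors.Dict.jF (K0 A) N

theorem bc0_j0 : bc0 A N (j0 A N) = (jF N : FN N) := by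
  apply Subtype.ext
  rw [coe_bc0]
  show coeffMap (algebraMap (K0 A) Kbar) (coeffEmb (K0 A) jq) = coeffEmb Kbar jq
  ext n
  simp only [coeffMap_coeff, coeffEmb_coeff]
  exact (IsScalarTower.algebraMap_apply ℚ (K0 A) Kbar _).symm

end

end Fermat.Agent.S36R
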