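import Fermat.Agent.S36R.Inj.FormD
import Fermat.Agent.GAL.Igusa.PoleSpace

/-!
# S36, route R, block AA3 (abstract): closed points on a vertical component = places of its function field

Data: `R ⊆ F0` a chart ring, `W ⊇ R` a vertical valuation ring, `ρ : W → Fb` its residue map into the function
field `Fb / k` of the component (`k` algebraically closed, `cb : Fb` transcendental, `Fb / k(cb)` finite separable).
The ONLY geometric hypothesis is `IsFullImage`: `ρ R` is the FULL integral closure `B` of `k[cb]` in `Fb`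
(`⊆` is automatic, `⊇` is good reduction of the component: block AA2/`Surj.lean`).  `B` is a Dedekind domain, so:

* `exists_branch`   : a closed point `𝔫` of `R` on the component is `{x | ρ x ∈ 𝔪_P}` for a place `P` of `Fb` with
                      `cb ∈ O_P`, and `O_P = (R / p)_𝔫`;
* `isMaximal_point` : conversely every such place gives a closed point;
* `exists_fraction_of_pow` : elementwise normality of `(R / p)_𝔫` in the residue field of `W`: this produces the
                      fractions `a / b` of `Inj.LocalRootD`;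
* `exists_local_generator` : `(R / p)_𝔫` is a DVR, elementwise (every ideal of `R_𝔫` containing `p` is `(z) + p`).
-/

set_option autoImplicit false

namespace Fermat.Agent.S36R.AA

open AlgebraicCurve IntermediateField Fermat.Agent.S36R.Inj

variable {F0 : Type*} [Field F0] {k Fb : Type*} [Field k] [Field Fb] [Algebra k Fb]

/-- `ρ : W → Fb` is a residue map of `W` and `ρ R` is the integral closure of `k[cb]` in `Fb`. -/
structure IsFullImage (k : Type*) {Fb : Type*} [Field k] [Field Fb] [Algebra k Fb]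
    (R : Subring F0) (W : ValuationSubring F0) (ρ : W →+* Fb) (cb : Fb) : Prop where
  le : ∀ x ∈ R, x ∈ W
  ker : ∀ y : W, ρ y = 0 ↔ W.valuation (y : F0) < 1
  integral : ∀ (x : F0) (hx : x ∈ R), IsIntegral (Algebra.adjoin k {cb}) (ρ ⟨x, le x hx⟩)
  surj : ∀ v : Fb, IsIntegral (Algebra.adjoin k {cb}) v → ∃ (x : F0) (hx : x ∈ R), ρ ⟨x, le x hx⟩ = v

variable {R : Subring F0} {W : ValuationSubring F0} {ρ : W →+* Fb} {cb : Fb}

/-- the restriction of `ρ` to `R`. -/
def IsFullImage.ρR (h : IsFullImage k R W ρ cb) : R →+* Fb :=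
  ρ.comp (Subring.inclusion (show R ≤ W.toSubring from h.le))

theorem IsFullImage.ρR_apply (h : IsFullImage k R W ρ cb) (x : R) :
    h.ρR x = ρ ⟨x, h.le x x.2⟩ := rfl

variable [IsAlgClosed k] [FiniteDimensional k⟮cb⟯ Fb] [Algebra.IsSeparable k⟮cb⟯ Fb]

open IntermediateField.algebraAdjoinAdjoin in
/-- **Leaf Br1.**  A closed point on the component is a place of `Fb`.
PROOF. `A₀ := Algebra.adjoin k {cb}` is a PID (`Polynomial.algEquivOfTranscendental`), `B := integralClosure A₀ Fb` is a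
Dedekind domain with fraction field `Fb` (copy the first lines of `GAL.Igusa.isIntegral_of_forall_mem_place`).
`r : R →+* B := h.ρR.codRestrict ..` (`h.integral`) is surjective (`h.surj`) with kernel `{x | v x < 1} ⊆ 𝔫` (`h.ker`, `hthru`).
`m := Ideal.map r 𝔫` is maximal (`Ideal.map_eq_top_or_isMaximal_of_surjective`; `≠ ⊤` because `comap r (map r 𝔫) = 𝔫`:
`Ideal.comap_map_of_surjective` + kernel `≤ 𝔫`), `m ≠ ⊥` (`B` is not a field: `cb` is transcendental; or: if `m = ⊥` then `B` is a field,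
`A₀` is a field by `isField_of_isIntegral_of_isField`, contradiction with `Polynomial.not_isField`).
`w : HeightOneSpectrum B := ⟨m, _, _⟩`, `P := Place.ofHeightOneSpectrum (K := k) w`
(`Place.ofHeightOneSpectrum_toValuationSubring`, `S24.algebraMap_mem_ofHeightOneSpectrum`).
(1) `cb ∈ B`. (2) `x ∈ 𝔫 ↔ r x ∈ m ↔ w.valuation Fb (r x) < 1` (`HeightOneSpectrum.valuation_lt_one_iff_mem`).
(3) if `w.valuation Fb z ≤ 1` then `z = a' / s'` with `a' s' : B`, `s' ∉ m` (see the proof of
`S36R.exists_place_of_valuationSubring` in `K0/PlaceOfVal.lean`, step `P.toValuationSubring ≤ V`; or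
`IsLocalization.AtPrime` + `IsDedekindDomain.HeightOneSpectrum` API, e.g. `HeightOneSpectrum.exists_primeCompl..`/
`valuation_le_one_iff`...); lift `a', s'` to `a, s : R`; `ρ (s y - a) = s' z - a' = 0`, use `h.ker`. -/
theorem exists_branch (h : IsFullImage k R W ρ cb) (hcb : Transcendental k cb) (𝔫 : Ideal R)
    (h𝔫 : 𝔫.IsMaximal) (hthru : ∀ x : R, W.valuation (x : F0) < 1 → x ∈ 𝔫) :
    ∃ P : Place k Fb, cb ∈ P.toValuationSubring ∧
      (∀ x : R, x ∈ 𝔫 ↔ h.ρR x ∈ P.toValuationSubring.nonunits) ∧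
      ∀ y : W, ρ y ∈ P.toValuationSubring →
        ∃ a s : R, s ∉ 𝔫 ∧ W.valuation ((s : F0) * (y : F0) - (a : F0)) < 1 := by
  let A := Algebra.adjoin k {cb}
  let e : Polynomial k ≃ₐ[k] A := Polynomial.algEquivOfTranscendental k cb hcb
  have hPID : IsPrincipalIdealRing A :=
    IsPrincipalIdealRing.of_surjective e.toRingEquiv.toRingHom e.surjective
  let t : A := ⟨cb, Algebra.self_mem_adjoin_singleton k cb⟩
  have : IsDedekindDomain (integralClosure A Fb) := integralClosure.isDedekindDomain A k⟮cb⟯ Fb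
  have : IsFractionRing (integralClosure A Fb) Fb :=
    integralClosure.isFractionRing_of_finite_extension k⟮cb⟯ Fb
  let r : R →+* integralClosure A Fb :=
    h.ρR.codRestrict (integralClosure A Fb).toSubring (fun x => h.integral x x.2)
  have hr : ∀ x, algebraMap (integralClosure A Fb) Fb (r x) = h.ρR x := fun x => rfl
  have hrsurj : Function.Surjective r := by
    intro b
    obtain ⟨x, hx, hxb⟩ := h.surj b b.2
    exact ⟨⟨x, hx⟩, Subtype.ext hxb⟩
  have hker : Ideal.comap r ⊥ ≤ 𝔫 := by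
    intro x hx
    apply hthru
    have h1 : r x = 0 := by simpa using hx
    have h2 := congrArg (algebraMap (integralClosure A Fb) Fb) h1
    rw [hr, map_zero] at h2
    exact (h.ker ⟨x, h.le x x.2⟩).1 h2
  have hcomap : Ideal.comap r (Ideal.map r 𝔫) = 𝔫 := by
    rw [Ideal.comap_map_of_surjective r hrsurj]
    exact sup_eq_left.2 hker
  have hmax : (Ideal.map r 𝔫).IsMaximal := by
    rcases Ideal.map_eq_top_or_isMaximal_of_surjective r hrsurj h𝔫 with htop | hm
    · exfalso
      rw [htop, Ideal.comap_top] at hcomap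
      exact h𝔫.ne_top hcomap.symm
    · exact hm
  have hnf : ¬ IsField (integralClosure A Fb) := by
    intro hB
    have hA : IsField A :=
      isField_of_isIntegral_of_isField (R := A) (S := integralClosure A Fb)
        (fun a b hab => Subtype.ext (congrArg (algebraMap (integralClosure A Fb) Fb) hab)) hB
    exact Polynomial.not_isField k (MulEquiv.isField hA e.toMulEquiv)
  let w : IsDedekindDomain.HeightOneSpectrum (integralClosure A Fb) :=
    { asIdeal := Ideal.map r 𝔫
      isPrime := hmax.isPrime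
      ne_bot := Ring.ne_bot_of_isMaximal_of_not_isField hmax hnf }
  refine ⟨Place.ofHeightOneSpectrum (K := k) w,
    S24.algebraMap_mem_ofHeightOneSpectrum w (algebraMap A (integralClosure A Fb) t), ?_, ?_⟩
  · intro x
    rw [Place.ofHeightOneSpectrum_toValuationSubring, ValuationSubring.mem_nonunits_iff,
      ← (Valuation.isEquiv_valuation_valuationSubring (w.valuation Fb)).lt_one_iff_lt_one, ← hr,
      IsDedekindDomain.HeightOneSpectrum.valuation_lt_one_iff_mem]
    conv_lhs => rw [← hcomap]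
    rfl
  · intro y hy
    rw [Place.ofHeightOneSpectrum_toValuationSubring, Valuation.mem_valuationSubring_iff] at hy
    obtain ⟨n, d, hnd⟩ :=
      IsDedekindDomain.HeightOneSpectrum.exists_primeCompl_mul_eq_of_integer _ _ hy
    obtain ⟨a, ha⟩ := hrsurj n
    obtain ⟨s, hs⟩ := hrsurj d
    refine ⟨a, s, ?_, ?_⟩
    · intro hmem
      apply d.2
      rw [← hs]
      exact Ideal.mem_map_of_mem r hmem
    · have h1 : ρ (⟨s, h.le s s.2⟩ * y - ⟨a, h.le a a.2⟩) = 0 := by
        rw [map_sub, map_mul, ← h.ρR_apply, ← h.ρR_apply, ← hr, ← hr, ha, hs, mul_comm, hnd,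
          sub_self]
      exact (h.ker _).1 h1

/-- the closed point of `R` attached to a place of the component. -/
def point (h : IsFullImage k R W ρ cb) (P : Place k Fb) (hP : cb ∈ P.toValuationSubring) : Ideal R :=
  Ideal.comap
    (h.ρR.codRestrict P.toValuationSubring.toSubring fun x =>
      GAL.Igusa.mem_place_of_isIntegral P hP (h.integral x x.2))
    (IsLocalRing.maximalIdeal P.toValuationSubring)

omit [IsAlgClosed k] [FiniteDimensional k⟮cb⟯ Fb] [Algebra.IsSeparable k⟮cb⟯ Fb] in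
theorem mem_point (h : IsFullImage k R W ρ cb) (P : Place k Fb) (hP : cb ∈ P.toValuationSubring)
    (x : R) : x ∈ point h P hP ↔ h.ρR x ∈ P.toValuationSubring.nonunits := by
  rw [point, Ideal.mem_comap, ValuationSubring.mem_nonunits_iff_exists_mem_maximalIdeal]
  constructor
  · intro hx
    exact ⟨GAL.Igusa.mem_place_of_isIntegral P hP (h.integral x x.2), hx⟩
  · rintro ⟨_, hx⟩
    exact hx

open IntermediateField.algebraAdjoinAdjoin in
/-- **Leaf Br2.**  Conversely a place `P` with `cb ∈ O_P` defines a closed point on the component.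
PROOF. with the notation of Br1, `m := S24.centre P _` (or `comap` of the maximal ideal of `O_P` to `B`) is a non zero prime of
the Dedekind domain `B` (non zero: otherwise `Fb = Frac B ⊆ O_P`, contradicting `P.ne_top'`), hence maximal
(`Ideal.IsPrime.isMaximal`); `point h P hP = comap r m` and `r` is surjective (`Ideal.comap_isMaximal_of_surjective`).
`Thru`: `v x < 1 → ρ x = 0`. -/
theorem isMaximal_point (h : IsFullImage k R W ρ cb) (hcb : Transcendental k cb) (P : Place k Fb)
    (hP : cb ∈ P.toValuationSubring) :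
    (point h P hP).IsMaximal ∧ ∀ x : R, W.valuation (x : F0) < 1 → x ∈ point h P hP := by
  refine ⟨?_, fun x hx => ?_⟩
  · let A₀ := Algebra.adjoin k {cb}
    let e : Polynomial k ≃ₐ[k] A₀ := Polynomial.algEquivOfTranscendental k cb hcb
    have hPID : IsPrincipalIdealRing A₀ :=
      IsPrincipalIdealRing.of_surjective e.toRingEquiv.toRingHom e.surjective
    have hDed : IsDedekindDomain (integralClosure A₀ Fb) :=
      integralClosure.isDedekindDomain A₀ k⟮cb⟯ Fb
    have hFrac : IsFractionRing (integralClosure A₀ Fb) Fb :=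
      integralClosure.isFractionRing_of_finite_extension k⟮cb⟯ Fb
    let r : R →+* integralClosure A₀ Fb :=
      h.ρR.codRestrict (integralClosure A₀ Fb).toSubring fun x => h.integral x x.2
    have hr : Function.Surjective r := by
      intro b
      obtain ⟨x, hx, hxb⟩ := h.surj b b.2
      exact ⟨⟨x, hx⟩, Subtype.ext hxb⟩
    let j : integralClosure A₀ Fb →+* P.toValuationSubring :=
      (algebraMap (integralClosure A₀ Fb) Fb).codRestrict P.toValuationSubring.toSubring fun b =>
        GAL.Igusa.mem_place_of_isIntegral P hP b.2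
    let m : Ideal (integralClosure A₀ Fb) :=
      Ideal.comap j (IsLocalRing.maximalIdeal P.toValuationSubring)
    have hmprime : m.IsPrime := Ideal.comap_isPrime j _
    have hmne : m ≠ ⊥ := by
      intro hbot
      apply P.ne_top'
      refine SetLike.ext fun z => ⟨fun _ => ValuationSubring.mem_top z, fun _ => ?_⟩
      obtain ⟨a, s, hs, rfl⟩ := IsFractionRing.div_surjective (A := integralClosure A₀ Fb) z
      have hs0 : s ≠ 0 := nonZeroDivisors.ne_zero hs
      have hsm : s ∉ m := by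
        rw [hbot, Ideal.mem_bot]
        exact hs0
      have hunit : IsUnit (j s) := by
        by_contra hnu
        exact hsm ((IsLocalRing.mem_maximalIdeal _).mpr hnu)
      have hv : P.toValuationSubring.valuation ((j s : P.toValuationSubring) : Fb) = 1 :=
        (ValuationSubring.valuation_eq_one_iff _ _).mp hunit
      have hinv : (algebraMap (integralClosure A₀ Fb) Fb s)⁻¹ ∈ P.toValuationSubring := by
        have h1 : algebraMap (integralClosure A₀ Fb) Fb s = ((j s : P.toValuationSubring) : Fb) := rfl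
        rw [← ValuationSubring.valuation_le_one_iff, map_inv₀, h1, hv, inv_one]
      rw [div_eq_mul_inv]
      exact mul_mem (j a).2 hinv
    have hmmax : m.IsMaximal := hmprime.isMaximal hmne
    have hpt : point h P hP = Ideal.comap r m := by
      ext x
      rfl
    rw [hpt]
    exact Ideal.comap_isMaximal_of_surjective r hr
  · rw [mem_point]
    have h0 : h.ρR x = 0 := by
      rw [h.ρR_apply]
      exact (h.ker _).mpr hx
    rw [h0, ValuationSubring.mem_nonunits_iff, map_zero]
    exact zero_lt_one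

omit [IsAlgClosed k] [FiniteDimensional k⟮cb⟯ Fb] [Algebra.IsSeparable k⟮cb⟯ Fb] in
/-- `ρ R ⊆ O_P`. -/
theorem Branch_mem_place (h : IsFullImage k R W ρ cb) (P : Place k Fb)
    (hP : cb ∈ P.toValuationSubring) (x : R) : h.ρR x ∈ P.toValuationSubring :=
  GAL.Igusa.mem_place_of_isIntegral P hP (h.integral x x.2)

omit [IsAlgClosed k] [FiniteDimensional k⟮cb⟯ Fb] [Algebra.IsSeparable k⟮cb⟯ Fb] in
/-- elements outside `𝔫` are units at `P`, and conversely. -/
theorem Branch_unit_iff (h : IsFullImage k R W ρ cb) (P : Place k Fb)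
    (hP : cb ∈ P.toValuationSubring) {𝔫 : Ideal R}
    (h2 : ∀ x : R, x ∈ 𝔫 ↔ h.ρR x ∈ P.toValuationSubring.nonunits) (x : R) :
    x ∉ 𝔫 ↔ P.toValuationSubring.valuation (h.ρR x) = 1 := by
  rw [h2 x, ValuationSubring.mem_nonunits_iff, not_lt]
  constructor
  · intro h1
    exact le_antisymm
      ((P.toValuationSubring.valuation_le_one_iff _).2 (Branch_mem_place h P hP x)) h1
  · intro h1
    exact h1.ge

omit [IsAlgClosed k] [FiniteDimensional k⟮cb⟯ Fb] [Algebra.IsSeparable k⟮cb⟯ Fb] in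
/-- translation of a congruence along the component. -/
theorem Branch_eq_of_lt (h : IsFullImage k R W ρ cb) {s a : R} {y : W}
    (hlt : W.valuation ((s : F0) * (y : F0) - (a : F0)) < 1) : h.ρR s * ρ y = h.ρR a := by
  have h1 := (h.ker (⟨s, h.le s s.2⟩ * y - ⟨a, h.le a a.2⟩)).2 hlt
  rw [map_sub, map_mul, sub_eq_zero] at h1
  exact h1

open IntermediateField.algebraAdjoinAdjoin in
omit [IsAlgClosed k] [Algebra.IsSeparable k⟮cb⟯ Fb] in
/-- `ρ` is onto (`Fb` is the fraction field of the integral closure of `k[cb]`). -/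
theorem Branch_rho_surjective (h : IsFullImage k R W ρ cb) : Function.Surjective ρ := by
  intro v
  have : IsFractionRing (integralClosure (Algebra.adjoin k {cb}) Fb) Fb :=
    integralClosure.isFractionRing_of_finite_extension k⟮cb⟯ Fb
  obtain ⟨b1, b2, hb2, rfl⟩ :=
    IsFractionRing.div_surjective (A := integralClosure (Algebra.adjoin k {cb}) Fb) v
  obtain ⟨x1, hx1, e1⟩ := h.surj b1 b1.2
  obtain ⟨x2, hx2, e2⟩ := h.surj b2 b2.2
  have hb2' : (b2 : Fb) ≠ 0 := fun h0 => nonZeroDivisors.ne_zero hb2 (Subtype.ext h0)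
  have hv : W.valuation x2 = 1 := by
    have h1 : ¬ W.valuation x2 < 1 := by
      intro hlt
      have := (h.ker ⟨x2, h.le x2 hx2⟩).2 hlt
      rw [e2] at this
      exact hb2' this
    exact le_antisymm ((W.valuation_le_one_iff _).2 (h.le x2 hx2)) (not_lt.1 h1)
  have hx20 : x2 ≠ 0 := by
    rintro rfl
    rw [map_zero] at hv
    exact zero_ne_one hv
  have hinv : x2⁻¹ ∈ W := by rw [← W.valuation_le_one_iff, map_inv₀, hv, inv_one]
  refine ⟨⟨x1, h.le x1 hx1⟩ * ⟨x2⁻¹, hinv⟩, ?_⟩
  have h1 : (⟨x2⁻¹, hinv⟩ : W) * ⟨x2, h.le x2 hx2⟩ = 1 := Subtype.ext (inv_mul_cancel₀ hx20)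
  have h2 : ρ ⟨x2⁻¹, hinv⟩ * (b2 : Fb) = 1 := by rw [← e2, ← map_mul, h1, map_one]
  rw [map_mul, e1]
  show (b1 : Fb) * ρ ⟨x2⁻¹, hinv⟩ = (b1 : Fb) / (b2 : Fb)
  rw [eq_div_iff hb2', mul_assoc, h2, mul_one]

/-- **Leaf Br3 (normality, elementwise).**  If `y ∈ W` and `y ^ n` is congruent along the component to a unit `t / s` of
`R_𝔫`, then `y` is congruent to a fraction `a / b`, `b ∉ 𝔫`.
PROOF. `P` from `exists_branch`.  `ρ s, ρ t` are units of `O_P` (they are in `O_P` by integrality and not in `𝔪_P` by (2)).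
`(ρ y) ^ n = ρ t / ρ s ∈ O_P`, so `ρ y ∈ O_P` (valuation rings are integrally closed: `ValuationSubring.mem_of_pow_mem`-type
argument: if `ρ y ∉ O_P` then `(ρ y)⁻¹ ∈ 𝔪_P`, so `((ρ y)⁻¹) ^ n ∈ 𝔪_P`, but it is the unit `ρ s / ρ t`).  Apply (3). -/
theorem exists_fraction_of_pow (h : IsFullImage k R W ρ cb) (hcb : Transcendental k cb)
    (𝔫 : Ideal R) (h𝔫 : 𝔫.IsMaximal) (hthru : ∀ x : R, W.valuation (x : F0) < 1 → x ∈ 𝔫)
    {n : ℕ} (hn : 0 < n) {y : F0} (hy : y ∈ W) {s t : R} (hs : s ∉ 𝔫) (ht : t ∉ 𝔫)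
    (hyn : W.valuation (y ^ n * (s : F0) - (t : F0)) < 1) :
    ∃ a b : R, b ∉ 𝔫 ∧ W.valuation (y * (b : F0) - (a : F0)) < 1 := by
  obtain ⟨P, hP, h2, h3⟩ := exists_branch h hcb 𝔫 h𝔫 hthru
  have e : ρ ⟨y, hy⟩ ^ n * h.ρR s = h.ρR t := by
    have h1 := (h.ker (⟨y, hy⟩ ^ n * ⟨s, h.le s s.2⟩ - ⟨t, h.le t t.2⟩)).2 hyn
    rw [map_sub, map_mul, map_pow, sub_eq_zero] at h1
    exact h1
  have hY : ρ ⟨y, hy⟩ ∈ P.toValuationSubring := by
    rw [← ValuationSubring.valuation_le_one_iff]
    have h1 := congrArg P.toValuationSubring.valuation e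
    rw [map_mul, map_pow, (Branch_unit_iff h P hP h2 s).1 hs, (Branch_unit_iff h P hP h2 t).1 ht,
      mul_one] at h1
    exact (pow_le_one_iff hn.ne').1 h1.le
  obtain ⟨a, b, hb, hab⟩ := h3 ⟨y, hy⟩ hY
  exact ⟨a, b, hb, by rw [mul_comm]; exact hab⟩

/-- **Leaf Br4 (`(R / p)_𝔫` is a DVR, elementwise).**  There is `z ∈ 𝔫` generating `𝔫` modulo the component, locally at `𝔫`,
and every `x : R` which does not vanish on the component is `unit * z ^ m` modulo the component, locally at `𝔫`.
PROOF. `P` from `exists_branch`; `ϖ : Fb` a uniformiser of `P` (`P.ord ϖ = 1`: `Place.exists_ord_eq_one`-type lemma, or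
`IsDiscreteValuationRing.exists_irreducible`); by (3) (applied to a lift `y : W` of `ϖ`, `ρ` need not be surjective: instead use that
`ϖ = a' / s'` with `a', s' ∈ B`, `s' ∉ m`, so `a'` is also a uniformiser and `a' = ρ z`).  For `x` with `ρ x ≠ 0`, `m := P.ord (ρ x)`:
`ρ x / (ρ z) ^ m` is a unit of `O_P`, `= ρ a / ρ s` by (3) (apply (3) to the element `x / z ^ m ∈ W`: `v z = 1` since `ρ z ≠ 0`). -/
theorem exists_local_generator (h : IsFullImage k R W ρ cb) (hcb : Transcendental k cb)
    (𝔫 : Ideal R) (h𝔫 : 𝔫.IsMaximal) (hthru : ∀ x : R, W.valuation (x : F0) < 1 → x ∈ 𝔫) :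
    ∃ z ∈ 𝔫, ∀ x : R, ¬ W.valuation (x : F0) < 1 →
      ∃ (m : ℕ) (a s : R), a ∉ 𝔫 ∧ s ∉ 𝔫 ∧
        W.valuation ((s : F0) * (x : F0) - (a : F0) * (z : F0) ^ m) < 1 := by
  obtain ⟨P, hP, h2, h3⟩ := exists_branch h hcb 𝔫 h𝔫 hthru
  have hsurj := Branch_rho_surjective h
  obtain ⟨π, hπ⟩ := IsDiscreteValuationRing.exists_irreducible P.toValuationSubring
  have hπlt : P.toValuationSubring.valuation (π : Fb) < 1 := by
    rw [← ValuationSubring.valuation_lt_one_iff, IsLocalRing.mem_maximalIdeal, mem_nonunits_iff]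
    exact hπ.not_isUnit
  -- a uniformiser coming from `R`
  obtain ⟨y₀, hy₀⟩ := hsurj (π : Fb)
  obtain ⟨z, s₀, hs₀, hz⟩ := h3 y₀ (by rw [hy₀]; exact π.2)
  have ez : h.ρR s₀ * (π : Fb) = h.ρR z := by
    rw [← hy₀]; exact Branch_eq_of_lt h hz
  have hs₀u := (Branch_unit_iff h P hP h2 s₀).1 hs₀
  have hs₀0 : h.ρR s₀ ≠ 0 := by
    intro h0
    rw [h0, map_zero] at hs₀u
    exact zero_ne_one hs₀u
  have hz𝔫 : z ∈ 𝔫 := by
    rw [h2 z, ValuationSubring.mem_nonunits_iff, ← ez, map_mul, hs₀u, one_mul]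
    exact hπlt
  refine ⟨z, hz𝔫, fun x hx => ?_⟩
  have hX0 : h.ρR x ≠ 0 := fun h0 => hx ((h.ker ⟨x, h.le x x.2⟩).1 h0)
  have hXmem := Branch_mem_place h P hP x
  obtain ⟨m, u, hu⟩ := IsDiscreteValuationRing.eq_unit_mul_pow_irreducible
    (x := (⟨h.ρR x, hXmem⟩ : P.toValuationSubring)) (fun h0 => hX0 (congrArg Subtype.val h0)) hπ
  have hu' : h.ρR x = ((u : P.toValuationSubring) : Fb) * (π : Fb) ^ m :=
    congrArg Subtype.val hu
  have huu : P.toValuationSubring.valuation ((u : P.toValuationSubring) : Fb) = 1 :=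
    (ValuationSubring.valuation_eq_one_iff _ _).1 u.isUnit
  -- the unit `U = u / (ρ s₀) ^ m`
  have hUval : P.toValuationSubring.valuation
      (((u : P.toValuationSubring) : Fb) / h.ρR s₀ ^ m) = 1 := by
    rw [map_div₀, map_pow, huu, hs₀u, one_pow, div_one]
  obtain ⟨y₁, hy₁⟩ := hsurj (((u : P.toValuationSubring) : Fb) / h.ρR s₀ ^ m)
  obtain ⟨a, s, hs, ha⟩ := h3 y₁ (by
    rw [hy₁, ← ValuationSubring.valuation_le_one_iff]; exact hUval.le)
  have ea : h.ρR s * (((u : P.toValuationSubring) : Fb) / h.ρR s₀ ^ m) = h.ρR a := by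
    rw [← hy₁]; exact Branch_eq_of_lt h ha
  refine ⟨m, a, s, ?_, hs, ?_⟩
  · rw [Branch_unit_iff h P hP h2 a, ← ea, map_mul, hUval,
      (Branch_unit_iff h P hP h2 s).1 hs, one_mul]
  · have e1 : h.ρR s * h.ρR x = h.ρR a * h.ρR z ^ m := by
      rw [← ea, ← ez, hu', mul_pow]
      field_simp
    refine (h.ker (⟨s, h.le s s.2⟩ * ⟨x, h.le x x.2⟩ - ⟨a, h.le a a.2⟩ * ⟨z, h.le z z.2⟩ ^ m)).1 ?_
    rw [map_sub, map_mul, map_mul, map_pow, sub_eq_zero]
    exact e1

end Fermat.Agent.S36R.AA
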