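import Fermat.Agent.S36R.AA.Conc
import Fermat.Agent.Lib.Count.Main
import Fermat.Agent.Lib.Gamma0Cosets

/-!
# S36, route R: the degree `[FF K N : K(j)] ≤ ψ(N)` for every field `K ⊆ ℂ`, and `ψ(M q²) = q (q + 1) ψ(M)`

`finrank_j0_le` is the hypothesis `hsum` of `Val.vertFam_of_ef` / `Val.GenInput.absConcl` at level `M q²`.
-/

set_option autoImplicit false
set_option linter.unusedSectionVars false

namespace Fermat.Agent.S36R

open AlgebraicCurve ModularCurve Fermat.Agent.GAL Fermat.Agent.S24 IntermediateField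
open Fermat.Agent.GAL.Tors.Dict Polynomial Fermat.Agent.S24.Degree

noncomputable section

section generic

variable (K : Type) [Field K] [Algebra ℚ K] [CharZero K] (ι : K →+* ℂ)

include ι in
/-- `[FF K N : K(j)] ≤ ψ(N)`. -/
theorem Conc_finrank_jF_le (N : ℕ) [NeZero N] :
    Module.finrank K⟮Tors.Dict.jF K N⟯ (FF K N) ≤ dedekindPsi N := by
  have := degree_finite_gensF K N
  rw [← Lib.Count.card_quotient_Gamma0]
  refine (finrank_le_of_relations (Tors.Dict.jF K N)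
    (Nat.card (Matrix.SpecialLinearGroup (Fin 2) ℤ ⧸ CongruenceSubgroup.Gamma0 N)) (gensF K N)
    (jF_mem_A K N) (exists_div K N) fun a ha => ?_).2
  have ha' : (a : LaurentSeries K) ∈ goodSub K ι N :=
    Conc_AL_le_goodSub K ι N ((mem_A_iff K).mp ha)
  obtain ⟨p', hp'⟩ := degree_exists_relation K ι N (coeffEmb K jq) (degree_isConv_jK K ι)
    (degree_PsiFun_jK K ι) _ ha'
  refine ⟨fun i => ⟨aeval (Tors.Dict.jF K N) (p' i), aeval_mem_adjoin_singleton _ _⟩, ?_⟩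
  exact relation_lift (FF K N) (Tors.Dict.jF K N) a p' hp'

end generic

/-- `ψ(M q²) = q (q + 1) ψ(M)`. -/
theorem dedekindPsi_mul_sq {M q : ℕ} (hq : q.Prime) (hqM : ¬ q ∣ M) :
    dedekindPsi (M * q * q) = q * (q + 1) * dedekindPsi M := by
  have hcop : M.Coprime (q ^ 2) :=
    Nat.Coprime.pow_right 2 ((Nat.Prime.coprime_iff_not_dvd hq).2 hqM).symm
  have h1 := Lib.Gamma0Cosets.dedekindPsi_prime_pow hq 1
  rw [mul_assoc, ← sq, Lib.Gamma0Cosets.dedekindPsi_mul hcop, h1]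
  ring

variable (A : ValuationSubring Kbar)

/-- `[FF K0 N : K0(j)] ≤ ψ(N)`. -/
theorem finrank_j0_le (N : ℕ) [NeZero N] :
    Module.finrank (K0 A)⟮j0 A N⟯ (FF (K0 A) N) ≤ dedekindPsi N :=
  Conc_finrank_jF_le (K0 A) (iotaK0 A) N

/-- **`hsum`** at level `M q²`:  `[F : K0(j)] ≤ 1 * ψ + (q - 1) * ψ + 1 * (q² ψ)`. -/
theorem finrank_j0_le_sum {M q : ℕ} [NeZero M] [NeZero q] (hq : q.Prime) (hqM : ¬ q ∣ M) :
    Module.finrank (K0 A)⟮j0 A (M * q * q)⟯ (FF (K0 A) (M * q * q)) ≤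
      1 * dedekindPsi M + (q - 1) * dedekindPsi M + 1 * (q * q * dedekindPsi M) := by
  have : NeZero (M * q * q) := ⟨mul_ne_zero (mul_ne_zero (NeZero.ne M) (NeZero.ne q)) (NeZero.ne q)⟩
  refine (finrank_j0_le A (M * q * q)).trans (le_of_eq ?_)
  rw [dedekindPsi_mul_sq hq hqM]
  obtain ⟨n, rfl⟩ : ∃ n, q = n + 1 := ⟨q - 1, (Nat.sub_add_cancel hq.one_le).symm⟩
  rw [Nat.add_sub_cancel]
  ring

end

end Fermat.Agent.S36R
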