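import Fermat.Agent.S36R.AA.Abs
import Fermat.Agent.S36R.Inj.FormD

/-!
# S36, route R, block AA4 (abstract, Mathlib only): closed points of the special fibre of a chart

`RS O c = (integralClosure O[c] F0).toSubring` is the chart ring as a `Subring F0` (the shape used by
`S36R/Inj`: `Inj.Chart`, `Inj.Vert`, `Inj.Thru`, `Inj.Cond`).

* `isNoetherianRing_RS`      : noetherian (input of `Inj.cond_of_isNoetherianRing`);
* `exists_thru`              : every prime containing `π` contains the centre of some vertical `W i`;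
* `hdim_of_gauss`            : the hypothesis `hdim` of `Inj.cond_of_isNoetherianRing` (components have dimension 1);
* `exists_const_sub_mem`     : the residue field of a closed point of the special fibre is `O / π`;
* `cond_of_chart`            : `Inj.Cond W 𝔫` for the chart rings.
-/

set_option autoImplicit false

namespace Fermat.Agent.S36R.AA

open Polynomial IntermediateField Fermat.Agent.S36R.Inj

variable (O K0 : Type*) {F0 : Type*} [CommRing O] [Field K0] [Field F0]
  [Algebra O K0] [Algebra K0 F0] [Algebra O F0] [IsScalarTower O K0 F0]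

/-- The chart ring as a subring of `F0`. -/
abbrev RS (c : F0) : Subring F0 := (Rc O c).toSubring

variable {O} in
theorem mem_RS {c x : F0} : x ∈ RS O c ↔ IsIntegral (Oc O c) x := Iff.rfl

theorem algebraMap_mem_RS (c : F0) (a : O) : algebraMap O F0 a ∈ RS O c :=
  (Rc O c).algebraMap_mem (algebraMap O (Oc O c) a)

theorem self_mem_RS (c : F0) : c ∈ RS O c :=
  (Rc O c).algebraMap_mem (⟨c, Algebra.self_mem_adjoin_singleton O c⟩ : Oc O c)

/-- the identity `Rc O c ≃+* RS O c`. -/
def equivRS (c : F0) : Rc O c ≃+* RS O c := RingEquiv.refl _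

/-- **AA1 (a')**. -/
theorem isNoetherianRing_RS [IsDomain O] [IsFractionRing O K0] [IsNoetherianRing O]
    [IsIntegrallyClosed O] {c : F0} (hc : Transcendental K0 c) [FiniteDimensional K0⟮c⟯ F0]
    [Algebra.IsSeparable K0⟮c⟯ F0] : IsNoetherianRing (RS O c) :=
  have := isNoetherianRing_Rc O K0 hc
  isNoetherianRing_of_ringEquiv _ (equivRS O c)

variable {O}
variable {ι : Type*}

/-- **Leaf D2.** Every prime `𝔫 ∋ π` of a chart contains the centre of some vertical valuation.
PROOF. Otherwise choose `x i : R`, `v_i (x i) < 1`, `x i ∉ 𝔫` (`Thru`, `not_forall`, `Classical.choose`).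
`y := ∏ i, x i ^ E` (`cases nonempty_fintype ι`), `y ∉ 𝔫` (`Ideal.IsPrime.prod_mem_iff`, `IsPrime.mem_of_pow_mem`).
For all `i`: `v_i y ≤ v_i (x i) ^ E ≤ v_i π` (`Finset.mul_prod_erase`; the other factors are in `R ⊆ W i`; `hV.disc`).
So `z := y / π` lies in all `W i` (`valuation_le_one_iff`, `map_div₀`, `div_le_one₀`, `hV.pi_ne`) and `π * z = y ∈ R`:
`z ∈ R` by `hR.sat`; then `y = π * z ∈ 𝔫` (`hπ` applied to `⟨algebraMap O F π, hR.algebraMap_mem π⟩`), contradiction. -/
theorem exists_thru [Finite ι] {π : O} {W : ι → ValuationSubring F0} {E : ℕ} (hV : Vert π W E)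
    {c : F0} {R : Subring F0} (hR : Chart π W c R) (𝔫 : Ideal R) [𝔫.IsPrime]
    (hπ : ∀ x : R, (x : F0) = algebraMap O F0 π → x ∈ 𝔫) : ∃ i, Thru W 𝔫 i := by
  classical
  by_contra hcon
  have h1 : ∀ i, ∃ x : R, (W i).valuation (x : F0) < 1 ∧ x ∉ 𝔫 := by
    intro i
    by_contra h
    exact hcon ⟨i, fun x hx => by_contra fun hx' => h ⟨x, hx, hx'⟩⟩
  choose x hx hxn using h1
  cases nonempty_fintype ι
  let y : R := ∏ i, x i ^ E
  have hp : 𝔫.IsPrime := inferInstance
  have hy𝔫 : y ∉ 𝔫 := by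
    intro h
    obtain ⟨i, -, hi⟩ := Ideal.IsPrime.prod_mem_iff.1 h
    exact hxn i (hp.mem_of_pow_mem E hi)
  have hval : ∀ i, (W i).valuation (y : F0) ≤ (W i).valuation (algebraMap O F0 π) := by
    intro i
    have e : y = x i ^ E * ∏ j ∈ Finset.univ.erase i, x j ^ E :=
      (Finset.mul_prod_erase _ _ (Finset.mem_univ i)).symm
    rw [e, Subring.coe_mul, Subring.coe_pow, map_mul, map_pow]
    calc (W i).valuation (x i : F0) ^ E *
          (W i).valuation ((∏ j ∈ Finset.univ.erase i, x j ^ E : R) : F0)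
        ≤ (W i).valuation (x i : F0) ^ E * 1 :=
          mul_le_mul_right ((W i).valuation_le_one_iff _ |>.2 (hR.le_W i _ (SetLike.coe_mem _))) _
      _ = (W i).valuation (x i : F0) ^ E := mul_one _
      _ ≤ _ := hV.disc i _ (hx i)
  let z : F0 := (y : F0) / algebraMap O F0 π
  have hzW : ∀ i, z ∈ W i := by
    intro i
    rw [← (W i).valuation_le_one_iff, map_div₀]
    exact div_le_one_of_le₀ (hval i) zero_le
  have hπz : algebraMap O F0 π * z = y := mul_div_cancel₀ _ hV.pi_ne
  have hzR : z ∈ R := hR.sat z (by rw [hπz]; exact y.2) hzW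
  apply hy𝔫
  have e : y = ⟨algebraMap O F0 π, hR.algebraMap_mem π⟩ * ⟨z, hzR⟩ := Subtype.ext hπz.symm
  rw [e]
  exact 𝔫.mul_mem_right _ (hπ _ rfl)

/-- `O[X] → RS O c`, `g ↦ g(c)`. -/
noncomputable def Dim_ev (c : F0) : O[X] →+* RS O c :=
  ((aeval c : O[X] →ₐ[O] F0) : O[X] →+* F0).codRestrict (RS O c) (fun g =>
    (Rc O c).algebraMap_mem (⟨aeval c g, aeval_mem_adjoin_singleton O c⟩ : Oc O c))

theorem Dim_coe_ev (c : F0) (g : O[X]) : ((Dim_ev c g : RS O c) : F0) = aeval c g := rfl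

/-- `RS O c` is integral over `O[X]`. -/
theorem Dim_ev_isIntegral (c : F0) : (Dim_ev (O := O) c).IsIntegral := by
  intro x
  obtain ⟨G, hGm, hG0⟩ := (mem_RS.mp x.2 : IsIntegral (Oc O c) (x : F0))
  have hθ : Function.Surjective (((aeval c : O[X] →ₐ[O] F0) : O[X] →+* F0).codRestrict (Oc O c)
      (fun g => aeval_mem_adjoin_singleton O c)) := by
    intro y
    have hy : (y : F0) ∈ (aeval c : O[X] →ₐ[O] F0).range := by
      rw [← Algebra.adjoin_singleton_eq_range_aeval]
      exact y.2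
    obtain ⟨g, hg⟩ := hy
    exact ⟨g, Subtype.ext hg⟩
  obtain ⟨q, hq, -, hqm⟩ := Polynomial.lifts_and_natDegree_eq_and_monic
    ((Polynomial.mem_lifts G).mpr (Polynomial.map_surjective _ hθ G)) hGm
  refine ⟨q, hqm, Subtype.ext ?_⟩
  have h1 : ((eval₂ (Dim_ev c) x q : RS O c) : F0) =
      eval₂ ((RS O c).subtype.comp (Dim_ev c)) (x : F0) q :=
    Polynomial.hom_eval₂ q (Dim_ev c) (RS O c).subtype x
  have h2 : (RS O c).subtype.comp (Dim_ev c) = (algebraMap (Oc O c) F0).comp
      (((aeval c : O[X] →ₐ[O] F0) : O[X] →+* F0).codRestrict (Oc O c)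
        (fun g => aeval_mem_adjoin_singleton O c)) := rfl
  rw [h1, h2, ← Polynomial.eval₂_map, hq]
  exact hG0

/-- the centre of a valuation ring is prime. -/
theorem Dim_centre_isPrime (R : Subring F0) (W : ValuationSubring F0)
    (hle : ∀ x : R, (x : F0) ∈ W) : (centre R W hle).IsPrime := by
  refine ⟨?_, ?_⟩
  · rw [Ideal.ne_top_iff_one, mem_centre, ValuationSubring.mem_nonunits_iff]
    simp
  · intro x y hxy
    rw [mem_centre, ValuationSubring.mem_nonunits_iff] at hxy ⊢
    rw [mem_centre, ValuationSubring.mem_nonunits_iff]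
    by_contra hcon
    rw [not_or, not_lt, not_lt] at hcon
    have hx : W.valuation (x : F0) = 1 :=
      le_antisymm ((W.valuation_le_one_iff _).mpr (hle x)) hcon.1
    have hy : W.valuation (y : F0) = 1 :=
      le_antisymm ((W.valuation_le_one_iff _).mpr (hle y)) hcon.2
    rw [Subring.coe_mul, map_mul, hx, hy, one_mul] at hxy
    exact lt_irrefl _ hxy

/-- **Leaf D1.** The components of the special fibre have dimension one.
`hG` says that `W` restricts to the Gauss valuation on `O[c]` (i.e. the residue of `c` is transcendental over `O / π`).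
(STATEMENT FIXED by helper30: the hypotheses `hle : R ⊆ W` and `hπW : v π < 1` are necessary, e.g. `W = ⊤`; `hG` is not used.)
PROOF. Let `S = Oc O c`, `R = RS O c` (integral over `S`: `Algebra S R`, use `Rc O c` and `equivRS`, or work with
`Ideal.comap (algebraMap S (Rc O c))`).  `p := {x : R | v x < 1}` (`Inj.centre`).  Assume `P ≠ p`, i.e. there is `x ∈ P` with
`¬ v x < 1`; as `p ≤ P` we get `p < P`, both prime, so `p ∩ S < P ∩ S` (`Ideal.comap_lt_comap_of_integral_mem_sdiff`).
`p ∩ S = π S` by `hG` (elements of `S` are `aeval c p`: `Algebra.adjoin_singleton_eq_range_aeval`; conversely `v π < 1`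
follows from ... NOT needed: only `p ∩ S ≤ π S` and `π S ≤ p ∩ S ≤ P ∩ S` where `π ∈ P` is `hπP`).
`S / π S` is a quotient of `(O / π)[X]` (`Polynomial.aeval` is onto `S`), a PID, so the prime `P ∩ S`, which contains `π S`
strictly, is maximal: pull back to `O[X]` along `aeval c`: `Q := comap (aeval c) (P ∩ S)` is a prime of `O[X]` containing
`C π` and some `g` with a coefficient not divisible by `π`; its image in `(O/π)[X]` (`Ideal.map (mapRingHom (Ideal.Quotient.mk _))`,
surjective) is a non zero prime of a PID over a field, hence maximal (`Ideal.IsPrime.isMaximal` / `IsPrime.to_maximal_ideal`),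
so `Q` is maximal (`Ideal.comap_isMaximal_of_surjective`), so `P ∩ S` is maximal (image of a maximal ideal under a surjection
containing the kernel), so `P` is maximal (`Ideal.isMaximal_of_isIntegral_of_isMaximal_comap`), so `P = 𝔫`
(`Ideal.IsMaximal.eq_of_le`, `𝔫 ≠ ⊤`). -/
theorem hdim_of_gauss {π : O} (hπ : (Ideal.span {π}).IsMaximal) (c : F0)
    (W : ValuationSubring F0) (hle : ∀ x : RS O c, (x : F0) ∈ W)
    (hπW : W.valuation (algebraMap O F0 π) < 1)
    (_hG : ∀ p : O[X], W.valuation (aeval c p) < 1 → ∀ n, π ∣ p.coeff n)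
    (𝔫 : Ideal (RS O c)) [𝔫.IsPrime] (P : Ideal (RS O c)) (hP : P.IsPrime)
    (h1 : ∀ x : RS O c, W.valuation (x : F0) < 1 → x ∈ P) (h2 : P ≤ 𝔫)
    (hπP : (⟨algebraMap O F0 π, algebraMap_mem_RS O c π⟩ : RS O c) ∈ P) :
    (∀ x ∈ P, W.valuation (x : F0) < 1) ∨ P = 𝔫 := by
  classical
  by_cases hall : ∀ x ∈ P, W.valuation (x : F0) < 1
  · exact Or.inl hall
  right
  rw [not_forall] at hall
  obtain ⟨x, hx⟩ := hall
  rw [Classical.not_imp] at hx
  obtain ⟨hxP, hxv⟩ := hx
  have hpprime : (centre (RS O c) W hle).IsPrime := Dim_centre_isPrime _ _ _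
  have hpP : centre (RS O c) W hle ≤ P := fun y hy =>
    h1 y ((ValuationSubring.mem_nonunits_iff W).mp hy)
  have hlt : (centre (RS O c) W hle).comap (Dim_ev c) < P.comap (Dim_ev c) := by
    let _ : Algebra O[X] (RS O c) := (Dim_ev c).toAlgebra
    exact Ideal.comap_lt_comap_of_integral_mem_sdiff (R := O[X]) hpP
      ⟨hxP, fun h => hxv ((ValuationSubring.mem_nonunits_iff W).mp h)⟩ (Dim_ev_isIntegral c x)
  obtain ⟨-, g, hgQ, hgp⟩ := SetLike.lt_iff_le_and_exists.mp hlt
  let _ : Field (O ⧸ Ideal.span {π}) := Ideal.Quotient.field _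
  have hψ : Function.Surjective (Polynomial.mapRingHom (Ideal.Quotient.mk (Ideal.span {π}))) :=
    Polynomial.map_surjective _ Ideal.Quotient.mk_surjective
  have hker : RingHom.ker (Polynomial.mapRingHom (Ideal.Quotient.mk (Ideal.span {π}))) =
      Ideal.span {C π} := by
    rw [Polynomial.ker_mapRingHom, Ideal.mk_ker, Ideal.map_span, Set.image_singleton]
  have hkerQ : RingHom.ker (Polynomial.mapRingHom (Ideal.Quotient.mk (Ideal.span {π}))) ≤
      P.comap (Dim_ev c) := by
    rw [hker, Ideal.span_singleton_le_iff_mem, Ideal.mem_comap]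
    have h3 : Dim_ev c (C π) = ⟨algebraMap O F0 π, algebraMap_mem_RS O c π⟩ := by
      apply Subtype.ext
      rw [Dim_coe_ev, aeval_C]
    rw [h3]
    exact hπP
  have hQprime : (P.comap (Dim_ev c)).IsPrime := Ideal.comap_isPrime _ _
  have hmapprime : (Ideal.map (Polynomial.mapRingHom (Ideal.Quotient.mk (Ideal.span {π})))
      (P.comap (Dim_ev c))).IsPrime := Ideal.map_isPrime_of_surjective hψ hkerQ
  have hne : Ideal.map (Polynomial.mapRingHom (Ideal.Quotient.mk (Ideal.span {π})))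
      (P.comap (Dim_ev c)) ≠ ⊥ := by
    intro h0
    have h3 : Polynomial.mapRingHom (Ideal.Quotient.mk (Ideal.span {π})) g ∈
        Ideal.map (Polynomial.mapRingHom (Ideal.Quotient.mk (Ideal.span {π})))
          (P.comap (Dim_ev c)) := Ideal.mem_map_of_mem _ hgQ
    rw [h0, Ideal.mem_bot, ← RingHom.mem_ker, hker, Ideal.mem_span_singleton] at h3
    obtain ⟨h, rfl⟩ := h3
    apply hgp
    rw [Ideal.mem_comap, mem_centre, ValuationSubring.mem_nonunits_iff, Dim_coe_ev, map_mul,
      aeval_C, map_mul]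
    exact mul_lt_one_of_lt_of_le hπW ((W.valuation_le_one_iff _).mpr (hle (Dim_ev c h)))
  have hmax : (Ideal.map (Polynomial.mapRingHom (Ideal.Quotient.mk (Ideal.span {π})))
      (P.comap (Dim_ev c))).IsMaximal := IsPrime.to_maximal_ideal hne
  have hQmax : (P.comap (Dim_ev c)).IsMaximal := by
    have h4 := Ideal.comap_isMaximal_of_surjective
      (Polynomial.mapRingHom (Ideal.Quotient.mk (Ideal.span {π}))) hψ
      (K := Ideal.map (Polynomial.mapRingHom (Ideal.Quotient.mk (Ideal.span {π})))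
        (P.comap (Dim_ev c)))
    rwa [Ideal.comap_map_of_surjective _ hψ, ← RingHom.ker_eq_comap_bot,
      sup_eq_left.mpr hkerQ] at h4
  have hPmax : P.IsMaximal :=
    Ideal.isMaximal_of_isIntegral_of_isMaximal_comap' (Dim_ev c) (Dim_ev_isIntegral c) P hQmax
  exact hPmax.eq_of_le (Ideal.IsPrime.ne_top ‹𝔫.IsPrime›) h2

/-- `O / π` is algebraically closed. -/
theorem Dim_isAlgClosed {π : O} (hπ : (Ideal.span {π}).IsMaximal)
    (hk : ∀ p : O[X], p.Monic → 0 < p.natDegree → ∃ a : O, π ∣ p.eval a) :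
    letI := Ideal.Quotient.field (Ideal.span {π})
    IsAlgClosed (O ⧸ Ideal.span {π}) := by
  let _ := Ideal.Quotient.field (Ideal.span {π})
  refine IsAlgClosed.of_exists_root _ fun p hp hirr => ?_
  have hl : p ∈ lifts (Ideal.Quotient.mk (Ideal.span {π})) := by
    rw [mem_lifts]
    exact map_surjective _ Ideal.Quotient.mk_surjective p
  obtain ⟨P, hP1, hP2, hP3⟩ := lifts_and_natDegree_eq_and_monic hl hp
  obtain ⟨a, ha⟩ := hk P hP3 (by rw [hP2]; exact hirr.natDegree_pos)
  refine ⟨Ideal.Quotient.mk _ a, ?_⟩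
  rw [← hP1, eval_map, eval₂_at_apply, Ideal.Quotient.eq_zero_iff_mem, Ideal.mem_span_singleton]
  exact ha

/-- `O → RS O c`. -/
noncomputable def Dim_j (c : F0) : O →+* RS O c :=
  (algebraMap O F0).codRestrict (RS O c) (algebraMap_mem_RS O c)

/-- `O[X] → RS O c`, `X ↦ c`. -/
noncomputable def Dim_θ (c : F0) : O[X] →+* RS O c :=
  eval₂RingHom (Dim_j c) ⟨c, self_mem_RS O c⟩

theorem Dim_θ_isIntegral (c : F0) : (Dim_θ (O := O) c).IsIntegral := by
  intro x
  obtain ⟨P, hP, hPx⟩ := mem_RS.1 x.2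
  let θ₁ : O[X] →+* Oc O c :=
    (aeval (⟨c, Algebra.self_mem_adjoin_singleton O c⟩ : Oc O c)).toRingHom
  have hsurj : Function.Surjective θ₁ := by
    intro s
    have h1 : (s : F0) ∈ (aeval c : O[X] →ₐ[O] F0).range := by
      rw [← Algebra.adjoin_singleton_eq_range_aeval]
      exact s.2
    obtain ⟨p, hp⟩ := h1
    refine ⟨p, Subtype.ext ?_⟩
    rw [← hp]
    exact (aeval_algHom_apply (Oc O c).val
      (⟨c, Algebra.self_mem_adjoin_singleton O c⟩ : Oc O c) p).symm
  have hl : P ∈ lifts θ₁ := by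
    rw [mem_lifts]
    exact map_surjective _ hsurj P
  obtain ⟨Q, hQ1, -, hQ3⟩ := lifts_and_natDegree_eq_and_monic hl hP
  refine ⟨Q, hQ3, Subtype.val_injective ?_⟩
  have h2 := hom_eval₂ Q (Dim_θ (O := O) c) (RS O c).subtype x
  have h3 : (RS O c).subtype.comp (Dim_θ (O := O) c) = (algebraMap (Oc O c) F0).comp θ₁ := by
    apply Polynomial.ringHom_ext
    · intro a
      simp [Dim_θ, Dim_j, θ₁]
      rfl
    · simp [Dim_θ, θ₁]
      rfl
  rw [h3, ← eval₂_map, hQ1] at h2
  exact h2.trans hPx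

/-- **Leaf D3.** The residue field of a closed point of the special fibre is `O / π` when the latter is algebraically
closed (`hk`: elementwise form).
PROOF. `κ := RS O c ⧸ 𝔫` is a field, `φ : O →+* κ` kills `π`.  (i) `c̄` is integral over `φ O`: `𝔫 ∩ S` is maximal in
`S = Oc O c` (`Ideal.isMaximal_comap_of_isIntegral_of_isMaximal`), contains `π`; if no monic `g : O[X]` had `aeval c g ∈ 𝔫`
then ... simpler: as in D1 the pull back `Q` of `𝔫 ∩ S` to `O[X]` is maximal and contains `C π`, its image `Q̄` in `(O/π)[X]` is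
maximal, hence `≠ ⊥` (`Polynomial` ring over a field is not a field: `Polynomial.not_isField`), so it contains a monic
polynomial, which lifts to a monic `g : O[X]` with `g ∈ Q`.  (ii) every `x : RS O c` is integral over `S`, so `x̄` is integral over
`φ O [c̄]`, hence over `φ O` (`isIntegral_trans`); get a monic `h : O[X]` with `aeval x h ∈ 𝔫`.  (iii) induction on the degree with
`hk`: `h ≡ (X - a) h₁ mod π` (`Polynomial.mul_divByMonic_eq_iff_isRoot`, `Polynomial.modByMonic_X_sub_C_eq_C_eval`), so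
`(x - a) * aeval x h₁ ∈ 𝔫`; conclude by primality.
Alternatively: `IsAlgClosed (O ⧸ span {π})` from `hk` (`IsAlgClosed.of_exists_root`), `Algebra.IsIntegral (O ⧸ span {π}) κ`, and
`IsAlgClosed.algebraMap_bijective_of_isIntegral`. -/
theorem exists_const_sub_mem {π : O} (hπ : (Ideal.span {π}).IsMaximal)
    (hk : ∀ p : O[X], p.Monic → 0 < p.natDegree → ∃ a : O, π ∣ p.eval a) (c : F0)
    (𝔫 : Ideal (RS O c)) (h𝔫 : 𝔫.IsMaximal)
    (hπ𝔫 : (⟨algebraMap O F0 π, algebraMap_mem_RS O c π⟩ : RS O c) ∈ 𝔫) (x : RS O c) :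
    ∃ a : O, x - ⟨algebraMap O F0 a, algebraMap_mem_RS O c a⟩ ∈ 𝔫 := by
  let _ := Ideal.Quotient.field (Ideal.span {π})
  let _ := Ideal.Quotient.field 𝔫
  have hAC : IsAlgClosed (O ⧸ Ideal.span {π}) := Dim_isAlgClosed hπ hk
  let ι : (O ⧸ Ideal.span {π}) →+* (RS O c ⧸ 𝔫) :=
    Ideal.Quotient.lift (Ideal.span {π}) ((Ideal.Quotient.mk 𝔫).comp (Dim_j c)) (by
      intro a ha
      obtain ⟨b, rfl⟩ := Ideal.mem_span_singleton.1 ha
      rw [RingHom.comp_apply, Ideal.Quotient.eq_zero_iff_mem, map_mul]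
      exact 𝔫.mul_mem_right _ hπ𝔫)
  have hι : ∀ a : O, ι (Ideal.Quotient.mk _ a) = Ideal.Quotient.mk 𝔫 (Dim_j c a) :=
    fun a => Ideal.Quotient.lift_mk _ _ _
  let ψ : (O ⧸ Ideal.span {π})[X] →+* (RS O c ⧸ 𝔫) :=
    eval₂RingHom ι (Ideal.Quotient.mk 𝔫 ⟨c, self_mem_RS O c⟩)
  have hcomp : ψ.comp (mapRingHom (Ideal.Quotient.mk (Ideal.span {π}))) =
      (Ideal.Quotient.mk 𝔫).comp (Dim_θ c) := by
    apply Polynomial.ringHom_ext
    · intro a
      simp [ψ, Dim_θ, hι]
    · simp [ψ, Dim_θ]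
  have hψ : ψ.IsIntegral := by
    apply RingHom.IsIntegral.tower_top (mapRingHom (Ideal.Quotient.mk (Ideal.span {π}))) ψ
    rw [hcomp]
    exact (Dim_θ_isIntegral c).trans _ _
      (RingHom.isIntegral_of_surjective _ Ideal.Quotient.mk_surjective)
  have hmax : ((⊥ : Ideal (RS O c ⧸ 𝔫)).comap ψ).IsMaximal :=
    haveI := Ideal.bot_isMaximal (K := RS O c ⧸ 𝔫)
    Ideal.isMaximal_comap_of_isIntegral_of_isMaximal' ψ hψ ⊥
  have hne := Ring.ne_bot_of_isMaximal_of_not_isField hmax
    (Polynomial.not_isField (O ⧸ Ideal.span {π}))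
  obtain ⟨p, hp, hp0⟩ := Submodule.exists_mem_ne_zero_of_ne_bot hne
  have hp' : ψ p = 0 := hp
  obtain ⟨a, ha⟩ := (IsAlgClosed.splits p).mem_range_of_isRoot hp0 (i := ι)
    (x := Ideal.Quotient.mk 𝔫 ⟨c, self_mem_RS O c⟩) (by
      rw [IsRoot.def, eval_map]
      exact hp')
  have hψ2 : ψ = ι.comp (evalRingHom a) := by
    apply Polynomial.ringHom_ext
    · intro b
      simp [ψ]
    · simp [ψ, ha]
  have hιint : ι.IsIntegral := by
    apply RingHom.IsIntegral.tower_top (evalRingHom a) ι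
    rw [← hψ2]
    exact hψ
  obtain ⟨P, hP, hPx⟩ := hιint (Ideal.Quotient.mk 𝔫 x)
  obtain ⟨b, hb⟩ := (IsAlgClosed.splits P).mem_range_of_isRoot hP.ne_zero (i := ι)
    (x := Ideal.Quotient.mk 𝔫 x) (by
      rw [IsRoot.def, eval_map]
      exact hPx)
  obtain ⟨b, rfl⟩ := Ideal.Quotient.mk_surjective b
  refine ⟨b, ?_⟩
  rw [hι] at hb
  exact (Ideal.Quotient.eq.1 hb.symm)

/-- **`Inj.Cond` for the chart rings** (assembly of `Inj.cond_of_isNoetherianRing`, `isNoetherianRing_RS`,
`hdim_of_gauss`).  `hsep` = separating elements (in the application: the units `ψ_a, ψ_b, ψ_c` of block R-UNIT). -/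
theorem cond_of_chart [IsDomain O] [IsFractionRing O K0] [IsNoetherianRing O]
    [IsIntegrallyClosed O] {c : F0} (hc : Transcendental K0 c) [FiniteDimensional K0⟮c⟯ F0]
    [Algebra.IsSeparable K0⟮c⟯ F0] {π : O} (hπ : (Ideal.span {π}).IsMaximal)
    {W : ι → ValuationSubring F0} (hle : ∀ i, ∀ x : RS O c, (x : F0) ∈ W i)
    (hπW : ∀ i, (W i).valuation (algebraMap O F0 π) < 1)
    (hG : ∀ i, ∀ p : O[X], (W i).valuation (aeval c p) < 1 → ∀ n, π ∣ p.coeff n)
    (hsep : ∀ i j, i ≠ j → ∃ x : RS O c, (W j).valuation (x : F0) < 1 ∧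
      ¬ (W i).valuation (x : F0) < 1)
    (𝔫 : Ideal (RS O c)) [𝔫.IsPrime] : Cond W 𝔫 := by
  have := isNoetherianRing_RS O K0 hc
  refine cond_of_isNoetherianRing hle 𝔫 ?_ (fun i j _ _ hij => hsep i j hij)
  intro i _ P hP h1 h2
  exact hdim_of_gauss hπ c (W i) (hle i) (hπW i) (hG i) 𝔫 P hP h1 h2 (h1 _ (hπW i))

end Fermat.Agent.S36R.AA
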