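import Fermat.Agent.S36R.AA.Branch
import Fermat.Agent.S36R.Contracts

/-!
# S36, route R, block AA3: the field `PointOK.vr` (normality of the branches), abstract form

`vr_of_integral_le` : if the image of the local ring `locAt 𝔫` in the residue field `Fb` of `W` contains the integral closure `B` of
`k[cb]` (a Dedekind domain with fraction field `Fb`), then this image is a valuation ring of `Fb`.
It applies to all closed points of `R₀` (`vr_of_isFullImage`) and to the cuspidal points of `R₁`.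
-/

set_option autoImplicit false

namespace Fermat.Agent.S36R.AA

open AlgebraicCurve IntermediateField Fermat.Agent.S36R.Inj

variable {F0 : Type*} [Field F0] {k Fb : Type*} [Field k] [Field Fb] [Algebra k Fb]
  {R : Subring F0} {W : ValuationSubring F0} {ρ : W →+* Fb} {cb : Fb}

/-- `locAt 𝔫 ⊆ W` when `W` passes through `𝔫`. -/
theorem locAt_le_of_thru (hle : ∀ x ∈ R, x ∈ W) (𝔫 : Ideal R) [𝔫.IsPrime]
    (hthru : ∀ x : R, W.valuation (x : F0) < 1 → x ∈ 𝔫) {a : F0} (ha : a ∈ locAt 𝔫) : a ∈ W := by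
  obtain ⟨s, hs, hsa⟩ := ha
  have hs1 : W.valuation (s : F0) = 1 :=
    le_antisymm ((W.valuation_le_one_iff _).2 (hle _ s.2)) (not_lt.1 fun h => hs (hthru s h))
  have h2 := (W.valuation_le_one_iff _).2 (hle _ hsa)
  rw [map_mul, hs1, one_mul] at h2
  exact (W.valuation_le_one_iff _).1 h2

/-- `locAt 𝔫` is a local ring. -/
theorem VR_isLocalRing_locAt (𝔫 : Ideal R) [𝔫.IsPrime] : IsLocalRing (locAt 𝔫) := by
  have hne : ∀ x : R, x ∉ 𝔫 → (x : F0) ≠ 0 := by
    intro x hx h0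
    apply hx
    have : x = 0 := Subtype.ext h0
    rw [this]; exact zero_mem _
  refine IsLocalRing.of_isUnit_or_isUnit_one_sub_self fun a => ?_
  obtain ⟨a, s, hs, hsa⟩ := a
  have hs0 := hne s hs
  by_cases hr : (⟨(s : F0) * a, hsa⟩ : R) ∈ 𝔫
  · right
    have hsr : s - ⟨(s : F0) * a, hsa⟩ ∉ 𝔫 := fun h => hs (by
      have := 𝔫.add_mem h hr
      simpa using this)
    have hsr0 := hne _ hsr
    refine isUnit_iff_exists_inv.mpr
      ⟨⟨(s : F0) * ((s - ⟨(s : F0) * a, hsa⟩ : R) : F0)⁻¹, div_mem_locAt 𝔫 s _ hsr⟩, Subtype.ext ?_⟩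
    show (1 - a) * ((s : F0) * ((s - ⟨(s : F0) * a, hsa⟩ : R) : F0)⁻¹) = 1
    have h1 : ((s - ⟨(s : F0) * a, hsa⟩ : R) : F0) = (s : F0) - (s : F0) * a := rfl
    rw [h1] at hsr0 ⊢
    have h1a : (1 : F0) - a ≠ 0 := by
      intro h
      apply hsr0
      have h2 : (s : F0) - (s : F0) * a = (s : F0) * (1 - a) := by ring
      rw [h2, h, mul_zero]
    field_simp
  · left
    have hr0 := hne _ hr
    refine isUnit_iff_exists_inv.mpr
      ⟨⟨(s : F0) * ((⟨(s : F0) * a, hsa⟩ : R) : F0)⁻¹, div_mem_locAt 𝔫 s _ hr⟩, Subtype.ext ?_⟩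
    show a * ((s : F0) * ((s : F0) * a)⁻¹) = 1
    have hr0' : (s : F0) * a ≠ 0 := hr0
    have ha0 : a ≠ 0 := right_ne_zero_of_mul hr0'
    field_simp

open IntermediateField.algebraAdjoinAdjoin in
/-- **Leaf VR1 (abstract VR lemma).**
PROOF. `A₀ := Algebra.adjoin k {cb}` PID, `B := integralClosure A₀ Fb` Dedekind, `IsFractionRing B Fb` (first lines of
`GAL.Igusa.isIntegral_of_forall_mem_place`).  Let `A' := locAt 𝔫 ⊆ W` (`locAt_le_of_thru`).  An element `a ∈ A'` is a unit of `A'` or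
`a = r / s` with `r ∈ 𝔫`; call `a` *small* in the second case.  If `ρ a = ρ a'` then `a` small `↔` `a'` small (`a - a'` has `v < 1`; write it
`r / s`, `v r < 1`, so `r ∈ 𝔫` by `hthru`).
`pp := {b : B | ∃ a ∈ A', a small ∧ ρ a = b}` is a prime ideal of `B` (use `hB` to lift elements of `B` to `A'`; `1 ∉ pp`).
Let `z ∈ W`, `y := ρ z = b₁ / b₂`, `b₁ b₂ : B`, `b₂ ≠ 0` (`IsFractionRing.div_surjective`).
* `pp = ⊥`: `b₂ ∉ pp`.
* `pp ≠ ⊥`: `w : HeightOneSpectrum B := ⟨pp, _, _⟩`; `w.valuation Fb y ≤ 1` or `w.valuation Fb y⁻¹ ≤ 1`; in the first case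
  `y = b₁' / b₂'` with `b₂' ∉ pp` (same fact as step (3) of `exists_branch`, already PROVED there: reuse its helper lemma).
So (up to replacing `z` by `z⁻¹`; if `y = 0` take `a = 0`; if `y ≠ 0` then `z` is a unit of `W` by `hker` and `ρ z⁻¹ = y⁻¹`)
`y = ρ a₁ / ρ a₂` with `a₁, a₂ ∈ A'`, `a₂` not small, so `a₂⁻¹ ∈ A'` and `a := a₁ * a₂⁻¹ ∈ A'`, `ρ a = y`, i.e. `Cg W z a` by `hker`. -/
theorem vr_of_integral_le [IsAlgClosed k] [FiniteDimensional k⟮cb⟯ Fb]
    [Algebra.IsSeparable k⟮cb⟯ Fb] (hcb : Transcendental k cb)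
    (hker : ∀ y : W, ρ y = 0 ↔ W.valuation (y : F0) < 1) (hle : ∀ x ∈ R, x ∈ W)
    (𝔫 : Ideal R) [𝔫.IsPrime] (hthru : ∀ x : R, W.valuation (x : F0) < 1 → x ∈ 𝔫)
    (hB : ∀ v : Fb, IsIntegral (Algebra.adjoin k {cb}) v →
      ∃ (a : F0) (_ : a ∈ locAt 𝔫) (ha : a ∈ W), ρ ⟨a, ha⟩ = v)
    (z : F0) (hz : z ∈ W) :
    (∃ a ∈ locAt 𝔫, Cg W z a) ∨ (∃ a ∈ locAt 𝔫, Cg W z⁻¹ a) := by
  classical
  let A := Algebra.adjoin k {cb}
  let e : Polynomial k ≃ₐ[k] A := Polynomial.algEquivOfTranscendental k cb hcb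
  have hPID : IsPrincipalIdealRing A :=
    IsPrincipalIdealRing.of_surjective e.toRingEquiv.toRingHom e.surjective
  have hDed : IsDedekindDomain (integralClosure A Fb) :=
    integralClosure.isDedekindDomain A k⟮cb⟯ Fb
  have hFrac : IsFractionRing (integralClosure A Fb) Fb :=
    integralClosure.isFractionRing_of_finite_extension k⟮cb⟯ Fb
  -- the local ring and its image
  have hAW : locAt 𝔫 ≤ W.toSubring := fun a ha => locAt_le_of_thru hle 𝔫 hthru ha
  let ρ' : locAt 𝔫 →+* Fb := ρ.comp (Subring.inclusion hAW)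
  have hloc : IsLocalRing (locAt 𝔫) := VR_isLocalRing_locAt 𝔫
  have hlocS : IsLocalRing ρ'.range :=
    IsLocalRing.of_surjective' ρ'.rangeRestrict ρ'.rangeRestrict_surjective
  have hBS : ∀ b : integralClosure A Fb, algebraMap (integralClosure A Fb) Fb b ∈ ρ'.range := by
    intro b
    obtain ⟨a, ha, haW, hab⟩ := hB b b.2
    exact ⟨⟨a, ha⟩, hab⟩
  let j : integralClosure A Fb →+* ρ'.range :=
    (algebraMap (integralClosure A Fb) Fb).codRestrict ρ'.range hBS
  let pp : Ideal (integralClosure A Fb) := Ideal.comap j (IsLocalRing.maximalIdeal ρ'.range)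
  have hpp : pp.IsPrime := Ideal.comap_isPrime j _
  have hinv : ∀ d : integralClosure A Fb, d ∉ pp →
      (algebraMap (integralClosure A Fb) Fb d)⁻¹ ∈ ρ'.range := by
    intro d hd
    have hu : IsUnit (j d) := by
      by_contra hnu
      exact hd ((IsLocalRing.mem_maximalIdeal _).mpr hnu)
    obtain ⟨t, ht⟩ := isUnit_iff_exists_inv.mp hu
    have ht' : algebraMap (integralClosure A Fb) Fb d * (t : Fb) = 1 := congrArg Subtype.val ht
    rw [inv_eq_of_mul_eq_one_right ht']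
    exact t.2
  have hne : ∀ d : integralClosure A Fb, d ∉ pp → algebraMap (integralClosure A Fb) Fb d ≠ 0 := by
    intro d hd h0
    apply hd
    have : d = 0 := Subtype.ext h0
    rw [this]
    exact zero_mem _
  have hdich : ∀ y : Fb, y ∈ ρ'.range ∨ y⁻¹ ∈ ρ'.range := by
    intro y
    by_cases hbot : pp = ⊥
    · left
      obtain ⟨b₁, b₂, hb₂, rfl⟩ := IsFractionRing.div_surjective (A := integralClosure A Fb) y
      have hb₂' : b₂ ∉ pp := by
        rw [hbot, Ideal.mem_bot]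
        exact nonZeroDivisors.ne_zero hb₂
      rw [div_eq_mul_inv]
      exact mul_mem (hBS b₁) (hinv b₂ hb₂')
    · let w : IsDedekindDomain.HeightOneSpectrum (integralClosure A Fb) :=
        { asIdeal := pp
          isPrime := hpp
          ne_bot := hbot }
      obtain ⟨n, d, h | h⟩ :=
        IsDedekindDomain.HeightOneSpectrum.exists_primeCompl_mul_eq_or_mul_eq (K := Fb) w y
      · left
        have hd : (d : integralClosure A Fb) ∉ pp := d.2
        have hy : y = algebraMap (integralClosure A Fb) Fb n *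
            (algebraMap (integralClosure A Fb) Fb d)⁻¹ := by
          rw [← h, mul_assoc, mul_inv_cancel₀ (hne _ hd), mul_one]
        rw [hy]
        exact mul_mem (hBS n) (hinv _ hd)
      · right
        have hd : (d : integralClosure A Fb) ∉ pp := d.2
        have hd0 := hne _ hd
        have hy0 : y ≠ 0 := by
          rintro rfl
          rw [zero_mul] at h
          exact hd0 h.symm
        have hn0 : algebraMap (integralClosure A Fb) Fb n ≠ 0 := by
          intro h0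
          rw [h0, mul_zero] at h
          exact hd0 h.symm
        have hy : y⁻¹ = algebraMap (integralClosure A Fb) Fb n *
            (algebraMap (integralClosure A Fb) Fb d)⁻¹ := by
          rw [← h]
          field_simp
        rw [hy]
        exact mul_mem (hBS n) (hinv _ hd)
  -- conclusion
  have hcg : ∀ (x : F0) (hx : x ∈ W) (a : locAt 𝔫), ρ' a = ρ ⟨x, hx⟩ → Cg W x a := by
    intro x hx a ha
    refine (hker (⟨x, hx⟩ - ⟨a, hAW a.2⟩)).1 ?_
    rw [map_sub, sub_eq_zero]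
    exact ha.symm
  rcases hdich (ρ ⟨z, hz⟩) with ⟨a, ha⟩ | ⟨a, ha⟩
  · exact Or.inl ⟨a, a.2, hcg z hz a ha⟩
  · by_cases hy0 : ρ ⟨z, hz⟩ = 0
    · exact Or.inl ⟨0, zero_mem _, hcg z hz 0 (by rw [map_zero, hy0])⟩
    · have hv : W.valuation z = 1 :=
        le_antisymm ((W.valuation_le_one_iff _).2 hz) (not_lt.1 fun h => hy0 ((hker ⟨z, hz⟩).2 h))
      have hz0 : z ≠ 0 := by
        rintro rfl
        rw [map_zero] at hv
        exact zero_ne_one hv
      have hzi : z⁻¹ ∈ W := by rw [← W.valuation_le_one_iff, map_inv₀, hv, inv_one]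
      have h1 : (⟨z, hz⟩ : W) * ⟨z⁻¹, hzi⟩ = 1 := Subtype.ext (mul_inv_cancel₀ hz0)
      have h2 : ρ ⟨z, hz⟩ * ρ ⟨z⁻¹, hzi⟩ = 1 := by rw [← map_mul, h1, map_one]
      exact Or.inr ⟨a, a.2, hcg z⁻¹ hzi a (by rw [ha]; exact inv_eq_of_mul_eq_one_right h2)⟩

/-- `PointOK.vr` at every prime of a chart whose image on the component is full. -/
theorem vr_of_isFullImage [IsAlgClosed k] [FiniteDimensional k⟮cb⟯ Fb]
    [Algebra.IsSeparable k⟮cb⟯ Fb] (h : IsFullImage k R W ρ cb) (hcb : Transcendental k cb)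
    (𝔫 : Ideal R) [𝔫.IsPrime] (hthru : ∀ x : R, W.valuation (x : F0) < 1 → x ∈ 𝔫)
    (z : F0) (hz : z ∈ W) :
    (∃ a ∈ locAt 𝔫, Cg W z a) ∨ (∃ a ∈ locAt 𝔫, Cg W z⁻¹ a) := by
  refine vr_of_integral_le hcb h.ker h.le 𝔫 hthru (fun v hv => ?_) z hz
  obtain ⟨x, hx, hxv⟩ := h.surj v hv
  exact ⟨x, le_locAt 𝔫 hx, h.le x hx, hxv⟩

end Fermat.Agent.S36R.AA
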