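import Fermat.Agent.S36R.AA.LiftMain
import Fermat.Agent.S36R.AA.VR
import Fermat.Agent.S36R.AA.Dim

/-!
# S36, route R, block AA3 (concrete): the image of a chart ring on a vertical component is full

Independent of the chosen definitions of the vertical valuation rings: `F0` any field with an `O0 A`-algebra structure,
`φ : F0 →+* Kbar((t))` an "expansion", `W` a valuation subring with `y ∈ W ↔ φ y ∈ gRing A`
(`NormC.gVS A φ _` or `Val.vRing φ _`: both satisfy this by `Iff.rfl`), whose residues lie in `E k M`.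

* `rho`  : the residue map `W →+* E k M`;
* `OldData` : an "old" embedding `π : FF (K0 A) M →+* F0` such that the residue of `π u` along `W` is the reduction of `u`;
* `isFullImage_of_old`, `isFullImage_of_old_inv` : `IsFullImage k (RS (O0 A) c) W rho j̄^{±1}`;
* `exists_old_cong` : every element of the chart ring is congruent along `W` to an old function `π u ∈ R` (`TripleOK.resA/resB`).
-/

set_option autoImplicit false
set_option linter.unusedSectionVars false

noncomputable section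

namespace Fermat.Agent.S36R.AA

open ModularCurve AlgebraicCurve Fermat.Agent.S24 Fermat.Agent.GAL Fermat.Agent.GAL.Gauss
  Fermat.Agent.GAL.RED Fermat.Agent.DR.Gal Fermat.Agent.DR.Conc Fermat.Agent.Lib.RR Module
  IntermediateField

variable (A : ValuationSubring Kbar) (M : ℕ) [NeZero M]
  {F0 : Type*} [Field F0] (φ : F0 →+* LaurentSeries Kbar) (W : ValuationSubring F0)

/-- `W` is the Gauss valuation ring of the expansion `φ`, with residue field inside `E k M`. -/
structure IsGaussOf : Prop where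
  mem_iff : ∀ y : F0, y ∈ W ↔ φ y ∈ gRing A
  res_mem : ∀ (y : F0) (hy : φ y ∈ gRing A),
    gRes A ⟨φ y, hy⟩ ∈ modularFunctionFieldFullC (IsLocalRing.ResidueField ↥A) M

variable {A M φ W}

/-- The residue map of `W`. -/
def rho (h : IsGaussOf A M φ W) : W →+* Igusa.E (IsLocalRing.ResidueField ↥A) M :=
  ((gRes A).comp ((φ.comp W.subtype).codRestrict (gRing A) fun y => (h.mem_iff y).1 y.2)).codRestrict
    (modularFunctionFieldFullC (IsLocalRing.ResidueField ↥A) M).toSubring
    fun y => h.res_mem y ((h.mem_iff y).1 y.2)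

theorem coe_rho (h : IsGaussOf A M φ W) (y : W) :
    ((rho h y : Igusa.E (IsLocalRing.ResidueField ↥A) M) :
      LaurentSeries (IsLocalRing.ResidueField ↥A)) = gRes A ⟨φ y, (h.mem_iff y).1 y.2⟩ := rfl

/-- **Leaf SJ1.**  The kernel of `rho` is the maximal ideal.
PROOF. `→`: if `v y = 1` then `y⁻¹ ∈ W` and `rho y * rho y⁻¹ = 1`.  `←`: if `rho y ≠ 0` then `(φ y)⁻¹ ∈ gRing A`
(`Gauss.inv_mem_gRing_of_gRes_ne_zero`), so `y⁻¹ ∈ W` (`map_inv₀`, `mem_iff`), so `v y = 1`
(`ValuationSubring.valuation_le_one_iff` for `y` and `y⁻¹`, `map_inv₀`). -/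
theorem rho_eq_zero_iff (h : IsGaussOf A M φ W) (y : W) :
    rho h y = 0 ↔ W.valuation (y : F0) < 1 := by
  rw [← ValuationSubring.valuation_lt_one_iff, IsLocalRing.mem_maximalIdeal, mem_nonunits_iff]
  constructor
  · intro h0 hu
    have := hu.map (rho h)
    rw [h0] at this
    exact not_isUnit_zero this
  · intro hnu
    by_contra hne
    apply hnu
    have hne' : gRes A ⟨φ y, (h.mem_iff y).1 y.2⟩ ≠ 0 := by
      intro h0
      apply hne
      apply Subtype.ext
      rw [coe_rho, h0]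
      rfl
    have hinv := inv_mem_gRing_of_gRes_ne_zero A _ hne'
    have hy0 : (y : F0) ≠ 0 := by
      intro h0
      apply hne
      have : y = 0 := Subtype.ext h0
      rw [this, map_zero]
    have hmem : (y : F0)⁻¹ ∈ W := by
      rw [h.mem_iff, map_inv₀]
      exact hinv
    exact IsUnit.of_mul_eq_one (⟨(y : F0)⁻¹, hmem⟩ : W) (Subtype.ext (mul_inv_cancel₀ hy0))

variable (hM : ((M : ℕ) : IsLocalRing.ResidueField ↥A) ≠ 0)

/-- An old embedding of the level `M`, compatible with the reduction along `W`. -/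
structure OldData [Algebra (O0 A) F0] (h : IsGaussOf A M φ W) (π : FF (K0 A) M →+* F0) : Prop where
  const : ∀ a : O0 A, π (algebraMap (O0 A) (FF (K0 A) M) a) = algebraMap (O0 A) F0 a
  φ_const : ∀ a : O0 A, φ (algebraMap (O0 A) F0 a) = HahnSeries.C ((a : K0 A) : Kbar)
  red : ∀ u : FF (K0 A) M, (bc0 A M u : FN M) ∈ (RM A M hM).O →
    ∃ hu : π u ∈ W, rho h ⟨π u, hu⟩ = (RM A M hM).red (bc0 A M u)

variable [Algebra (O0 A) F0] {h : IsGaussOf A M φ W} {π : FF (K0 A) M →+* F0}

/-- **Leaf SJ2.**  If `φ (π u)` IS the expansion of `u` then `OldData.red` holds.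
(`DR.Conc.mem_RM_O_iff`, `DR.Conc.coe_RM_red`, `coe_rho`, `Subtype.ext`.) -/
theorem oldData_red_of_eq (hπ : ∀ u : FF (K0 A) M, φ (π u) = ((bc0 A M u : FN M) : LaurentSeries Kbar))
    (u : FF (K0 A) M) (hu : (bc0 A M u : FN M) ∈ (RM A M hM).O) :
    ∃ hu' : π u ∈ W, rho h ⟨π u, hu'⟩ = (RM A M hM).red (bc0 A M u) := by
  have h1 : ((bc0 A M u : FN M) : LaurentSeries Kbar) ∈ gRing A := (mem_RM_O_iff A M hM _).1 hu
  have hu' : π u ∈ W := by
    rw [h.mem_iff, hπ]
    exact h1
  refine ⟨hu', ?_⟩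
  apply Subtype.ext
  rw [coe_rho, coe_RM_red A M hM _ h1]
  congr 1
  exact Subtype.ext (hπ u)

omit [NeZero M] in
/-- images of integral elements under ring homomorphisms: it suffices that the images of the base ring are integral. -/
theorem Surj_isIntegral_map {R B S B' : Type*} [CommRing R] [CommRing B] [CommRing S] [CommRing B']
    [Algebra S B'] (g : R →+* B) (f : B →+* B') (hf : ∀ r, IsIntegral S (f (g r))) {x : B}
    (hx : g.IsIntegralElem x) : IsIntegral S (f x) := by
  obtain ⟨P, hP, hPx⟩ := hx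
  let ψ : R →+* integralClosure S B' := (f.comp g).codRestrict (integralClosure S B').toSubring hf
  have hψ : (algebraMap (integralClosure S B') B').comp ψ = f.comp g := RingHom.ext fun r => rfl
  have h1 : IsIntegral (integralClosure S B') (f x) := by
    refine ⟨P.map ψ, hP.map ψ, ?_⟩
    rw [Polynomial.eval₂_map, hψ, ← Polynomial.hom_eval₂, hPx, map_zero]
  exact isIntegral_trans _ h1

/-- **Leaf SJ3.**  Reduction of integral elements: `x` integral over `O0[c]` ⟹ `rho x` integral over `k[cb]`, if `rho c` is.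
PROOF. `x ∈ W`: `Bridge.RR_le_valuationSubring` (constants are in `W` by `φ_const`, `Gauss.C_mem_gRing_iff`).
Take a monic `P : (Oc (O0 A) c)[X]` killing `x`; every coefficient is `aeval c p`, `p : (O0 A)[X]`, and
`rho (aeval c p) = aeval (rho c) (p.map (residue))` lies in `T := integralClosure (Algebra.adjoin k {cb}) (E k M)`
(`rho` of a constant `a : O0 A` is `algebraMap k _ (residue a)`: `φ_const`, `Gauss.gRes_C`).  So `rho x` is integral over `T`, hence in `T`
(`isIntegral_trans`/`integralClosure_idem`).  (`Bridge.map_mem_RR` does most of this if one first restricts to the subring `W`.) -/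
theorem isIntegral_rho (hO : OldData hM h π) {c : F0} (hc : c ∈ W)
    {cb : Igusa.E (IsLocalRing.ResidueField ↥A) M}
    (hcb : IsIntegral (Algebra.adjoin (IsLocalRing.ResidueField ↥A) {cb}) (rho h ⟨c, hc⟩))
    (x : F0) (hx : x ∈ RS (O0 A) c) :
    ∃ hxW : x ∈ W, IsIntegral (Algebra.adjoin (IsLocalRing.ResidueField ↥A) {cb}) (rho h ⟨x, hxW⟩) := by
  have hconst : ∀ a : O0 A, algebraMap (O0 A) F0 a ∈ W := by
    intro a
    rw [h.mem_iff, hO.φ_const, C_mem_gRing_iff]
    exact a.2
  have hrho_const : ∀ a : O0 A, IsIntegral (Algebra.adjoin (IsLocalRing.ResidueField ↥A) {cb})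
      (rho h ⟨algebraMap (O0 A) F0 a, hconst a⟩) := by
    intro a
    have hmem : HahnSeries.C (((⟨((a : K0 A) : Kbar), a.2⟩ : ↥A) : Kbar)) ∈ gRing A :=
      (C_mem_gRing_iff A _).2 a.2
    have h1 : rho h ⟨algebraMap (O0 A) F0 a, hconst a⟩
        = algebraMap (IsLocalRing.ResidueField ↥A) (Igusa.E (IsLocalRing.ResidueField ↥A) M)
          (IsLocalRing.residue ↥A ⟨((a : K0 A) : Kbar), a.2⟩) := by
      apply Subtype.ext
      rw [coe_rho]
      have h2 := gRes_C A (⟨((a : K0 A) : Kbar), a.2⟩ : ↥A) hmem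
      have h3 : (⟨φ ((⟨algebraMap (O0 A) F0 a, hconst a⟩ : W) : F0),
          (h.mem_iff _).1 (hconst a)⟩ : gRing A)
          = ⟨HahnSeries.C (((⟨((a : K0 A) : Kbar), a.2⟩ : ↥A) : Kbar)), hmem⟩ :=
        Subtype.ext (hO.φ_const a)
      rw [h3, h2, HahnSeries.C_apply, ← algebraMap_laurentSeries_eq_single]
      rfl
    rw [h1, IsScalarTower.algebraMap_apply (IsLocalRing.ResidueField ↥A)
      (Algebra.adjoin (IsLocalRing.ResidueField ↥A) {cb})
      (Igusa.E (IsLocalRing.ResidueField ↥A) M)]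
    exact isIntegral_algebraMap
  have hOc : ∀ z ∈ Oc (O0 A) c, ∃ hz : z ∈ W,
      IsIntegral (Algebra.adjoin (IsLocalRing.ResidueField ↥A) {cb}) (rho h ⟨z, hz⟩) := by
    intro z hz
    induction hz using Algebra.adjoin_induction with
    | mem z hz =>
      rw [Set.mem_singleton_iff] at hz
      subst hz
      exact ⟨hc, hcb⟩
    | algebraMap a => exact ⟨hconst a, hrho_const a⟩
    | add z z' _ _ ih ih' =>
      obtain ⟨h1, h2⟩ := ih
      obtain ⟨h1', h2'⟩ := ih'
      refine ⟨add_mem h1 h1', ?_⟩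
      have : (⟨z + z', add_mem h1 h1'⟩ : W) = ⟨z, h1⟩ + ⟨z', h1'⟩ := rfl
      rw [this, map_add]
      exact h2.add h2'
    | mul z z' _ _ ih ih' =>
      obtain ⟨h1, h2⟩ := ih
      obtain ⟨h1', h2'⟩ := ih'
      refine ⟨mul_mem h1 h1', ?_⟩
      have : (⟨z * z', mul_mem h1 h1'⟩ : W) = ⟨z, h1⟩ * ⟨z', h1'⟩ := rfl
      rw [this, map_mul]
      exact h2.mul h2'
  let g : Oc (O0 A) c →+* W :=
    (algebraMap (Oc (O0 A) c) F0).codRestrict W.toSubring fun z => (hOc z z.2).1
  have hg : W.subtype.comp g = algebraMap (Oc (O0 A) c) F0 := RingHom.ext fun z => rfl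
  obtain ⟨P, hP, hPx⟩ := (mem_RS.1 hx : IsIntegral (Oc (O0 A) c) x)
  have hxW : x ∈ W := by
    have hint : IsIntegral W x := by
      refine ⟨P.map g, hP.map g, ?_⟩
      rw [Polynomial.eval₂_map]
      exact hPx
    obtain ⟨y, hy⟩ := IsIntegrallyClosed.algebraMap_eq_of_integral hint
    rw [← hy]
    exact y.2
  refine ⟨hxW, Surj_isIntegral_map g (rho h) (fun z => (hOc z z.2).2) ⟨P, hP, ?_⟩⟩
  apply W.subtype_injective
  rw [Polynomial.hom_eval₂, hg, map_zero]
  exact hPx

/-- **Leaf SJ4.**  Old functions which are integral over `O0[j^{±1}]` lie in the chart ring.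
(`Bridge.map_mem_RR`-type argument + transitivity: `π u` is integral over `O0[π y]`, and `π y ∈ RS (O0 A) c`.) -/
theorem old_mem_RS (hO : OldData hM h π) {c : F0} {y : FF (K0 A) M} (hy : π y ∈ RS (O0 A) c)
    {u : FF (K0 A) M} (hu : IsIntegral (Oc (O0 A) y) u) : π u ∈ RS (O0 A) c := by
  have hOc : ∀ z ∈ Oc (O0 A) y, π z ∈ RS (O0 A) c := by
    intro z hz
    induction hz using Algebra.adjoin_induction with
    | mem z hz =>
      rw [Set.mem_singleton_iff] at hz
      subst hz
      exact hy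
    | algebraMap a =>
      rw [hO.const]
      exact algebraMap_mem_RS (O0 A) c a
    | add z z' _ _ ih ih' => rw [map_add]; exact add_mem ih ih'
    | mul z z' _ _ ih ih' => rw [map_mul]; exact mul_mem ih ih'
  exact mem_RS.2 (Surj_isIntegral_map (algebraMap (Oc (O0 A) y) (FF (K0 A) M)) π
    (fun z => mem_RS.1 (hOc z z.2)) hu)

variable {q : ℕ} (hq : q.Prime) (hA : A.LiesOverPrime q)

include hq hA in
/-- **AA3, affine chart** (assembly). -/
theorem isFullImage_of_old (hg : GoodRed A M) (hO : OldData hM h π) {c : F0} (hc : c ∈ W)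
    (hcb : IsIntegral (Algebra.adjoin (IsLocalRing.ResidueField ↥A)
      {Igusa.jb (IsLocalRing.ResidueField ↥A) M}) (rho h ⟨c, hc⟩))
    (hj : π (j0 A M) ∈ RS (O0 A) c) :
    IsFullImage (IsLocalRing.ResidueField ↥A) (RS (O0 A) c) W (rho h)
      (Igusa.jb (IsLocalRing.ResidueField ↥A) M) where
  le x hx := (isIntegral_rho hM hO hc hcb x hx).1
  ker := rho_eq_zero_iff h
  integral x hx := (isIntegral_rho hM hO hc hcb x hx).2
  surj v hv := by
    obtain ⟨u, hu, huO, huv⟩ := exists_lift_K0 A hq hA M hM hg v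
      (fun P hP => Igusa.mem_place_of_isIntegral P hP hv)
    obtain ⟨hu', hρ⟩ := hO.red u huO
    exact ⟨π u, old_mem_RS hM hO hj hu, by rw [← huv, ← hρ]⟩

include hq hA in
/-- **AA3, chart at infinity** (assembly). -/
theorem isFullImage_of_old_inv (hg : GoodRed A M) (hO : OldData hM h π) {c : F0} (hc : c ∈ W)
    (hcb : IsIntegral (Algebra.adjoin (IsLocalRing.ResidueField ↥A)
      {(Igusa.jb (IsLocalRing.ResidueField ↥A) M)⁻¹}) (rho h ⟨c, hc⟩))
    (hj : π (j0 A M)⁻¹ ∈ RS (O0 A) c) :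
    IsFullImage (IsLocalRing.ResidueField ↥A) (RS (O0 A) c) W (rho h)
      (Igusa.jb (IsLocalRing.ResidueField ↥A) M)⁻¹ where
  le x hx := (isIntegral_rho hM hO hc hcb x hx).1
  ker := rho_eq_zero_iff h
  integral x hx := (isIntegral_rho hM hO hc hcb x hx).2
  surj v hv := by
    obtain ⟨u, hu, huO, huv⟩ := exists_lift_K0_inv A hq hA M hM hg v
      (fun P hP => Igusa.mem_place_of_isIntegral P hP hv)
    obtain ⟨hu', hρ⟩ := hO.red u huO
    exact ⟨π u, old_mem_RS hM hO hj hu, by rw [← huv, ← hρ]⟩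

include hq hA in
/-- **`TripleOK.resA / resB`** (assembly): every element of the chart ring is congruent along `W` to an old function lying in the
chart ring.  (`π' = π` for `resA` on `W20, W11` and `resB` on `W02`; for `resB` on `W11` use the `OldData` of `π = pi2`.) -/
theorem exists_old_cong (hg : GoodRed A M) (hO : OldData hM h π) {c : F0} (hc : c ∈ W)
    (hcb : IsIntegral (Algebra.adjoin (IsLocalRing.ResidueField ↥A)
      {Igusa.jb (IsLocalRing.ResidueField ↥A) M}) (rho h ⟨c, hc⟩))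
    (hj : π (j0 A M) ∈ RS (O0 A) c) (x : F0) (hx : x ∈ RS (O0 A) c) :
    ∃ u : FF (K0 A) M, π u ∈ RS (O0 A) c ∧ Cg W x (π u) := by
  obtain ⟨hxW, hint⟩ := isIntegral_rho hM hO hc hcb x hx
  obtain ⟨u, hu, huO, huv⟩ := exists_lift_K0 A hq hA M hM hg (rho h ⟨x, hxW⟩)
    (fun P hP => Igusa.mem_place_of_isIntegral P hP hint)
  obtain ⟨hu', hρ⟩ := hO.red u huO
  refine ⟨u, old_mem_RS hM hO hj hu, ?_⟩
  have h0 : rho h (⟨x, hxW⟩ - ⟨π u, hu'⟩) = 0 := by rw [map_sub, hρ, huv, sub_self]
  exact (rho_eq_zero_iff h _).1 h0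

end Fermat.Agent.S36R.AA
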