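import Fermat.Agent.S36R.AA.Old
import Fermat.Agent.S36R.AA.Surj
import Fermat.Agent.S36R.AA.Conc
import Fermat.Agent.S36R.Unit.Gauss

/-!
# S36, route R, block AA: the deliverables, against `S : NormC.Setup A M q`

`c = S.cc = j` of level `M q²`, `R₀ = Bridge.RR (O0 A) c`, `R₁ = Bridge.RR (O0 A) c⁻¹`.

Hypotheses: `hM : (M : k) ≠ 0`, `GoodRed A M`, `ResOK S` ((V3) of block VAL: the residues of the `S.W i` lie in `E k M`),
`J1`, `J2` (block `AA/JInt.lean`, helper29).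

* `noeth_R0`, `noeth_R1` : `ChartOK.noeth`;
* `full00, full10, full22` (`IsFullImage` on `R₀`), `full00', full10'` (on `R₁`);
* `vr_R0` : `PointOK.vr` at all primes of `R₀`;  `vr_R1` : `PointOK.vr` at the cuspidal primes of `R₁`;
* `resA`, `resB` : `TripleOK.resA`, `TripleOK.resB`.
-/

set_option autoImplicit false
set_option linter.unusedSectionVars false

noncomputable section

namespace Fermat.Agent.S36R.AA

open ModularCurve AlgebraicCurve Fermat.Agent.S24 Fermat.Agent.GAL Fermat.Agent.GAL.Gauss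
  Fermat.Agent.GAL.RED Fermat.Agent.DR.Gal Fermat.Agent.DR.Conc Fermat.Agent.Lib.RR Module
  IntermediateField Fermat.Agent.S36.StepA

/-! ### general complements to `Surj.lean` -/

section General

variable {A : ValuationSubring Kbar} {M : ℕ} [NeZero M]
  {F0 : Type*} [Field F0] {φ : F0 →+* LaurentSeries Kbar} {W : ValuationSubring F0}

theorem rho_eq_of_red (h : IsGaussOf A M φ W) {y : F0}
    {v : Igusa.E (IsLocalRing.ResidueField ↥A) M}
    (hr : Red A (φ y) (v : LaurentSeries (IsLocalRing.ResidueField ↥A))) :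
    ∃ hy : y ∈ W, rho h ⟨y, hy⟩ = v := by
  obtain ⟨h1, h2⟩ := hr
  exact ⟨(h.mem_iff y).2 h1, Subtype.ext h2⟩

variable (hM : ((M : ℕ) : IsLocalRing.ResidueField ↥A) ≠ 0)

theorem red_of_mem_RM {x : FN M} (hx : x ∈ (RM A M hM).O) :
    Red A (x : LaurentSeries Kbar)
      (((RM A M hM).red x : Igusa.E (IsLocalRing.ResidueField ↥A) M) :
        LaurentSeries (IsLocalRing.ResidueField ↥A)) :=
  ⟨(mem_RM_O_iff A M hM x).1 hx, (coe_RM_red A M hM x _).symm⟩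

theorem oldData_red_of_red (h : IsGaussOf A M φ W) {π : FF (K0 A) M →+* F0}
    (hπ : ∀ (u : FF (K0 A) M) (r : LaurentSeries (IsLocalRing.ResidueField ↥A)),
      Red A ((bc0 A M u : FN M) : LaurentSeries Kbar) r → Red A (φ (π u)) r)
    (u : FF (K0 A) M) (hu : (bc0 A M u : FN M) ∈ (RM A M hM).O) :
    ∃ hu' : π u ∈ W, rho h ⟨π u, hu'⟩ = (RM A M hM).red (bc0 A M u) :=
  rho_eq_of_red h (hπ u _ (red_of_mem_RM hM hu))

theorem red_jF : Red A ((jF M : FN M) : LaurentSeries Kbar)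
    ((Igusa.jb (IsLocalRing.ResidueField ↥A) M : Igusa.E (IsLocalRing.ResidueField ↥A) M) :
      LaurentSeries (IsLocalRing.ResidueField ↥A)) := by
  have hz : ((jF M : FN M) : LaurentSeries Kbar) = iA A (jqModC ↥A) := by
    rw [iA_jqModC]
    exact Igusa.LevelDeg_coeffEmb_jq
  rw [hz]
  have := red_iA (A := A) (jqModC ↥A)
  rwa [pA_jqModC] at this

theorem isIntegral_self_adjoin {k Fb : Type*} [Field k] [Field Fb] [Algebra k Fb] (cb : Fb) :
    IsIntegral (Algebra.adjoin k {cb}) cb :=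
  isIntegral_algebraMap (R := Algebra.adjoin k {cb}) (A := Fb)
    (x := ⟨cb, Algebra.self_mem_adjoin_singleton k cb⟩)

end General

variable {A : ValuationSubring Kbar} {M q : ℕ} [NeZero M] [NeZero q] (S : NormC.Setup A M q)

/-- **(V3)** (block VAL): the residues of the three vertical valuation rings lie in `E k M`. -/
structure ResOK : Prop where
  r0 : ∀ (y : S.F) (hy : S.e0 y ∈ gRing A),
    gRes A ⟨S.e0 y, hy⟩ ∈ modularFunctionFieldFullC (IsLocalRing.ResidueField ↥A) M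
  r1 : ∀ (y : S.F) (hy : S.e1 y ∈ gRing A),
    gRes A ⟨S.e1 y, hy⟩ ∈ modularFunctionFieldFullC (IsLocalRing.ResidueField ↥A) M
  r2 : ∀ (y : S.F) (hy : S.e2 y ∈ gRing A),
    gRes A ⟨S.e2 y, hy⟩ ∈ modularFunctionFieldFullC (IsLocalRing.ResidueField ↥A) M

/-- the coordinate `j` of level `M q²`. -/
abbrev cc (_ : NormC.Setup A M q) : FF (K0 A) (M * q * q) := j0 A (M * q * q)

variable {S}

theorem g0 (h3 : ResOK S) : IsGaussOf A M S.e0 (S.lvl.W 0) := ⟨fun _ => Iff.rfl, h3.r0⟩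

theorem g1 (h3 : ResOK S) : IsGaussOf A M S.e1 (S.lvl.W 1) := ⟨fun _ => Iff.rfl, h3.r1⟩

theorem g2 (h3 : ResOK S) : IsGaussOf A M S.e2 (S.lvl.W 2) := ⟨fun _ => Iff.rfl, h3.r2⟩

variable (hM : ((M : ℕ) : IsLocalRing.ResidueField ↥A) ≠ 0)

/-! ### the four old data -/

theorem old00 (h3 : ResOK S) : OldData hM (g0 h3) (S.p0 : FF (K0 A) M →+* S.F) where
  const a := S.p0.commutes (a : K0 A)
  φ_const a := S.e0_const (a : K0 A)
  red := oldData_red_of_red hM (g0 h3) fun u r hr => by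
    rw [RingHom.coe_coe, S.e0_p0]; exact hr

theorem old10 (h3 : ResOK S) : OldData hM (g1 h3) (S.p0 : FF (K0 A) M →+* S.F) where
  const a := S.p0.commutes (a : K0 A)
  φ_const a := S.e1_const (a : K0 A)
  red := oldData_red_of_red hM (g1 h3) fun u r hr => by
    rw [RingHom.coe_coe, S.e1_p0]; exact hr

theorem old12 (h3 : ResOK S) : OldData hM (g1 h3) (S.p2 : FF (K0 A) M →+* S.F) where
  const a := S.p2.commutes (a : K0 A)
  φ_const a := S.e1_const (a : K0 A)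
  red := oldData_red_of_red hM (g1 h3) fun u r hr => by
    rw [RingHom.coe_coe, S.e1_p2]
    exact NormC.red_twist S.hq S.hA hr S.hζ.pow_eq_one _

theorem old22 (h3 : ResOK S) : OldData hM (g2 h3) (S.p2 : FF (K0 A) M →+* S.F) where
  const a := S.p2.commutes (a : K0 A)
  φ_const a := S.e2_const (a : K0 A)
  red := oldData_red_of_red hM (g2 h3) fun u r hr => by
    rw [RingHom.coe_coe, S.e2_p2]; exact hr

/-! ### the residues of the coordinate -/

theorem red_e0_cc : Red A (S.e0 (cc S))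
    ((Igusa.jb (IsLocalRing.ResidueField ↥A) M : Igusa.E (IsLocalRing.ResidueField ↥A) M) :
      LaurentSeries (IsLocalRing.ResidueField ↥A)) := by
  rw [cc, ← S.p0_j0, S.e0_p0, bc0_j0]
  exact red_jF

theorem red_e1_cc : Red A (S.e1 (cc S))
    ((Igusa.jb (IsLocalRing.ResidueField ↥A) M : Igusa.E (IsLocalRing.ResidueField ↥A) M) :
      LaurentSeries (IsLocalRing.ResidueField ↥A)) := by
  rw [cc, ← S.p0_j0, S.e1_p0, bc0_j0]
  exact red_jF

theorem red_e2_cc : Red A (S.e2 (cc S))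
    ((((Igusa.jb (IsLocalRing.ResidueField ↥A) M) ^ q) ^ q :
      Igusa.E (IsLocalRing.ResidueField ↥A) M) : LaurentSeries (IsLocalRing.ResidueField ↥A)) := by
  have : Fact q.Prime := ⟨S.hq⟩
  have : CharP (IsLocalRing.ResidueField ↥A) q := Hecke.charP_residueField A S.hq S.hA
  rw [cc, ← S.p0_j0, S.e2_p0, bc0_j0]
  have h := ((red_jF (A := A) (M := M)).qExpand q).qExpand q
  have e : qExpand (IsLocalRing.ResidueField ↥A) q (qExpand (IsLocalRing.ResidueField ↥A) q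
      ((Igusa.jb (IsLocalRing.ResidueField ↥A) M : Igusa.E (IsLocalRing.ResidueField ↥A) M) :
      LaurentSeries (IsLocalRing.ResidueField ↥A))) =
      ((((Igusa.jb (IsLocalRing.ResidueField ↥A) M) ^ q) ^ q :
      Igusa.E (IsLocalRing.ResidueField ↥A) M) : LaurentSeries (IsLocalRing.ResidueField ↥A)) := by
    show qExpand _ q (qExpand _ q (jqModC (IsLocalRing.ResidueField ↥A))) =
      (jqModC (IsLocalRing.ResidueField ↥A) ^ q) ^ q
    rw [Unit.qExpand_j, map_pow, Unit.qExpand_j]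
  rwa [e] at h

theorem jb_ne_zero : Igusa.jb (IsLocalRing.ResidueField ↥A) M ≠ 0 := fun h =>
  (Igusa.transcendental_jb (IsLocalRing.ResidueField ↥A) M) (h ▸ isAlgebraic_zero)

theorem coe_jb_inv :
    (((Igusa.jb (IsLocalRing.ResidueField ↥A) M)⁻¹ : Igusa.E (IsLocalRing.ResidueField ↥A) M) :
      LaurentSeries (IsLocalRing.ResidueField ↥A)) =
    ((Igusa.jb (IsLocalRing.ResidueField ↥A) M : Igusa.E (IsLocalRing.ResidueField ↥A) M) :
      LaurentSeries (IsLocalRing.ResidueField ↥A))⁻¹ := rfl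

theorem coe_ne_zero {v : Igusa.E (IsLocalRing.ResidueField ↥A) M} (hv : v ≠ 0) :
    (v : LaurentSeries (IsLocalRing.ResidueField ↥A)) ≠ 0 := fun h => hv (Subtype.ext h)

theorem red_e0_cc_inv : Red A (S.e0 (cc S)⁻¹)
    (((Igusa.jb (IsLocalRing.ResidueField ↥A) M)⁻¹ : Igusa.E (IsLocalRing.ResidueField ↥A) M) :
      LaurentSeries (IsLocalRing.ResidueField ↥A)) := by
  rw [map_inv₀]
  exact red_e0_cc.inv (coe_ne_zero jb_ne_zero)

theorem red_e1_cc_inv : Red A (S.e1 (cc S)⁻¹)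
    (((Igusa.jb (IsLocalRing.ResidueField ↥A) M)⁻¹ : Igusa.E (IsLocalRing.ResidueField ↥A) M) :
      LaurentSeries (IsLocalRing.ResidueField ↥A)) := by
  rw [map_inv₀]
  exact red_e1_cc.inv (coe_ne_zero jb_ne_zero)

theorem red_e2_cc_inv : Red A (S.e2 (cc S)⁻¹)
    (((((Igusa.jb (IsLocalRing.ResidueField ↥A) M)⁻¹) ^ q) ^ q :
      Igusa.E (IsLocalRing.ResidueField ↥A) M) : LaurentSeries (IsLocalRing.ResidueField ↥A)) := by
  rw [map_inv₀, inv_pow, inv_pow]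
  exact red_e2_cc.inv (coe_ne_zero (pow_ne_zero _ (pow_ne_zero _ jb_ne_zero)))

/-! ### full images -/

section Full

variable (hg : GoodRed A M) (h3 : ResOK S)

include hM hg h3

/-- the image of `R₀` on `W20`. -/
theorem full00 : IsFullImage (IsLocalRing.ResidueField ↥A) (RS (O0 A) (cc S)) (S.lvl.W 0)
    (rho (g0 h3)) (Igusa.jb (IsLocalRing.ResidueField ↥A) M) := by
  obtain ⟨hc, hρ⟩ := rho_eq_of_red (g0 h3) (red_e0_cc (S := S))
  refine isFullImage_of_old hM S.hq S.hA hg (old00 hM h3) hc ?_ ?_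
  · rw [hρ]; exact isIntegral_self_adjoin _
  · rw [RingHom.coe_coe, S.p0_j0]; exact self_mem_RS _ _

/-- the image of `R₀` on `W11`. -/
theorem full10 : IsFullImage (IsLocalRing.ResidueField ↥A) (RS (O0 A) (cc S)) (S.lvl.W 1)
    (rho (g1 h3)) (Igusa.jb (IsLocalRing.ResidueField ↥A) M) := by
  obtain ⟨hc, hρ⟩ := rho_eq_of_red (g1 h3) (red_e1_cc (S := S))
  refine isFullImage_of_old hM S.hq S.hA hg (old10 hM h3) hc ?_ ?_
  · rw [hρ]; exact isIntegral_self_adjoin _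
  · rw [RingHom.coe_coe, S.p0_j0]; exact self_mem_RS _ _

/-- the image of `R₀` on `W02`. -/
theorem full22 (hJ1 : S.p2 (j0 A M) ∈ RS (O0 A) (cc S)) :
    IsFullImage (IsLocalRing.ResidueField ↥A) (RS (O0 A) (cc S)) (S.lvl.W 2)
    (rho (g2 h3)) (Igusa.jb (IsLocalRing.ResidueField ↥A) M) := by
  obtain ⟨hc, hρ⟩ := rho_eq_of_red (g2 h3) (red_e2_cc (S := S))
  refine isFullImage_of_old hM S.hq S.hA hg (old22 hM h3) hc ?_ hJ1
  rw [hρ]; exact ((isIntegral_self_adjoin _).pow q).pow q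

/-- the image of `R₁` on `W20`. -/
theorem full00' : IsFullImage (IsLocalRing.ResidueField ↥A) (RS (O0 A) (cc S)⁻¹) (S.lvl.W 0)
    (rho (g0 h3)) (Igusa.jb (IsLocalRing.ResidueField ↥A) M)⁻¹ := by
  obtain ⟨hc, hρ⟩ := rho_eq_of_red (g0 h3) (red_e0_cc_inv (S := S))
  refine isFullImage_of_old_inv hM S.hq S.hA hg (old00 hM h3) hc ?_ ?_
  · rw [hρ]; exact isIntegral_self_adjoin _
  · rw [RingHom.coe_coe, map_inv₀, S.p0_j0]; exact self_mem_RS _ _

/-- the image of `R₁` on `W11`. -/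
theorem full10' : IsFullImage (IsLocalRing.ResidueField ↥A) (RS (O0 A) (cc S)⁻¹) (S.lvl.W 1)
    (rho (g1 h3)) (Igusa.jb (IsLocalRing.ResidueField ↥A) M)⁻¹ := by
  obtain ⟨hc, hρ⟩ := rho_eq_of_red (g1 h3) (red_e1_cc_inv (S := S))
  refine isFullImage_of_old_inv hM S.hq S.hA hg (old10 hM h3) hc ?_ ?_
  · rw [hρ]; exact isIntegral_self_adjoin _
  · rw [RingHom.coe_coe, map_inv₀, S.p0_j0]; exact self_mem_RS _ _

/-! ### `PointOK.vr` -/

/-- **`PointOK.vr` on `R₀`.** -/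
theorem vr_R0' (hJ1 : S.p2 (j0 A M) ∈ RS (O0 A) (cc S))
    (𝔫 : Ideal (RS (O0 A) (cc S))) [𝔫.IsPrime] (i : Fin 3) (ht : Inj.Thru S.lvl.W 𝔫 i)
    (z : S.F) (hz : z ∈ S.lvl.W i) :
    (∃ a ∈ Inj.locAt 𝔫, Cg (S.lvl.W i) z a) ∨ (∃ a ∈ Inj.locAt 𝔫, Cg (S.lvl.W i) z⁻¹ a) := by
  have := Igusa.isAlgClosed_residueField A
  have := Igusa.finiteDimensional_jb (IsLocalRing.ResidueField ↥A) M hM
  have := Igusa.isSeparable_jb (IsLocalRing.ResidueField ↥A) M hM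
  have htr := Igusa.transcendental_jb (IsLocalRing.ResidueField ↥A) M
  fin_cases i
  · exact vr_of_isFullImage (full00 hM hg h3) htr 𝔫 ht z hz
  · exact vr_of_isFullImage (full10 hM hg h3) htr 𝔫 ht z hz
  · exact vr_of_isFullImage (full22 hM hg h3 hJ1) htr 𝔫 ht z hz

/-- **`PointOK.vr` at the cuspidal points of `R₁`** (`hJ2` holds at the primes containing `c⁻¹`: `AA/JInt.lean`). -/
theorem vr_R1' (𝔫 : Ideal (RS (O0 A) (cc S)⁻¹)) [𝔫.IsPrime]
    (hJ2 : ∀ u : FF (K0 A) M, IsIntegral (Oc (O0 A) (j0 A M)⁻¹) u → S.p2 u ∈ Inj.locAt 𝔫)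
    (i : Fin 3) (ht : Inj.Thru S.lvl.W 𝔫 i) (z : S.F) (hz : z ∈ S.lvl.W i) :
    (∃ a ∈ Inj.locAt 𝔫, Cg (S.lvl.W i) z a) ∨ (∃ a ∈ Inj.locAt 𝔫, Cg (S.lvl.W i) z⁻¹ a) := by
  have := Igusa.isAlgClosed_residueField A
  have : FiniteDimensional (IsLocalRing.ResidueField ↥A)⟮(Igusa.jb (IsLocalRing.ResidueField ↥A) M)⁻¹⟯
      (Igusa.E (IsLocalRing.ResidueField ↥A) M) := by
    rw [S24.adjoin_inv_eq]; exact Igusa.finiteDimensional_jb (IsLocalRing.ResidueField ↥A) M hM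
  have : Algebra.IsSeparable (IsLocalRing.ResidueField ↥A)⟮(Igusa.jb (IsLocalRing.ResidueField ↥A) M)⁻¹⟯
      (Igusa.E (IsLocalRing.ResidueField ↥A) M) := by
    rw [S24.adjoin_inv_eq]; exact Igusa.isSeparable_jb (IsLocalRing.ResidueField ↥A) M hM
  have htr := S24.transcendental_inv (Igusa.transcendental_jb (IsLocalRing.ResidueField ↥A) M)
  fin_cases i
  · exact vr_of_isFullImage (full00' hM hg h3) htr 𝔫 ht z hz
  · exact vr_of_isFullImage (full10' hM hg h3) htr 𝔫 ht z hz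
  · obtain ⟨hc, hρ⟩ := rho_eq_of_red (g2 h3) (red_e2_cc_inv (S := S))
    have hcb : IsIntegral (Algebra.adjoin (IsLocalRing.ResidueField ↥A)
        {(Igusa.jb (IsLocalRing.ResidueField ↥A) M)⁻¹}) (rho (g2 h3) ⟨(cc S)⁻¹, hc⟩) := by
      rw [hρ]; exact ((isIntegral_self_adjoin _).pow q).pow q
    refine vr_of_integral_le (ρ := rho (g2 h3)) htr (rho_eq_zero_iff (g2 h3))
      (fun x hx => (isIntegral_rho hM (old22 hM h3) hc hcb x hx).1) 𝔫 ht (fun v hv => ?_) z hz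
    obtain ⟨u, hu, huO, huv⟩ := exists_lift_K0_inv A S.hq S.hA M hM hg v
      (fun P hP => Igusa.mem_place_of_isIntegral P hP hv)
    obtain ⟨hu', hρ'⟩ := (old22 hM h3).red u huO
    exact ⟨S.p2 u, hJ2 u hu, hu', hρ'.trans huv⟩

/-- **`PointOK.vr` on `R₀`**, in terms of `Bridge.RR`. -/
theorem vr_R0 (hJ1 : S.p2 (j0 A M) ∈ Bridge.RR (O0 A) (cc S))
    (𝔫 : Ideal (Bridge.RR (O0 A) (cc S))) [h𝔫 : 𝔫.IsPrime] (i : Fin 3) (ht : Inj.Thru S.lvl.W 𝔫 i)
    (z : S.F) (hz : z ∈ S.lvl.W i) :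
    (∃ a ∈ Inj.locAt 𝔫, Cg (S.lvl.W i) z a) ∨ (∃ a ∈ Inj.locAt 𝔫, Cg (S.lvl.W i) z⁻¹ a) :=
  @vr_R0' A M q _ _ S hM hg h3 hJ1 𝔫 h𝔫 i ht z hz

/-- **`PointOK.vr` at the cuspidal points of `R₁`**, in terms of `Bridge.RR`. -/
theorem vr_R1 (𝔫 : Ideal (Bridge.RR (O0 A) (cc S)⁻¹)) [h𝔫 : 𝔫.IsPrime]
    (hJ2 : ∀ u : FF (K0 A) M, IsIntegral (Algebra.adjoin (O0 A) {(j0 A M)⁻¹}) u →
      S.p2 u ∈ Inj.locAt 𝔫)
    (i : Fin 3) (ht : Inj.Thru S.lvl.W 𝔫 i) (z : S.F) (hz : z ∈ S.lvl.W i) :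
    (∃ a ∈ Inj.locAt 𝔫, Cg (S.lvl.W i) z a) ∨ (∃ a ∈ Inj.locAt 𝔫, Cg (S.lvl.W i) z⁻¹ a) :=
  @vr_R1' A M q _ _ S hM hg h3 𝔫 h𝔫 hJ2 i ht z hz

/-! ### `TripleOK.resA`, `TripleOK.resB` -/

/-- **`TripleOK.resA`.** -/
theorem resA (i : Fin 3) (hi : i ≠ 2) (x : Bridge.RR (O0 A) (cc S)) :
    ∃ w : S.FA, S.lvl.al w ∈ Bridge.RR (O0 A) (cc S) ∧ Cg (S.lvl.W i) x (S.lvl.al w) := by
  fin_cases i
  · obtain ⟨hc, hρ⟩ := rho_eq_of_red (g0 h3) (red_e0_cc (S := S))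
    obtain ⟨u, hu, hcg⟩ := exists_old_cong hM S.hq S.hA hg (old00 hM h3) hc
      (by rw [hρ]; exact isIntegral_self_adjoin _)
      (by rw [RingHom.coe_coe, S.p0_j0]; exact self_mem_RS _ _) x x.2
    exact ⟨S.al1' u, hu, hcg⟩
  · obtain ⟨hc, hρ⟩ := rho_eq_of_red (g1 h3) (red_e1_cc (S := S))
    obtain ⟨u, hu, hcg⟩ := exists_old_cong hM S.hq S.hA hg (old10 hM h3) hc
      (by rw [hρ]; exact isIntegral_self_adjoin _)
      (by rw [RingHom.coe_coe, S.p0_j0]; exact self_mem_RS _ _) x x.2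
    exact ⟨S.al1' u, hu, hcg⟩
  · exact absurd rfl hi

/-- **`TripleOK.resB`.** -/
theorem resB (hJ1 : S.p2 (j0 A M) ∈ Bridge.RR (O0 A) (cc S)) (i : Fin 3) (hi : i ≠ 0)
    (x : Bridge.RR (O0 A) (cc S)) :
    ∃ w : S.FA, S.lvl.be w ∈ Bridge.RR (O0 A) (cc S) ∧ Cg (S.lvl.W i) x (S.lvl.be w) := by
  fin_cases i
  · exact absurd rfl hi
  · obtain ⟨hc, hρ⟩ := rho_eq_of_red (g1 h3) (red_e1_cc (S := S))
    obtain ⟨u, hu, hcg⟩ := exists_old_cong hM S.hq S.hA hg (old12 hM h3) hc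
      (by rw [hρ]; exact isIntegral_self_adjoin _) hJ1 x x.2
    exact ⟨S.be1' u, hu, hcg⟩
  · obtain ⟨hc, hρ⟩ := rho_eq_of_red (g2 h3) (red_e2_cc (S := S))
    obtain ⟨u, hu, hcg⟩ := exists_old_cong hM S.hq S.hA hg (old22 hM h3) hc
      (by rw [hρ]; exact ((isIntegral_self_adjoin _).pow q).pow q) hJ1 x x.2
    exact ⟨S.be1' u, hu, hcg⟩

end Full

/-! ### `ChartOK.noeth` -/

section Noeth

variable (S)

/-- **`ChartOK.noeth` for `R₀`.** -/
theorem noeth_R0 : IsNoetherianRing (Bridge.RR (O0 A) (cc S)) := by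
  have : NeZero (M * q * q) := ⟨mul_ne_zero (mul_ne_zero (NeZero.ne M) (NeZero.ne q)) (NeZero.ne q)⟩
  have := K0L.isDiscreteValuationRing_OI A S.hq S.hA
  have := finiteDimensional_j0 A (M * q * q)
  have := isSeparable_j0 A (M * q * q)
  exact isNoetherianRing_RS (O0 A) (K0 A) (transcendental_j0 A (M * q * q))

/-- **`ChartOK.noeth` for `R₁`.** -/
theorem noeth_R1 : IsNoetherianRing (Bridge.RR (O0 A) (cc S)⁻¹) := by
  have : NeZero (M * q * q) := ⟨mul_ne_zero (mul_ne_zero (NeZero.ne M) (NeZero.ne q)) (NeZero.ne q)⟩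
  have := K0L.isDiscreteValuationRing_OI A S.hq S.hA
  have : FiniteDimensional (K0 A)⟮(cc S)⁻¹⟯ (FF (K0 A) (M * q * q)) := by
    rw [S24.adjoin_inv_eq]; exact finiteDimensional_j0 A (M * q * q)
  have : Algebra.IsSeparable (K0 A)⟮(cc S)⁻¹⟯ (FF (K0 A) (M * q * q)) := by
    rw [S24.adjoin_inv_eq]; exact isSeparable_j0 A (M * q * q)
  exact isNoetherianRing_RS (O0 A) (K0 A) (S24.transcendental_inv (transcendental_j0 A (M * q * q)))

end Noeth

end Fermat.Agent.S36R.AA
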