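import Fermat.Agent.S36R.AA.Lift

/-!
# S36, route R, block AA2: the main lifting theorems `exists_lift_K0`, `exists_lift_K0_inv`
-/

set_option autoImplicit false
set_option linter.unusedSectionVars false

noncomputable section

namespace Fermat.Agent.S36R.AA

open ModularCurve AlgebraicCurve Fermat.Agent.S24 Fermat.Agent.GAL Fermat.Agent.GAL.Gauss
  Fermat.Agent.GAL.RED Fermat.Agent.DR.Gal Fermat.Agent.DR.Conc Fermat.Agent.Lib.RR Module

/-! ### abstract lemmas -/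

section Abs

variable {K F k Fb : Type*} [Field K] [Field F] [Algebra K F] [Field k] [Field Fb] [Algebra k Fb]

/-- **Leaf LM1.**  `L(a (y)_∞)` is stable under the semilinear automorphisms fixing `y`.
PROOF. `mem_riemannRochSpace_iff`; for a place `P`: `P.ord (g • f) = (g⁻¹ • P).ord f` and `P.ord y = (g⁻¹ • P).ord y`
(`SemilinearAut.ord_smul` applied to `g⁻¹ • P`, `smul_inv_smul`, `hy`); `g • f = 0 ↔ f = 0`; `RED.poleDiv_apply`, `Finsupp.smul_apply`. -/
theorem smul_mem_L [HasPrincipalDivisors K F] (g : SemilinearAut K F) {y : F} (hy : g • y = y)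
    (a : ℤ) {f : F} (hf : f ∈ riemannRochSpace (a • RED.poleDiv (K := K) y)) :
    g • f ∈ riemannRochSpace (a • RED.poleDiv (K := K) y) := by
  rw [mem_riemannRochSpace_iff] at hf ⊢
  intro P
  rcases hf (g⁻¹ • P) with h0 | h0
  · left
    rw [h0, smul_zero]
  · right
    have e1 : P.ord (g • f) = (g⁻¹ • P).ord f := by
      have := SemilinearAut.ord_smul g (g⁻¹ • P) f
      rwa [smul_inv_smul] at this
    have e2 : P.ord y = (g⁻¹ • P).ord y := by
      have := SemilinearAut.ord_smul g (g⁻¹ • P) y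
      rwa [smul_inv_smul, hy] at this
    rw [Finsupp.smul_apply, RED.poleDiv_apply] at h0 ⊢
    rw [e1, e2]
    exact h0

/-- **Leaf LM2.**  (second half of the proof of `DR.Conc.Level_exists_lift`.) -/
theorem mem_regOff_of_mem_L [HasPrincipalDivisors K F] {y u : F} {a : ℕ}
    (hu : u ∈ riemannRochSpace ((a : ℤ) • RED.poleDiv (K := K) y)) : u ∈ regOff K y := by
  intro P hP
  rw [mem_riemannRochSpace_iff] at hu
  rcases hu P with h0 | h0
  · rw [h0]; exact zero_mem _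
  · by_cases hu0 : u = 0
    · rw [hu0]; exact zero_mem _
    · refine Fermat.Agent.S24.mem_of_ord_nonneg P hu0 ?_
      have h1 := Basic_ord_nonneg_of_mem P hP
      rw [Finsupp.smul_apply, RED.poleDiv_apply, max_eq_right (by omega), smul_zero, neg_zero] at h0
      exact h0

/-- **Leaf LM3.**  (first half of the proof of `DR.Conc.Level_exists_lift`.) -/
theorem exists_mem_redSub_L [Lib.RR.IsFF K F] [IsAlgClosed K] [Lib.RR.IsFF k Fb] [IsAlgClosed k]
    {R : RedData K F k Fb} {r : Place K F → Place k Fb}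
    (hr : IsRedMap R r) {y : F} {yb : Fb}
    (hmap : Finsupp.mapDomain r (RED.poleDiv (K := K) y) = RED.poleDiv (K := k) yb)
    (hpos : 0 < Divisor.degree (RED.poleDiv (K := K) y)) (v : Fb) (hv : v ∈ regOff k yb) :
    ∃ a : ℕ, v ∈ R.redSub (riemannRochSpace ((a : ℤ) • RED.poleDiv (K := K) y)) := by
  obtain ⟨a₀, ha₀⟩ := Level_exists_bound (k := k) v
  set a : ℕ := a₀ + 3 * genusFF K F with ha
  have hdeg : 3 * (genusFF K F : ℤ) ≤ Divisor.degree ((a : ℤ) • RED.poleDiv (K := K) y) := by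
    rw [map_zsmul, smul_eq_mul]
    have h1 : (a : ℤ) * 1 ≤ (a : ℤ) * Divisor.degree (RED.poleDiv (K := K) y) :=
      mul_le_mul_of_nonneg_left (by omega) (by positivity)
    have h2 : (a : ℤ) = a₀ + 3 * genusFF K F := by rw [ha]; push_cast; ring
    omega
  have hL := hr.redSub_L _ hdeg
  rw [mapDomain_zsmul', hmap] at hL
  have hvL : v ∈ riemannRochSpace ((a : ℤ) • RED.poleDiv (K := k) yb) := by
    rw [mem_riemannRochSpace_iff]
    intro Q
    right
    rw [Finsupp.smul_apply, RED.poleDiv_apply, smul_eq_mul]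
    by_cases hQ : yb ∈ Q.toValuationSubring
    · have h1 := Basic_ord_nonneg_of_mem Q (hv Q hQ)
      have h2 : (0 : ℤ) ≤ (a : ℤ) * max (-Q.ord yb) 0 :=
        mul_nonneg (by positivity) (le_max_right _ _)
      omega
    · have h1 : Q.ord yb < 0 := by
        by_contra hcon
        apply hQ
        by_cases h0 : yb = 0
        · rw [h0]; exact zero_mem _
        · exact Fermat.Agent.S24.mem_of_ord_nonneg Q h0 (by omega)
      have h2 : (a : ℤ) * 1 ≤ (a : ℤ) * max (-Q.ord yb) 0 :=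
        mul_le_mul_of_nonneg_left (le_trans (by omega) (le_max_left _ _)) (by positivity)
      have h3 := ha₀ Q
      have h4 : (a : ℤ) = a₀ + 3 * genusFF K F := by rw [ha]; push_cast; ring
      have h5 : (0 : ℤ) ≤ genusFF K F := by positivity
      omega
  rw [← hL] at hvL
  exact ⟨a, hvL⟩

/-- **Leaf LM4 (descent of integrality along an algebraic extension of the constants).**
PROOF. `S := Algebra.adjoin K₀ {x}`, `ψ : S →+* F := φ.comp (algebraMap S F₀)`; `letI := ψ.toAlgebra`.  `T := integralClosure S F`.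
* `algebraMap K F c ∈ T` for `c : K`: `c` is integral over `K₀` (`halg`), map the monic polynomial (`hφ`).
* `φ x ∈ T` (it is `ψ ⟨x, _⟩`).  So every element of `Algebra.adjoin K {φ x}` lies in `T` (`Algebra.adjoin_induction`).
* `φ u` is integral over `Algebra.adjoin K {φ x}`, hence over `T` (map the coefficients by the inclusion), hence in `T`
  (`isIntegral_trans` / `integralClosure_idem`).
* a monic `p : S[X]` with `eval₂ ψ (φ u) p = 0`: `eval₂ ψ (φ u) p = φ (eval₂ (algebraMap S F₀) u p)` (`Polynomial.hom_eval₂`), `φ` injective. -/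
theorem isIntegral_of_isIntegral_map {K₀ F₀ : Type*} [Field K₀] [Field F₀] [Algebra K₀ F₀]
    (i : K₀ →+* K) (halg : ∀ c : K, i.IsIntegralElem c) (φ : F₀ →+* F)
    (hφ : ∀ a, φ (algebraMap K₀ F₀ a) = algebraMap K F (i a)) (x u : F₀)
    (hu : IsIntegral (Algebra.adjoin K {φ x}) (φ u)) : IsIntegral (Algebra.adjoin K₀ {x}) u := by
  let ψ : Algebra.adjoin K₀ {x} →+* F := φ.comp (algebraMap (Algebra.adjoin K₀ {x}) F₀)
  let _ : Algebra (Algebra.adjoin K₀ {x}) F := ψ.toAlgebra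
  have hmem : ∀ z ∈ Algebra.adjoin K {φ x}, z ∈ integralClosure (Algebra.adjoin K₀ {x}) F := by
    intro z hz
    induction hz using Algebra.adjoin_induction with
    | mem z hz =>
      rw [Set.mem_singleton_iff] at hz
      subst hz
      exact (integralClosure (Algebra.adjoin K₀ {x}) F).algebraMap_mem
        ⟨x, Algebra.self_mem_adjoin_singleton K₀ x⟩
    | algebraMap c =>
      obtain ⟨p, hp, hpe⟩ := halg c
      refine ⟨p.map (algebraMap K₀ (Algebra.adjoin K₀ {x})), hp.map _, ?_⟩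
      rw [Polynomial.eval₂_map]
      have hcomp : (algebraMap (Algebra.adjoin K₀ {x}) F).comp
          (algebraMap K₀ (Algebra.adjoin K₀ {x})) = (algebraMap K F).comp i := by
        ext a
        exact hφ a
      rw [hcomp, ← Polynomial.hom_eval₂, hpe, map_zero]
    | add a b _ _ ha hb => exact add_mem ha hb
    | mul a b _ _ ha hb => exact mul_mem ha hb
  let inc : Algebra.adjoin K {φ x} →+* integralClosure (Algebra.adjoin K₀ {x}) F :=
    (algebraMap (Algebra.adjoin K {φ x}) F).codRestrict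
      (integralClosure (Algebra.adjoin K₀ {x}) F).toSubring (fun z => hmem z z.2)
  have hT : IsIntegral (integralClosure (Algebra.adjoin K₀ {x}) F) (φ u) := by
    obtain ⟨p, hp, hpe⟩ := hu
    refine ⟨p.map inc, hp.map _, ?_⟩
    rw [Polynomial.eval₂_map]
    exact hpe
  have hS : IsIntegral (Algebra.adjoin K₀ {x}) (φ u) := isIntegral_trans _ hT
  obtain ⟨p, hp, hpe⟩ := hS
  refine ⟨p, hp, φ.injective ?_⟩
  rw [map_zero, Polynomial.hom_eval₂]
  exact hpe

end Abs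

variable (A : ValuationSubring Kbar) {q : ℕ} (hq : q.Prime) (hA : A.LiesOverPrime q)
  (M : ℕ) [NeZero M] (hM : ((M : ℕ) : IsLocalRing.ResidueField ↥A) ≠ 0)

theorem LiftMain_isIntegralElem (c : Kbar) : (algebraMap (K0 A) Kbar).IsIntegralElem c := by
  have h : IsIntegral ℚ c := Algebra.IsIntegral.isIntegral c
  exact h.tower_top

/-- **Leaf LM5.**  `Igusa.isIntegral_of_forall_mem_place (jF M) (transcendental_jF M)` (instances `finiteDimensional_jF M`,
`DR.Conc.Level_isSeparable`), then `isIntegral_of_isIntegral_map` with `i = algebraMap (K0 A) Kbar`, `φ = bc0 A M`, `bc0_j0`. -/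
theorem isIntegral_K0_of_regOff (u : FF (K0 A) M)
    (hu : (bc0 A M u : FN M) ∈ regOff Kbar (jF M)) :
    IsIntegral (Algebra.adjoin (K0 A) {j0 A M}) u := by
  have h1 := finiteDimensional_jF M
  have h2 : Algebra.IsSeparable (IntermediateField.adjoin Kbar {(jF M : FN M)}) (FN M) :=
    Level_isSeparable (K := Kbar) (jF M : FN M)
  have h3 : IsIntegral (Algebra.adjoin Kbar {(jF M : FN M)}) (bc0 A M u : FN M) :=
    Igusa.isIntegral_of_forall_mem_place (jF M) (transcendental_jF M) _ hu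
  refine isIntegral_of_isIntegral_map (algebraMap (K0 A) Kbar) (LiftMain_isIntegralElem A)
    (bc0 A M) (bc0_algebraMap A M) (j0 A M) u ?_
  rw [bc0_j0]
  exact h3

theorem isIntegral_K0_of_regOff_inv (u : FF (K0 A) M)
    (hu : (bc0 A M u : FN M) ∈ regOff Kbar (jF M)⁻¹) :
    IsIntegral (Algebra.adjoin (K0 A) {(j0 A M)⁻¹}) u := by
  have h1 := finiteDimensional_jF M
  have h1' : FiniteDimensional (IntermediateField.adjoin Kbar {(jF M : FN M)⁻¹}) (FN M) :=
    GAL.FF.finiteDimensional_adjoin_inv (k := Kbar) (jF M : FN M)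
  have h2 : Algebra.IsSeparable (IntermediateField.adjoin Kbar {(jF M : FN M)⁻¹}) (FN M) :=
    Level_isSeparable (K := Kbar) (jF M : FN M)⁻¹
  have h3 : IsIntegral (Algebra.adjoin Kbar {(jF M : FN M)⁻¹}) (bc0 A M u : FN M) :=
    Igusa.isIntegral_of_forall_mem_place (jF M)⁻¹ (S24.transcendental_inv (transcendental_jF M))
      _ hu
  refine isIntegral_of_isIntegral_map (algebraMap (K0 A) Kbar) (LiftMain_isIntegralElem A)
    (bc0 A M) (bc0_algebraMap A M) (j0 A M)⁻¹ u ?_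
  rw [map_inv₀, bc0_j0]
  exact h3

open scoped IntermediateField.algebraAdjoinAdjoin in
open IntermediateField Polynomial in
/-- (LM6, abstract part) an element of `D.O` integral over `K[x]` is killed by a monic polynomial with coefficients in
`A[x]`. -/
theorem LiftMain_exists_monic {K₁ F₁ k₁ Fb₁ : Type*} [Field K₁] [Field F₁] [Algebra K₁ F₁] [Field k₁]
    [Field Fb₁] [Algebra k₁ Fb₁] (D : Igusa.RedDatum K₁ F₁ k₁ Fb₁) (x : F₁) (hx : x ∈ D.O)
    (hxb : Transcendental k₁ (D.res ⟨x, hx⟩))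
    [FiniteDimensional K₁⟮x⟯ F₁] [FiniteDimensional k₁⟮D.res ⟨x, hx⟩⟯ Fb₁]
    (hdeg : finrank K₁⟮x⟯ F₁ = finrank k₁⟮D.res ⟨x, hx⟩⟯ Fb₁) (y : F₁) (hy : y ∈ D.O)
    (hint : IsIntegral (Algebra.adjoin K₁ {x}) y) :
    ∃ p : F₁[X], p.Monic ∧ p.eval y = 0 ∧
      ∀ i, ∃ r : K₁[X], (∀ n, r.coeff n ∈ D.A) ∧ p.coeff i = aeval x r := by
  have hxK : Transcendental K₁ x := D.transcendental x hx hxb
  have hIC : IsIntegrallyClosed (Algebra.adjoin K₁ {x}) :=
    IsIntegrallyClosed.of_equiv (Polynomial.algEquivOfTranscendental K₁ x hxK).toRingEquiv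
  have hmin := minpoly.isIntegrallyClosed_eq_field_fractions' K₁⟮x⟯ hint
  have hB3 := D.exists_monic_of_mem x hx hxb hdeg y hy
  have hyint : IsIntegral K₁⟮x⟯ y := Algebra.IsIntegral.isIntegral _
  refine ⟨(minpoly K₁⟮x⟯ y).map (algebraMap K₁⟮x⟯ F₁), (minpoly.monic hyint).map _, ?_, ?_⟩
  · rw [eval_map_algebraMap, minpoly.aeval]
  · intro i
    have h1 : ((minpoly K₁⟮x⟯ y).map (algebraMap K₁⟮x⟯ F₁)).coeff i ∈ Algebra.adjoin K₁ {x} := by
      simp only [coeff_map, hmin]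
      exact ((minpoly (Algebra.adjoin K₁ {x}) y).coeff i).2
    have h2 : ((minpoly K₁⟮x⟯ y).map (algebraMap K₁⟮x⟯ F₁)).coeff i ∈ D.O := by
      simp only [coeff_map]
      exact hB3 i
    obtain ⟨r, hr⟩ := Algebra.adjoin_mem_exists_aeval _ _ h1
    rw [← hr] at h2
    obtain ⟨p₀, hp₀, -⟩ := D.exists_polynomial_of_aeval_mem x hx hxb r h2
    refine ⟨r, fun n => ?_, hr.symm⟩
    rw [← hp₀, coeff_map]
    exact (p₀.coeff n).2

open Polynomial in
/-- (LM6) from a monic polynomial with coefficients in `O[x]` to integrality over `O[x]`. -/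
theorem LiftMain_isIntegral_of_monic {O₁ F₁ : Type*} [CommRing O₁] [Field F₁] [Algebra O₁ F₁]
    (x u : F₁) (p : F₁[X]) (hp : p.Monic) (hpu : p.eval u = 0)
    (hc : ∀ i, p.coeff i ∈ Algebra.adjoin O₁ {x}) : IsIntegral (Algebra.adjoin O₁ {x}) u := by
  have hl : p ∈ Polynomial.lifts (algebraMap (Algebra.adjoin O₁ {x}) F₁) := by
    rw [Polynomial.lifts_iff_coeff_lifts]
    intro n
    exact ⟨⟨_, hc n⟩, rfl⟩
  obtain ⟨q, hq, -, hqm⟩ := Polynomial.lifts_and_natDegree_eq_and_monic hl hp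
  exact ⟨q, hqm, by rw [← eval_map, hq]; exact hpu⟩

/-- (LM6) the reduction datum of `Igusa.exists_redDatum`, with its valuation ring made explicit. -/
theorem LiftMain_exists_redDatum {K₁ : Type} [Field K₁] (B : ValuationSubring K₁)
    (hB : ((M : ℕ) : IsLocalRing.ResidueField ↥B) ≠ 0) :
    ∃ D : Igusa.RedDatum K₁ (Igusa.E K₁ M) (IsLocalRing.ResidueField ↥B)
        (Igusa.E (IsLocalRing.ResidueField ↥B) M),
      D.A = B ∧ (∀ x : Igusa.E K₁ M, x ∈ D.O ↔ (x : LaurentSeries K₁) ∈ gRing B) ∧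
      ∃ hj : Igusa.jb K₁ M ∈ D.O,
        D.res ⟨Igusa.jb K₁ M, hj⟩ = Igusa.jb (IsLocalRing.ResidueField ↥B) M := by
  have hmap : ∀ a : ↥B, algebraMap K₁ (Igusa.E K₁ M) (a : K₁) ∈ Gauss.OFK B M hB := by
    intro a
    rw [Gauss.mem_OFK_iff, Igusa.redLevel_coe_algebraMap, Gauss.C_mem_gRing_iff]
    exact a.2
  refine ⟨{ A := B
            O := Gauss.OFK B M hB
            resK := IsLocalRing.residue ↥B
            resK_surj := IsLocalRing.residue_surjective
            res := Gauss.resOFK B M hB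
            res_surj := Gauss.resOFK_surjective B M hB
            map_mem := hmap
            res_algebraMap := ?_
            scale := ?_ }, rfl, fun _ => Iff.rfl, ?_, ?_⟩
  · intro a
    apply Subtype.ext
    rw [Gauss.coe_resOFK, Igusa.redLevel_coe_algebraMap M (IsLocalRing.ResidueField ↥B)]
    have hC : HahnSeries.C (a : K₁) ∈ Gauss.gRing B := (Gauss.C_mem_gRing_iff B _).2 a.2
    rw [← Gauss.gRes_C B a hC]
    congr 1
    exact Subtype.ext (Igusa.redLevel_coe_algebraMap M K₁ (a : K₁))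
  · intro f hf
    have hf' : (f : LaurentSeries K₁) ≠ 0 := fun h => hf (Subtype.ext h)
    obtain ⟨a, u, ha, huF, hfu, hu⟩ := Gauss.normalise B M hB f f.2 hf'
    have hCa : (HahnSeries.C a : LaurentSeries K₁) ≠ 0 := by
      rw [Ne, map_eq_zero]; exact ha
    have hcoe : ((algebraMap K₁ (Igusa.E K₁ M) a⁻¹ * f : Igusa.E K₁ M) : LaurentSeries K₁)
        = (u : LaurentSeries K₁) := by
      rw [MulMemClass.coe_mul, Igusa.redLevel_coe_algebraMap, hfu, map_inv₀, ← mul_assoc,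
        inv_mul_cancel₀ hCa, one_mul]
    have hmem : algebraMap K₁ (Igusa.E K₁ M) a⁻¹ * f ∈ Gauss.OFK B M hB := by
      rw [Gauss.mem_OFK_iff, hcoe]
      exact u.2
    refine ⟨a⁻¹, inv_ne_zero ha, hmem, ?_⟩
    intro h0
    apply hu
    have h1 := congrArg Subtype.val h0
    rw [Gauss.coe_resOFK] at h1
    have h2 : (⟨((algebraMap K₁ (Igusa.E K₁ M) a⁻¹ * f : Igusa.E K₁ M) : LaurentSeries K₁), hmem⟩ :
        ↥(Gauss.gRing B)) = u := Subtype.ext hcoe
    rw [← h2]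
    exact h1
  · show Igusa.jb K₁ M ∈ Gauss.OFK B M hB
    rw [Gauss.mem_OFK_iff]
    show jqModC K₁ ∈ Gauss.gRing B
    rw [← Gauss.iA_jqModC B]
    exact Gauss.iA_mem_gRing B _
  · apply Subtype.ext
    show ((Gauss.resOFK B M hB _ : Igusa.E (IsLocalRing.ResidueField ↥B) M) :
      LaurentSeries (IsLocalRing.ResidueField ↥B)) = jqModC (IsLocalRing.ResidueField ↥B)
    rw [Gauss.coe_resOFK, Gauss.gRes_of_eq_iA B _ (jqModC ↥B) (Gauss.iA_jqModC B).symm,
      Gauss.pA_jqModC]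

open IntermediateField Polynomial in
/-- (LM6) the Gauss lemma at level `M` for `E K₁ M`, both charts. -/
theorem LiftMain_gauss {K₁ : Type} [Field K₁] (B : ValuationSubring K₁)
    (hB : ((M : ℕ) : IsLocalRing.ResidueField ↥B) ≠ 0) (hK : ((M : ℕ) : K₁) ≠ 0)
    (u : Igusa.E K₁ M) (hu : (u : LaurentSeries K₁) ∈ gRing B) :
    (IsIntegral (Algebra.adjoin K₁ {Igusa.jb K₁ M}) u →
      ∃ p : (Igusa.E K₁ M)[X], p.Monic ∧ p.eval u = 0 ∧
        ∀ i, ∃ r : K₁[X], (∀ n, r.coeff n ∈ B) ∧ p.coeff i = aeval (Igusa.jb K₁ M) r) ∧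
    (IsIntegral (Algebra.adjoin K₁ {(Igusa.jb K₁ M)⁻¹}) u →
      ∃ p : (Igusa.E K₁ M)[X], p.Monic ∧ p.eval u = 0 ∧
        ∀ i, ∃ r : K₁[X], (∀ n, r.coeff n ∈ B) ∧ p.coeff i = aeval (Igusa.jb K₁ M)⁻¹ r) := by
  obtain ⟨D, hDA, hO, hj, hres⟩ := LiftMain_exists_redDatum M B hB
  have huO : u ∈ D.O := (hO u).2 hu
  have hxb : Transcendental (IsLocalRing.ResidueField ↥B) (D.res ⟨Igusa.jb K₁ M, hj⟩) := by
    rw [hres]; exact Igusa.transcendental_jb _ M
  have hfd1 : FiniteDimensional K₁⟮Igusa.jb K₁ M⟯ (Igusa.E K₁ M) := Igusa.finiteDimensional_jb K₁ M hK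
  have hfd2 : FiniteDimensional (IsLocalRing.ResidueField ↥B)⟮D.res ⟨Igusa.jb K₁ M, hj⟩⟯
      (Igusa.E (IsLocalRing.ResidueField ↥B) M) := by
    rw [hres]; exact Igusa.finiteDimensional_jb _ M hB
  have hdeg : finrank K₁⟮Igusa.jb K₁ M⟯ (Igusa.E K₁ M)
      = finrank (IsLocalRing.ResidueField ↥B)⟮D.res ⟨Igusa.jb K₁ M, hj⟩⟯
        (Igusa.E (IsLocalRing.ResidueField ↥B) M) := by
    rw [hres, Igusa.finrank_jb K₁ M hK, Igusa.finrank_jb _ M hB]
  refine ⟨fun hint => hDA ▸ LiftMain_exists_monic D _ hj hxb hdeg u huO hint, fun hint => ?_⟩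
  have hxb0 : D.res ⟨Igusa.jb K₁ M, hj⟩ ≠ 0 := by
    intro h
    apply hxb
    rw [h]
    exact isAlgebraic_zero
  obtain ⟨hx', hres'⟩ := D.inv_mem_and_res_inv _ hj hxb0
  have hxb' : Transcendental (IsLocalRing.ResidueField ↥B) (D.res ⟨(Igusa.jb K₁ M)⁻¹, hx'⟩) := by
    rw [hres']
    exact S24.transcendental_inv hxb
  have hfd1' : FiniteDimensional K₁⟮(Igusa.jb K₁ M)⁻¹⟯ (Igusa.E K₁ M) := by
    rw [S24.adjoin_inv_eq]; exact hfd1
  have hfd2' : FiniteDimensional (IsLocalRing.ResidueField ↥B)⟮D.res ⟨(Igusa.jb K₁ M)⁻¹, hx'⟩⟯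
      (Igusa.E (IsLocalRing.ResidueField ↥B) M) := by
    rw [hres', S24.adjoin_inv_eq]
    exact hfd2
  have hdeg' : finrank K₁⟮(Igusa.jb K₁ M)⁻¹⟯ (Igusa.E K₁ M)
      = finrank (IsLocalRing.ResidueField ↥B)⟮D.res ⟨(Igusa.jb K₁ M)⁻¹, hx'⟩⟯
        (Igusa.E (IsLocalRing.ResidueField ↥B) M) := by
    rw [hres', S24.adjoin_inv_eq, S24.adjoin_inv_eq]
    exact hdeg
  exact hDA ▸ LiftMain_exists_monic D _ hx' hxb' hdeg' u huO hint

open Polynomial in
/-- (LM6) transport of `LiftMain_gauss` to an intermediate field equal to `modularFunctionFieldFullC K₁ M`. -/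
theorem LiftMain_gauss' {K₁ : Type} [Field K₁] (B : ValuationSubring K₁)
    (hB : ((M : ℕ) : IsLocalRing.ResidueField ↥B) ≠ 0) (hK : ((M : ℕ) : K₁) ≠ 0)
    (E' : IntermediateField K₁ (LaurentSeries K₁)) (hE : E' = modularFunctionFieldFullC K₁ M)
    (x : E') (hx : (x : LaurentSeries K₁) = jqModC K₁)
    (u : E') (hu : (u : LaurentSeries K₁) ∈ gRing B) :
    (IsIntegral (Algebra.adjoin K₁ {x}) u →
      ∃ p : E'[X], p.Monic ∧ p.eval u = 0 ∧
        ∀ i, ∃ r : K₁[X], (∀ n, r.coeff n ∈ B) ∧ p.coeff i = aeval x r) ∧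
    (IsIntegral (Algebra.adjoin K₁ {x⁻¹}) u →
      ∃ p : E'[X], p.Monic ∧ p.eval u = 0 ∧
        ∀ i, ∃ r : K₁[X], (∀ n, r.coeff n ∈ B) ∧ p.coeff i = aeval x⁻¹ r) := by
  subst hE
  have hxj : x = Igusa.jb K₁ M := Subtype.ext hx
  subst hxj
  exact LiftMain_gauss M B hB hK u hu

theorem LiftMain_coe_j0 : ((j0 A M : FF (K0 A) M) : LaurentSeries (K0 A)) = jqModC (K0 A) := by
  show coeffEmb (K0 A) jq = jqModC (K0 A)
  rw [← jqModC_rat, coeffEmb, coeffMap_jqModC]

open Polynomial in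
theorem LiftMain_aeval_mem_Oc (x : FF (K0 A) M) (r : (K0 A)[X]) (hr : ∀ n, r.coeff n ∈ O0 A) :
    aeval x r ∈ Oc (O0 A) x := by
  rw [aeval_eq_sum_range]
  refine sum_mem fun n _ => ?_
  rw [Algebra.smul_def]
  refine mul_mem ?_ (pow_mem (Algebra.self_mem_adjoin_singleton _ _) n)
  exact (Oc (O0 A) x).algebraMap_mem (⟨r.coeff n, hr n⟩ : O0 A)

/-- **Leaf LM6 (Gauss lemma at level `M`).**  An element of the Gauss ring which is integral over `K0[j]` is integral over `O0[j]`.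
PROOF. Build `D : Igusa.RedDatum (K0 A) (FF (K0 A) M) k0 (Igusa.E k0 M)` with `D.A = O0 A`, `D.O = (RM0 A M hM).O`, `D.res = (RM0 A M hM).res`
(fields from `RM0`; `scale` from `Gauss.normalise (O0 A) M _` as in the proof of `Igusa.exists_redDatum`; use `FF_eq_fullC`, `subst`).
`D.res j0 = Igusa.jb k0 M` (as `DR.Conc.RM_red_jF`), transcendental (`Igusa.transcendental_jb`);
`finrank (K0 A)⟮j0⟯ (FF (K0 A) M) = dedekindPsi M = finrank k0⟮jb⟯ (E k0 M)` (`Igusa.finrank_jb` for the fields `K0 A` and `k0`,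
`Igusa.LevelDeg_finrank_congr`, `FF_eq_fullC`).  `D.exists_monic_of_mem`: the coefficients of `minpoly (K0 A)⟮j0⟯ u` lie in `D.O`;
`minpoly.isIntegrallyClosed_eq_field_fractions'`: they lie in `K0[j0]` (see the proof of `Igusa.RedDatum.isIntegral_res`);
`D.exists_polynomial_of_aeval_mem` (or `Gauss.coeff_mem_of_aeval_mem`): an element `aeval j0 r ∈ D.O`, `r : (K0 A)[X]`, has `r ∈ (O0 A)[X]`,
so it lies in `Oc (O0 A) (j0 A M)`.  Hence a monic polynomial over `Oc (O0 A) (j0 A M)` killing `u`. -/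
theorem isIntegral_O0_of_mem (u : FF (K0 A) M) (hu : u ∈ (RM0 A M hM).O)
    (hint : IsIntegral (Algebra.adjoin (K0 A) {j0 A M}) u) :
    IsIntegral (Oc (O0 A) (j0 A M)) u := by
  obtain ⟨p, hp, hpu, hc⟩ := (LiftMain_gauss' M (O0 A) (natCast_ne_zero_k0 A M hM)
    (Nat.cast_ne_zero.mpr (NeZero.ne M)) (FF (K0 A) M) (FF_eq_fullC (K0 A) M) (j0 A M)
    (LiftMain_coe_j0 A M) u ((mem_RM0_O_iff A M hM u).1 hu)).1 hint
  refine LiftMain_isIntegral_of_monic _ u p hp hpu fun i => ?_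
  obtain ⟨r, hrB, hr⟩ := hc i
  rw [hr]
  exact LiftMain_aeval_mem_Oc A M _ r hrB

/-- **Leaf LM6'.**  The same with `x = 1 / j` (`D.res j0⁻¹ = (jb)⁻¹`, `S24.transcendental_inv`,
`IntermediateField.adjoin` of `x⁻¹` and of `x` agree: `GAL.FF.adjoin_inv_eq`). -/
theorem isIntegral_O0_of_mem_inv (u : FF (K0 A) M) (hu : u ∈ (RM0 A M hM).O)
    (hint : IsIntegral (Algebra.adjoin (K0 A) {(j0 A M)⁻¹}) u) :
    IsIntegral (Oc (O0 A) (j0 A M)⁻¹) u := by
  obtain ⟨p, hp, hpu, hc⟩ := (LiftMain_gauss' M (O0 A) (natCast_ne_zero_k0 A M hM)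
    (Nat.cast_ne_zero.mpr (NeZero.ne M)) (FF (K0 A) M) (FF_eq_fullC (K0 A) M) (j0 A M)
    (LiftMain_coe_j0 A M) u ((mem_RM0_O_iff A M hM u).1 hu)).2 hint
  refine LiftMain_isIntegral_of_monic _ u p hp hpu fun i => ?_
  obtain ⟨r, hrB, hr⟩ := hc i
  rw [hr]
  exact LiftMain_aeval_mem_Oc A M _ r hrB

/-- the inertia group fixes `j`. -/
theorem galois_smul_jF (τ : Kbar ≃ₐ[ℚ] Kbar) :
    arithmeticGalois (modularFunctionFieldFull M) τ • (jF M : FN M) = jF M := by
  apply Subtype.ext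
  rw [coe_arithmeticGalois_smul]
  exact coeffMap_coeffEmb τ jq

theorem galois_smul_jF_inv (τ : Kbar ≃ₐ[ℚ] Kbar) :
    arithmeticGalois (modularFunctionFieldFull M) τ • (jF M : FN M)⁻¹ = (jF M)⁻¹ := by
  rw [smul_inv'', galois_smul_jF]

include hq hA in
/-- **AA2, affine chart.** -/
theorem exists_lift_K0 (hg : GoodRed A M) (v : Igusa.E (IsLocalRing.ResidueField ↥A) M)
    (hv : v ∈ regOff (IsLocalRing.ResidueField ↥A) (Igusa.jb (IsLocalRing.ResidueField ↥A) M)) :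
    ∃ u : FF (K0 A) M, IsIntegral (Oc (O0 A) (j0 A M)) u ∧
      (bc0 A M u : FN M) ∈ (RM A M hM).O ∧ (RM A M hM).red (bc0 A M u) = v := by
  have : Lib.RR.IsFF Kbar (FN M) := Fermat.Agent.GAL.Desc.isFF_FF_Kbar M
  have := Igusa.isAlgClosed_residueField A
  have := Igusa.isFF_E (IsLocalRing.ResidueField ↥A) M hM
  obtain ⟨r, hr⟩ := RED.exists_isRedMap (RM A M hM) (RM_isCartesian A M hM) hg
  obtain ⟨a, ha⟩ := exists_mem_redSub_L hr (map_poleDiv_jF A M hM r hr).1 (by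
    rw [Level_degree_poleDiv_jF]
    exact_mod_cast DegreeAlpha.dedekindPsi_pos M) v hv
  obtain ⟨u, hu0, huV, huO, huv⟩ := exists_lift_mem A hq hA M hM _
    (fun τ _ f hf => smul_mem_L _ (galois_smul_jF M τ) _ hf) ha
  exact ⟨u, isIntegral_O0_of_mem A M hM u hu0
    (isIntegral_K0_of_regOff A M u (mem_regOff_of_mem_L huV)), huO, huv⟩

include hq hA in
/-- **AA2, chart at infinity.** -/
theorem exists_lift_K0_inv (hg : GoodRed A M) (v : Igusa.E (IsLocalRing.ResidueField ↥A) M)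
    (hv : v ∈ regOff (IsLocalRing.ResidueField ↥A) (Igusa.jb (IsLocalRing.ResidueField ↥A) M)⁻¹) :
    ∃ u : FF (K0 A) M, IsIntegral (Oc (O0 A) (j0 A M)⁻¹) u ∧
      (bc0 A M u : FN M) ∈ (RM A M hM).O ∧ (RM A M hM).red (bc0 A M u) = v := by
  have : Lib.RR.IsFF Kbar (FN M) := Fermat.Agent.GAL.Desc.isFF_FF_Kbar M
  have := Igusa.isAlgClosed_residueField A
  have := Igusa.isFF_E (IsLocalRing.ResidueField ↥A) M hM
  obtain ⟨r, hr⟩ := RED.exists_isRedMap (RM A M hM) (RM_isCartesian A M hM) hg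
  obtain ⟨a, ha⟩ := exists_mem_redSub_L hr (map_poleDiv_jF A M hM r hr).2 (by
    rw [Level_degree_poleDiv_inv, Level_degree_poleDiv_jF]
    exact_mod_cast DegreeAlpha.dedekindPsi_pos M) v hv
  obtain ⟨u, hu0, huV, huO, huv⟩ := exists_lift_mem A hq hA M hM _
    (fun τ _ f hf => smul_mem_L _ (galois_smul_jF_inv M τ) _ hf) ha
  exact ⟨u, isIntegral_O0_of_mem_inv A M hM u hu0
    (isIntegral_K0_of_regOff_inv A M u (mem_regOff_of_mem_L huV)), huO, huv⟩

end Fermat.Agent.S36R.AA
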