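import Fermat.Agent.S36R.NormC.Good
import Fermat.Agent.S36R.AA.Inst

/-!
# S36, route R, block AA: the two old embeddings `p0, p2 : FF (K0 A) M → FF (K0 A) (M q q)` and their expansions

For `S : NormC.Setup A M q`:  `S.p0 u = α (α u)` (`u(t) ↦ u(t)`), `S.p2 u = β (β u)` (`u(t) ↦ u(t^{q²})`), and

|          | `p0 u`       | `p2 u`      |
|----------|--------------|-------------|
| `S.e0`   | `u(t)`       | `u(t^{q²})` |
| `S.e1`   | `u(t)`       | `u(ζ t)`    |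
| `S.e2`   | `u(t^{q²})`  | `u(t)`      |
-/

set_option autoImplicit false
set_option linter.unusedSectionVars false

noncomputable section

namespace Fermat.Agent.S36R.NormC.Setup

open AlgebraicCurve ModularCurve Fermat.Agent.S24 Fermat.Agent.GAL Fermat.Agent.GAL.Gauss
  Fermat.Agent.DR.Conc Fermat.Agent.S36.StepA

variable {A : ValuationSubring Kbar} {M q : ℕ} [NeZero M] [NeZero q] (S : Setup A M q)

/-- `α : FF K0 M → FF K0 (M q)`. -/
def al1' (_ : Setup A M q) : FF (K0 A) M →ₐ[K0 A] FF (K0 A) (M * q) := heckeAlphaBar (K0 A) M q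

/-- `β : FF K0 M → FF K0 (M q)`. -/
def be1' (_ : Setup A M q) : FF (K0 A) M →ₐ[K0 A] FF (K0 A) (M * q) := heckeBetaBar (K0 A) M q

/-- `u(t) ↦ u(t)`. -/
def p0 : FF (K0 A) M →ₐ[K0 A] S.F := S.al.comp S.al1'

/-- `u(t) ↦ u(t^{q²})`. -/
def p2 : FF (K0 A) M →ₐ[K0 A] S.F := S.be.comp S.be1'

theorem p0_apply (u : FF (K0 A) M) : S.p0 u = S.al (S.al1' u) := rfl

theorem p2_apply (u : FF (K0 A) M) : S.p2 u = S.be (S.be1' u) := rfl

theorem bc0_al1' (u : FF (K0 A) M) :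
    bc0 A (M * q) (S.al1' u) = heckeAlphaBar Kbar M q (bc0 A M u) := by
  apply Subtype.ext
  rw [coe_bc0, coe_heckeAlphaBar, coe_bc0, al1', coe_heckeAlphaBar]

theorem bc0_be1' (u : FF (K0 A) M) :
    bc0 A (M * q) (S.be1' u) = heckeBetaBar Kbar M q (bc0 A M u) := by
  apply Subtype.ext
  rw [coe_bc0, coe_heckeBetaBar, coe_bc0, be1', coe_heckeBetaBar, coeffMap_qExpand]

theorem d0_al1' (u : FF (K0 A) M) : S.d0 (S.al1' u) = ((bc0 A M u : FN M) : LaurentSeries Kbar) := by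
  rw [d0_apply, bc0_al1', coe_heckeAlphaBar]

theorem d0_be1' (u : FF (K0 A) M) :
    S.d0 (S.be1' u) = qExpand Kbar q ((bc0 A M u : FN M) : LaurentSeries Kbar) := by
  rw [d0_apply, bc0_be1', coe_heckeBetaBar]

theorem d1_al1' (u : FF (K0 A) M) :
    S.d1 (S.al1' u) = qExpand Kbar q ((bc0 A M u : FN M) : LaurentSeries Kbar) := by
  have h : DR.wq M q (heckeAlphaBar Kbar M q (bc0 A M u)) = heckeBetaBar Kbar M q (bc0 A M u) :=
    AlgHom.congr_fun (DR.wq_comp_alpha S.hq S.hqM) (bc0 A M u)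
  rw [d1_apply, bc0_al1', h, coe_heckeBetaBar]

theorem d1_be1' (u : FF (K0 A) M) : S.d1 (S.be1' u) = ((bc0 A M u : FN M) : LaurentSeries Kbar) := by
  have h : DR.wq M q (heckeBetaBar Kbar M q (bc0 A M u)) = heckeAlphaBar Kbar M q (bc0 A M u) :=
    AlgHom.congr_fun (DR.wq_comp_beta S.hq S.hqM) (bc0 A M u)
  rw [d1_apply, bc0_be1', h, coe_heckeAlphaBar]

theorem e0_p0 (u : FF (K0 A) M) : S.e0 (S.p0 u) = ((bc0 A M u : FN M) : LaurentSeries Kbar) := by
  rw [p0_apply, e0_al, d0_al1']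

theorem e1_p0 (u : FF (K0 A) M) : S.e1 (S.p0 u) = ((bc0 A M u : FN M) : LaurentSeries Kbar) := by
  rw [p0_apply, e1_al, d0_al1']

theorem e2_p0 (u : FF (K0 A) M) :
    S.e2 (S.p0 u) = qExpand Kbar q (qExpand Kbar q ((bc0 A M u : FN M) : LaurentSeries Kbar)) := by
  rw [p0_apply, e2_al, d1_al1']

theorem e0_p2 (u : FF (K0 A) M) :
    S.e0 (S.p2 u) = qExpand Kbar q (qExpand Kbar q ((bc0 A M u : FN M) : LaurentSeries Kbar)) := by
  rw [p2_apply, e0_be, d0_be1']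

theorem e1_p2 (u : FF (K0 A) M) :
    S.e1 (S.p2 u) = Fermat.Agent.S24.twist S.ζ (S.hζ.ne_zero S.hq.ne_zero)
      ((bc0 A M u : FN M) : LaurentSeries Kbar) := by
  rw [p2_apply, e1_be, d1_be1']

theorem e2_p2 (u : FF (K0 A) M) : S.e2 (S.p2 u) = ((bc0 A M u : FN M) : LaurentSeries Kbar) := by
  rw [p2_apply, e2_be, d1_be1']

/-- `j` of level `M q²` is `p0` of `j` of level `M`. -/
theorem p0_j0 : S.p0 (j0 A M) = j0 A (M * q * q) := by
  apply Subtype.ext
  rw [p0_apply, coe_al, al1', coe_heckeAlphaBar]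
  rfl

/-! ### constants -/

theorem bc0_const (N : ℕ) (a : K0 A) :
    ((bc0 A N (algebraMap (K0 A) (FF (K0 A) N) a) : FN N) : LaurentSeries Kbar) =
      HahnSeries.C (a : Kbar) := by
  rw [coe_bc0]
  show coeffMap (algebraMap (K0 A) Kbar) (algebraMap (K0 A) (LaurentSeries (K0 A)) a) = _
  rw [Gauss.algebraMap_eq_C]
  ext n
  rw [coeffMap_coeff, HahnSeries.C_apply, HahnSeries.C_apply, HahnSeries.coeff_single,
    HahnSeries.coeff_single]
  split_ifs
  · rfl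
  · exact map_zero _

theorem e0_const (a : K0 A) : S.e0 (algebraMap (K0 A) S.F a) = HahnSeries.C (a : Kbar) := by
  rw [← S.p0.commutes, e0_p0, bc0_const]

theorem e1_const (a : K0 A) : S.e1 (algebraMap (K0 A) S.F a) = HahnSeries.C (a : Kbar) := by
  rw [← S.p0.commutes, e1_p0, bc0_const]

theorem e2_const (a : K0 A) : S.e2 (algebraMap (K0 A) S.F a) = HahnSeries.C (a : Kbar) := by
  rw [← S.p2.commutes, e2_p2, bc0_const]

end Fermat.Agent.S36R.NormC.Setup
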